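import Fermat.Agent.BoundedGaps.RoughCount
import Mathlib.Data.Nat.ChineseRemainder
import Mathlib.Data.Nat.Nth
import Mathlib.NumberTheory.SmoothNumbers

/-!
# Admissible tuples and consecutive primes

For an admissible tuple `h` the forms are `D! j + (b + h i)`, where by the Chinese remainder theorem
`b` makes every `b + h i` prime to `D!`, lies in a given class mod `q`, and makes each `b + t`
outside the tuple divisible by a prime `≤ D`, so the primes near `n = D! j + b` are in the tuple.
-/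

set_option autoImplicit false

noncomputable section

namespace FA.BoundedGaps

open Finset Filter
open scoped Nat Topology

/-- The shifts do not cover all residues to any prime. -/
def Admissible {k : ℕ} (h : Fin k → ℕ) : Prop :=
  ∀ p : ℕ, p.Prime → ∃ a : ℕ, ∀ i, ¬ h i ≡ a [MOD p]

theorem admissible_of_factorial_dvd {k : ℕ} {h : Fin k → ℕ} (hdvd : ∀ i, k ! ∣ h i) :
    Admissible h := by
  intro p hp
  by_cases hpk : p ≤ k
  · refine ⟨1, fun i hi => hp.not_dvd_one ?_⟩
    exact Nat.modEq_zero_iff_dvd.1 (hi.symm.trans (Nat.modEq_zero_iff_dvd.2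
      ((hp.dvd_factorial.2 hpk).trans (hdvd i))))
  · by_contra hcon
    push Not at hcon
    have hsub : range p ⊆ (univ : Finset (Fin k)).image fun i => h i % p := fun a ha => by
      obtain ⟨i, hi⟩ := hcon a
      exact mem_image.2 ⟨i, mem_univ i, Eq.trans hi (Nat.mod_eq_of_lt (mem_range.1 ha))⟩
    have := (card_le_card hsub).trans card_image_le
    rw [card_range, card_univ, Fintype.card_fin] at this
    omega

/-- The primes that make the numbers outside the tuple composite. -/
def coverPrime (B t : ℕ) : ℕ := Nat.nth Nat.Prime (B + t)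

theorem lt_coverPrime (B t : ℕ) : B + t < coverPrime B t :=
  lt_of_lt_of_le (Nat.lt_add_of_pos_right two_pos) (Nat.add_two_le_nth_prime _)

/-- **The class of `n`.** -/
theorem exists_base {k : ℕ} {h : Fin k → ℕ} (hadm : Admissible h) {q a : ℕ} (hq : 0 < q)
    (ha : ∀ i, (a + h i).Coprime q) (H : ℕ) (hH : ∀ i, h i ≤ H) : ∃ D₁ : ℕ, H < D₁ ∧ q ≤ D₁ ∧
      ∀ D, D₁ ≤ D → ∃ b, 0 < b ∧ (∀ i, (b + h i).Coprime D !) ∧ b ≡ a [MOD q] ∧
        ∀ t ≤ H, (∀ i, h i ≠ t) → ∃ p, p.Prime ∧ p ≤ D ∧ p ∣ b + t := by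
  classical
  obtain ⟨B, hB⟩ : ∃ B, B = H + q := ⟨_, rfl⟩
  refine ⟨(range (H + 1)).sup (coverPrime B) + H + q + 1, by omega, by omega, fun D hD => ?_⟩
  have hcp : ∀ t ≤ H, coverPrime B t ≤ D := fun t ht => by
    have := le_sup (f := coverPrime B) (mem_range.2 (show t < H + 1 by omega))
    omega
  choose α hα using hadm
  obtain ⟨r, hr⟩ : ∃ r : ℕ → ℕ, r = fun p => if hp : p.Prime then
      (if hc : ∃ t, t ≤ H ∧ (∀ i, h i ≠ t) ∧ coverPrime B t = p then p - hc.choose
        else p - α p hp % p) else 0 := ⟨_, rfl⟩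
  obtain ⟨P, hP⟩ : ∃ P, P = ((Icc 1 D).filter fun p => p.Prime ∧ ¬ p ∣ q) := ⟨_, rfl⟩
  have hqP : q ∉ P := by simp [hP]
  have hpair : Set.Pairwise (↑(insert q P) : Set ℕ) (Function.onFun Nat.Coprime fun x => x) := by
    intro x hx y hy hxy
    rw [mem_coe, mem_insert] at hx hy
    simp only [hP, mem_filter] at hx hy
    rcases hx with hx | ⟨-, hx1, hx2⟩ <;> rcases hy with hy | ⟨-, hy1, hy2⟩
    · exact absurd (hx.trans hy.symm) hxy
    · exact (hy1.coprime_iff_not_dvd.2 (hx ▸ hy2)).symm
    · exact hx1.coprime_iff_not_dvd.2 (hy ▸ hx2)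
    · exact (Nat.coprime_primes hx1 hy1).2 hxy
  obtain ⟨b₀, hb₀⟩ := Nat.chineseRemainderOfFinset (fun x => if x = q then a else r x) (fun x => x)
    (insert q P) (fun x hx => by
      rw [mem_insert, hP, mem_filter] at hx
      rcases hx with hx | ⟨-, hx, -⟩
      · exact hx ▸ hq.ne'
      · exact hx.ne_zero) hpair
  have hb0q : b₀ ≡ a [MOD q] := by simpa using hb₀ q (mem_insert_self q P)
  have hb0p : ∀ p ∈ P, b₀ ≡ r p [MOD p] := fun p hp => by
    simpa [show p ≠ q from fun e => hqP (e ▸ hp)] using hb₀ p (mem_insert_of_mem hp)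
  obtain ⟨b, hbdef⟩ : ∃ b, b = b₀ + D ! := ⟨_, rfl⟩
  have hb : ∀ {p x : ℕ}, p ∣ D ! → b₀ ≡ x [MOD p] → b ≡ x [MOD p] := fun {p x} hp hx => by
    have := hx.add (Nat.modEq_zero_iff_dvd.2 hp)
    rwa [add_zero, ← hbdef] at this
  refine ⟨b, by have := Nat.factorial_pos D; omega,
    fun i => Nat.coprime_of_dvd fun p hp h1 h2 => ?_,
    hb (Nat.dvd_factorial hq (by omega)) hb0q, fun t ht hne => ?_⟩
  · have hpD : p ≤ D := hp.dvd_factorial.1 h2
    by_cases hpq : p ∣ q
    · have h3 : b + h i ≡ a + h i [MOD p] :=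
        ((hb (Nat.dvd_factorial hq (by omega)) hb0q).of_dvd hpq).add_right _
      exact hp.not_dvd_one ((Nat.Coprime.gcd_eq_one (ha i)) ▸
        Nat.dvd_gcd ((h3.dvd_iff dvd_rfl).1 h1) hpq)
    · have hmem : p ∈ P := hP ▸ mem_filter.2 ⟨mem_Icc.2 ⟨hp.one_le, hpD⟩, hp, hpq⟩
      have h3 := ((hb h2 (hb0p p hmem)).add_right (h i)).dvd_iff dvd_rfl |>.1 h1
      rw [hr] at h3
      dsimp only at h3
      rw [dif_pos hp] at h3
      by_cases hc : ∃ t, t ≤ H ∧ (∀ i, h i ≠ t) ∧ coverPrime B t = p
      · rw [dif_pos hc] at h3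
        obtain ⟨ht, hne, hpe⟩ := hc.choose_spec
        have hlt := lt_coverPrime B hc.choose
        rw [hpe] at hlt
        refine hne i (Nat.ModEq.eq_of_lt_of_lt ?_ (m := p) (by have := hH i; omega) (by omega))
        have h4 := (Nat.modEq_zero_iff_dvd.2 h3).add_right hc.choose
        rw [zero_add, show p - hc.choose + h i + hc.choose = h i + p by omega] at h4
        exact (Nat.add_modEq_right (n := p) (a := h i)).symm.trans h4
      · rw [dif_neg hc] at h3
        refine hα p hp i ?_
        have hlt := Nat.mod_lt (α p hp) hp.pos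
        have h4 := (Nat.modEq_zero_iff_dvd.2 h3).add_right (α p hp % p)
        rw [zero_add, show p - α p hp % p + h i + α p hp % p = h i + p by omega] at h4
        exact ((Nat.add_modEq_right (n := p) (a := h i)).symm.trans h4).trans (Nat.mod_modEq _ p)
  · have hpp : (coverPrime B t).Prime := Nat.prime_nth_prime _
    have hlt := lt_coverPrime B t
    have hmem : coverPrime B t ∈ P := by
      refine hP ▸ mem_filter.2 ⟨mem_Icc.2 ⟨hpp.one_le, hcp t ht⟩, hpp, fun hd => ?_⟩
      have := Nat.le_of_dvd hq hd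
      omega
    refine ⟨coverPrime B t, hpp, hcp t ht, ?_⟩
    have h3 := hb (hpp.dvd_factorial.2 (hcp t ht)) (hb0p _ hmem)
    have hc : ∃ t', t' ≤ H ∧ (∀ i, h i ≠ t') ∧ coverPrime B t' = coverPrime B t :=
      ⟨t, ht, hne, rfl⟩
    have het : hc.choose = t :=
      add_left_cancel (Nat.nth_injective Nat.infinite_setOfPred_prime hc.choose_spec.2.2)
    rw [hr] at h3
    dsimp only at h3
    rw [dif_pos hpp, dif_pos hc, het] at h3
    refine ((h3.add_right t).dvd_iff dvd_rfl).2 ?_
    rw [Nat.sub_add_cancel (by omega)]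

/-- The `n ≤ x` in the class with more than `m` of the `n + h i` prime, none of them with a prime
`p`, `p ^ M < x`, and no other prime among the `n + t`, `t ≤ H`. -/
def patternSet {k : ℕ} (h : Fin k → ℕ) (H m M q a x : ℕ) : Finset ℕ :=
  (Icc 1 x).filter fun n => m < #(univ.filter fun i => (n + h i).Prime) ∧
    (∀ i, ∀ p ∈ (n + h i).primeFactors, x ≤ p ^ M) ∧ n ≡ a [MOD q] ∧
      ∀ t ≤ H, (∀ i, h i ≠ t) → ¬ (n + t).Prime

/-- **Maynard's theorem for an admissible tuple**, with a count. -/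
theorem exists_card_patternSet (m : ℕ) : ∃ k : ℕ, 0 < k ∧ ∀ h : Fin k → ℕ, Function.Injective h →
    Admissible h → ∀ q a : ℕ, 0 < q → (∀ i, (a + h i).Coprime q) → ∀ H, (∀ i, h i ≤ H) →
      ∃ (M : ℕ) (c : ℝ), 0 < c ∧ ∀ᶠ x : ℕ in atTop,
        c * x / Real.log x ^ k ≤ #(patternSet h H m M q a x) := by
  classical
  obtain ⟨k, D₀, hk, hmain⟩ := exists_count_rough_prime_forms m
  refine ⟨k, hk, fun h hinj hadm q a hq ha H hH => ?_⟩
  obtain ⟨D₁, hHD₁, hqD₁, hbase⟩ := exists_base hadm hq ha H hH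
  obtain ⟨D, hD₀, hD₁, hkD⟩ : ∃ D, D₀ ≤ D ∧ D₁ ≤ D ∧ k ≤ D :=
    ⟨D₀ + D₁ + k, by omega, by omega, by omega⟩
  obtain ⟨b, hb0, hbco, hba, hbt⟩ := hbase D hD₁
  let inst : Shifts := ⟨fun i => if hi : i < k then b + h ⟨i, hi⟩ else 1⟩
  have hsh : ∀ i : Fin k, shift i = b + h i := fun i => dif_pos i.2
  have hT : AdmissibleTuple k D := by
    refine ⟨hkD, fun i => hsh i ▸ Nat.add_pos_left hb0 _, fun i => hsh i ▸ hbco i,
      fun i j hij p hp hDp hmod => hij (hinj ?_)⟩
    rw [hsh, hsh] at hmod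
    exact (Nat.ModEq.add_left_cancel' b hmod).eq_of_lt_of_lt (by have := hH i; omega)
      (by have := hH j; omega)
  obtain ⟨M, c, hc, hev⟩ := hmain D hD₀ hT
  have hW := Nat.factorial_pos D
  obtain ⟨W, hWdef⟩ : ∃ W, W = D ! := ⟨_, rfl⟩
  rw [← hWdef] at hW
  refine ⟨2 * M, c / (6 * W), by positivity, ?_⟩
  have htend : Tendsto (fun x : ℕ => x / (3 * W)) atTop atTop :=
    Nat.tendsto_div_const_atTop (by omega)
  filter_upwards [htend.eventually hev, htend.eventually (eventually_ge_atTop (6 * W + b)),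
    eventually_ge_atTop 2] with x hx hxN hx2
  obtain ⟨N, hN⟩ : ∃ N, N = x / (3 * W) := ⟨_, rfl⟩
  rw [← hN] at hx hxN
  have h1 : 3 * W * N ≤ x := hN ▸ Nat.mul_div_le x (3 * W)
  have h2 : x < 3 * W * N + 3 * W := by
    have := Nat.lt_div_mul_add (a := x) (show 0 < 3 * W by omega)
    rwa [← hN, mul_comm N] at this
  have hN2 : 2 ≤ N := by omega
  have h3 : x ≤ 6 * W * N := by
    have : 3 * W ≤ 3 * W * N := Nat.le_mul_of_pos_right _ (by omega)
    linarith
  have hxsq : x ≤ N ^ 2 := by
    rw [sq]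
    exact h3.trans (Nat.mul_le_mul_right N (by omega))
  have hlog : 0 < Real.log N := Real.log_pos (by exact_mod_cast (show 1 < N by omega))
  have hlogle : Real.log N ≤ Real.log x := Real.log_le_log (Nat.cast_pos.2 (by omega))
    (Nat.cast_le.2 ((Nat.le_mul_of_pos_left N (by omega : 0 < 3 * W)).trans h1))
  calc c / (6 * W) * x / Real.log x ^ k ≤ c * N / Real.log x ^ k := by
        refine div_le_div_of_nonneg_right ?_ (pow_nonneg (by linarith) k)
        rw [div_mul_eq_mul_div, div_le_iff₀ (by positivity), mul_assoc]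
        refine mul_le_mul_of_nonneg_left ?_ hc.le
        exact_mod_cast (show x ≤ N * (6 * W) by linarith)
    _ ≤ c * N / Real.log N ^ k := by
        gcongr
    _ ≤ _ := hx
    _ ≤ _ := by
        refine Nat.cast_le.2 (card_le_card_of_injOn (fun j => W * j + b) (fun j hj => ?_)
          fun u _ v _ e => Nat.eq_of_mul_eq_mul_left hW (Nat.add_right_cancel e))
        rw [mem_coe, mem_filter, mem_Ioc] at hj
        obtain ⟨⟨hj1, hj2⟩, hjm, hjr⟩ := hj
        have e : ∀ i : Fin k, W * j + b + h i = form D i j := fun i => by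
          rw [form, hWdef, hsh]
          ring
        have hbig : W ≤ W * j := Nat.le_mul_of_pos_right _ (by omega)
        rw [mem_coe, patternSet, mem_filter, mem_Icc]
        refine ⟨⟨?_, ?_⟩, by simpa only [e] using hjm, fun i p hp => ?_, ?_,
          fun t ht hne hprime => ?_⟩
        · show 1 ≤ W * j + b
          omega
        · show W * j + b ≤ x
          have h4 : W * j ≤ W * (2 * N) := Nat.mul_le_mul_left W hj2
          have h5 : b ≤ W * N := le_trans (by omega : b ≤ N) (Nat.le_mul_of_pos_left N hW)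
          rw [mul_assoc] at h1
          rw [mul_left_comm] at h4
          omega
        · simp only [e] at hp
          refine hxsq.trans ((Nat.pow_le_pow_left (hjr i p hp) 2).trans (le_of_eq ?_))
          rw [← pow_mul, mul_comm]
        · show W * j + b ≡ a [MOD q]
          have h4 : W * j ≡ 0 [MOD q] := Nat.modEq_zero_iff_dvd.2
            (hWdef ▸ (Nat.dvd_factorial hq (by omega)).trans (dvd_mul_right _ j))
          simpa using h4.add hba
        · obtain ⟨p, hp, hpD, hpd⟩ := hbt t ht hne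
          have hd : p ∣ W * j + b + t := by
            rw [add_assoc]
            exact dvd_add (dvd_mul_of_dvd_left (hWdef ▸ hp.dvd_factorial.2 hpD) j) hpd
          have heq : p = W * j + b + t := (Nat.prime_dvd_prime_iff_eq hp hprime).1 hd
          have hDW : D ≤ W := hWdef ▸ D.self_le_factorial
          omega

theorem count_eq_count_succ {p q : ℕ} (hpq : p < q) (hbet : ∀ x, p < x → x < q → ¬ x.Prime) :
    Nat.count Nat.Prime q = Nat.count Nat.Prime (p + 1) := by
  have key : ∀ y, p + 1 ≤ y → y ≤ q → Nat.count Nat.Prime y = Nat.count Nat.Prime (p + 1) := by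
    intro y hy
    induction y, hy using Nat.le_induction with
    | base => exact fun _ => rfl
    | succ y hy ih =>
      intro hyq
      rw [← ih (by omega)]
      exact Nat.count_succ_eq_count (hbet y (by omega) (by omega))
  exact key q hpq le_rfl

/-- **Primes with none between them are consecutive.** -/
theorem exists_nth_eq_of_consecutive {L : ℕ} (P : Fin (L + 1) → ℕ) (hP : ∀ i, (P i).Prime)
    (hmono : StrictMono P)
    (hcons : ∀ (i : Fin L) (x : ℕ), P i.castSucc < x → x < P i.succ → ¬ x.Prime) :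
    ∃ r, ∀ i : Fin (L + 1), Nat.nth Nat.Prime (r + i) = P i := by
  refine ⟨Nat.count Nat.Prime (P 0), fun i => ?_⟩
  suffices h : Nat.count Nat.Prime (P i) = Nat.count Nat.Prime (P 0) + i by
    rw [← h]
    exact Nat.nth_count (hP i)
  induction i using Fin.induction with
  | zero => simp
  | succ i ih =>
    rw [count_eq_count_succ (hmono Fin.castSucc_lt_succ) (hcons i),
      Nat.count_succ_eq_succ_count (hP _), ih]
    simp [add_assoc]

end FA.BoundedGaps
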