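import Fermat.Agent.BoundedGaps.AwayMoment

/-!
# The mean of `f²` away from the `m`-th form: the final inequality

`low ^ 2 ≤ E_m[f²] (∑ g² cw / a) ^ (k - 1)`, where `low` only depends on one-dimensional sums.
-/

set_option autoImplicit false
set_option linter.unusedSectionVars false

noncomputable section

namespace FA.BoundedGaps

open Finset
open scoped Nat

variable [Shifts]

variable {k D R : ℕ}

theorem excess_le (hD : 5 ≤ D) (hk : 1 ≤ k) :
    excess k D R ≤ Real.exp (4 * k / D) := by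
  have hk1 : (1 : ℝ) ≤ k := by exact_mod_cast hk
  refine (Real.prod_one_add_le_exp_sum _ fun p => by
    exact div_nonneg (sub_nonneg.2 hk1) (sq_nonneg _)).trans (Real.exp_le_exp.2 ?_)
  refine (sum_le_sum (g := fun p : ℕ => 4 * (k : ℝ) * ((p : ℝ) ^ 2)⁻¹) fun p hp => ?_).trans ?_
  · have h6 := three_le_of_mid hD hp
    rw [← div_eq_mul_inv, div_le_div_iff₀ (by nlinarith) (by positivity)]
    nlinarith [mul_nonneg (sub_nonneg.2 hk1) (sq_nonneg ((p : ℝ) - 2)),
      mul_nonneg (show (0 : ℝ) ≤ k by linarith) (show (0 : ℝ) ≤ (p : ℝ) - 2 by linarith)]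
  · rw [← mul_sum, div_eq_mul_inv]
    exact mul_le_mul_of_nonneg_left (sum_midPrimes_inv_sq_le (by omega)) (by linarith)

/-- Two coordinates with a common prime. -/
theorem sum_boxAt_dvd_le {p : ℕ} (hp : 0 < p) {m i j : Fin k} (hij : i ≠ j) (hi : i ≠ m)
    (hj : j ≠ m) :
    ∑ s ∈ boxAt D R m, (if p ∣ s i ∧ p ∣ s j then ∏ l, ((s l : ℕ) : ℝ)⁻¹ else 0) ≤
      ((p : ℝ) ^ 2)⁻¹ * (oneSum D R fun a => (a : ℝ)⁻¹) ^ (k - 1) := by
  obtain ⟨F, hF⟩ : ∃ F : Fin k → ℕ → ℝ, F = fun l a =>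
      if l = i ∨ l = j then (if p ∣ a then (a : ℝ)⁻¹ else 0) else (a : ℝ)⁻¹ := ⟨_, rfl⟩
  have e : ∀ s : Fin k → ℕ,
      (if p ∣ s i ∧ p ∣ s j then ∏ l, ((s l : ℕ) : ℝ)⁻¹ else 0) = ∏ l, F l (s l) := by
    intro s
    split_ifs with h
    · refine prod_congr rfl fun l _ => ?_
      simp only [hF]
      split_ifs with h1 h2
      · rfl
      · rcases h1 with rfl | rfl
        · exact absurd h.1 h2
        · exact absurd h.2 h2
      · rfl
    · rw [not_and_or] at h
      rcases h with h | h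
      · exact (prod_eq_zero (mem_univ i) (by simp [hF, h])).symm
      · exact (prod_eq_zero (mem_univ j) (by simp [hF, h])).symm
  simp only [e]
  rw [boxAt, ← prod_univ_sum (fun l : Fin k => if l = m then {1} else rough D R) F]
  refine (prod_le_prod (g := fun l => (if l = i ∨ l = j then (p : ℝ)⁻¹ else 1) *
    (if l = m then 1 else oneSum D R fun a => (a : ℝ)⁻¹)) (fun l _ => sum_nonneg fun a _ => ?_)
      fun l _ => ?_).trans (le_of_eq ?_)
  · simp only [hF]
    split_ifs <;> positivity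
  · by_cases hl : l = m
    · subst hl
      simp [hF, hi.symm, hj.symm]
    · simp only [if_neg hl, hF]
      by_cases hl2 : l = i ∨ l = j
      · simp only [if_pos hl2]
        rw [← sum_filter]
        exact sum_rough_dvd_le hp
      · simp [if_neg hl2, oneSum]
  · rw [prod_mul_distrib]
    congr 1
    · rw [prod_ite, prod_const_one, mul_one, prod_const,
        show univ.filter (fun l => l = i ∨ l = j) = {i, j} by ext; simp, card_pair hij, inv_pow]
    · rw [← mul_prod_erase univ _ (mem_univ m), if_pos rfl, one_mul,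
        prod_congr rfl fun l hl => if_neg (mem_erase.1 hl).1, prod_const,
        card_erase_of_mem (mem_univ m), card_univ, Fintype.card_fin]

/-- `∑ g² / a` over the test tuples, from below. -/
theorem le_sum_testSet (hD : 1 ≤ D) {m : Fin k} {g : ℕ → ℝ} (hg : ∀ a, 0 ≤ g a ∧ g a ≤ 1)
    (hg1 : g 1 = 1) {τ : ℝ} (hR : 1 ≤ R) (hτ : 0 < τ) (hτR : τ ≤ Real.log R) :
    (oneSum D R fun a => g a ^ 2 / a) ^ (k - 1) -
        ((k : ℝ) - 1) * (oneSum D R fun a => Real.log a * (g a ^ 2 / a)) *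
          (oneSum D R fun a => g a ^ 2 / a) ^ (k - 2) / τ -
        (k : ℝ) ^ 2 / D * (oneSum D R fun a => (a : ℝ)⁻¹) ^ (k - 1) ≤
      ∑ s ∈ testSet D R m τ, ∏ i, g (s i) ^ 2 / (s i : ℕ) := by
  classical
  have hsub : testSet D R m τ ⊆ boxAt D R m :=
    (filter_subset _ _).trans (suppAt_subset_boxAt m)
  have hsum : ∑ s ∈ boxAt D R m, ∏ i, g (s i) ^ 2 / (s i : ℕ) =
      (oneSum D R fun a => g a ^ 2 / a) ^ (k - 1) :=
    sum_boxAt_prod m (f := fun a : ℕ => g a ^ 2 / (a : ℕ)) (by simp [hg1])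
  rw [← hsum, ← sum_sdiff hsub]
  have hbad : ∀ s ∈ boxAt D R m \ testSet D R m τ, (∏ i, g (s i) ^ 2 / (s i : ℕ)) ≤
      (∑ i ∈ univ.erase m, Real.log (s i : ℕ) * ∏ l, g (s l) ^ 2 / (s l : ℕ)) / τ +
      ∑ i ∈ univ.erase m, ∑ j ∈ (univ.erase m).erase i, ∑ p ∈ midPrimes D R,
        if p ∣ s i ∧ p ∣ s j then ∏ l, ((s l : ℕ) : ℝ)⁻¹ else 0 := by
    intro s hs
    rw [mem_sdiff, mem_boxAt hR] at hs
    obtain ⟨⟨hr, hsm⟩, hnot⟩ := hs
    obtain ⟨P, hP⟩ : ∃ P, P = ∏ i, g (s i) ^ 2 / (s i : ℕ) := ⟨_, rfl⟩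
    have hP0 : 0 ≤ P := hP ▸ prod_nonneg fun i _ => div_nonneg (sq_nonneg _) (Nat.cast_nonneg _)
    have hlog0 : ∀ i, 0 ≤ Real.log (s i : ℕ) := fun i => Real.log_natCast_nonneg _
    have hA : 0 ≤ (∑ i ∈ univ.erase m, Real.log (s i : ℕ) * P) / τ :=
      div_nonneg (sum_nonneg fun i _ => mul_nonneg (hlog0 i) hP0) hτ.le
    have hB : ∀ i j : Fin k, 0 ≤ ∑ p ∈ midPrimes D R,
        if p ∣ s i ∧ p ∣ s j then ∏ l, ((s l : ℕ) : ℝ)⁻¹ else 0 := fun i j =>
      sum_nonneg fun p _ => by split_ifs <;> positivity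
    rw [← hP]
    have hne : ∀ i, ((s i : ℕ) : ℝ) ≠ 0 := fun i =>
      Nat.cast_ne_zero.2 (Nat.one_le_iff_ne_zero.1 (mem_rough.1 (hr i)).1.1)
    by_cases hτ' : Real.log ((∏ i, s i : ℕ) : ℝ) ≤ τ
    · have hle : ∏ i, s i ≤ R := by
        have hpos : 0 < ∏ i, s i := prod_pos fun i _ => (mem_rough.1 (hr i)).1.1
        rw [← Nat.cast_le (α := ℝ)]
        exact (Real.log_le_log_iff (Nat.cast_pos.2 hpos) (Nat.cast_pos.2 hR)).1 (hτ'.trans hτR)
      have hsq : ¬ Squarefree (∏ i, s i) := fun h =>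
        hnot (mem_filter.2 ⟨mem_filter.2 ⟨mem_supp.2 ⟨hr, h, hle⟩, hsm⟩, hτ'⟩)
      rw [squarefree_prod_iff fun i => (mem_rough.1 (hr i)).2.1] at hsq
      push Not at hsq
      obtain ⟨i, j, hij, hco⟩ := hsq
      obtain ⟨p, hp, hpi, hpj⟩ := Nat.Prime.not_coprime_iff_dvd.1 hco
      have him : i ≠ m := fun h => hp.not_dvd_one (hsm ▸ h ▸ hpi)
      have hjm : j ≠ m := fun h => hp.not_dvd_one (hsm ▸ h ▸ hpj)
      refine le_add_of_nonneg_of_le hA ?_
      refine le_trans ?_ (single_le_sum (fun i' _ => sum_nonneg fun j' _ => hB i' j')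
        (mem_erase.2 ⟨him, mem_univ i⟩))
      refine le_trans ?_ (single_le_sum (fun j' _ => hB i j')
        (mem_erase.2 ⟨hij.symm, mem_erase.2 ⟨hjm, mem_univ j⟩⟩))
      refine le_trans ?_ (single_le_sum (fun q _ => by split_ifs <;> positivity)
        (primeFactors_subset (hr i) (Nat.mem_primeFactors.2 ⟨hp, hpi,
          Nat.one_le_iff_ne_zero.1 (mem_rough.1 (hr i)).1.1⟩)))
      rw [if_pos ⟨hpi, hpj⟩, hP]
      refine prod_le_prod (fun l _ => div_nonneg (sq_nonneg _) (Nat.cast_nonneg _)) fun l _ => ?_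
      rw [← one_div]
      exact div_le_div_of_nonneg_right (pow_le_one₀ (hg _).1 (hg _).2) (Nat.cast_nonneg _)
    · refine le_add_of_le_of_nonneg ?_ (sum_nonneg fun i _ => sum_nonneg fun j _ => hB i j)
      rw [le_div_iff₀ hτ, ← sum_mul, mul_comm]
      refine mul_le_mul_of_nonneg_right ?_ hP0
      have e : Real.log ((∏ i, s i : ℕ) : ℝ) = ∑ i ∈ univ.erase m, Real.log (s i : ℕ) := by
        rw [Nat.cast_prod, Real.log_prod fun i _ => hne i, ← add_sum_erase _ _ (mem_univ m),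
          hsm, Nat.cast_one, Real.log_one, zero_add]
      linarith [not_le.1 hτ']
  have h1 := sum_le_sum hbad
  rw [sum_add_distrib, ← sum_div] at h1
  have h2 : ∑ s ∈ boxAt D R m \ testSet D R m τ,
      ∑ i ∈ univ.erase m, Real.log (s i : ℕ) * ∏ l, g (s l) ^ 2 / (s l : ℕ) ≤
      ((k : ℝ) - 1) * (oneSum D R fun a => Real.log a * (g a ^ 2 / a)) *
          (oneSum D R fun a => g a ^ 2 / a) ^ (k - 2) := by
    refine (sum_le_sum_of_subset_of_nonneg sdiff_subset fun s _ _ => sum_nonneg fun i _ =>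
      mul_nonneg (Real.log_natCast_nonneg _)
        (prod_nonneg fun l _ => div_nonneg (sq_nonneg _) (Nat.cast_nonneg _))).trans (le_of_eq ?_)
    rw [sum_comm]
    have e1 : ∀ i ∈ univ.erase m, ∑ s ∈ boxAt D R m,
        Real.log (s i : ℕ) * ∏ l, g (s l) ^ 2 / (s l : ℕ) =
        (oneSum D R fun a => Real.log a * (g a ^ 2 / a)) *
          (oneSum D R fun a => g a ^ 2 / a) ^ (k - 2) := fun i hi => by
      rw [oneSum, oneSum, ← sum_boxAt_single m i (mem_erase.1 hi).1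
        (f := fun a : ℕ => g a ^ 2 / (a : ℕ)) (by simp [hg1])]
      refine sum_congr rfl fun s _ => ?_
      rw [← mul_prod_erase univ _ (mem_univ i), mul_assoc]
    rw [sum_congr rfl e1, sum_const, card_erase_of_mem (mem_univ m), card_univ, Fintype.card_fin,
      nsmul_eq_mul, Nat.cast_sub (by have := m.2; omega), Nat.cast_one, mul_assoc]
  have h3 : ∑ s ∈ boxAt D R m \ testSet D R m τ,
      ∑ i ∈ univ.erase m, ∑ j ∈ (univ.erase m).erase i, ∑ p ∈ midPrimes D R,
        (if p ∣ s i ∧ p ∣ s j then ∏ l, ((s l : ℕ) : ℝ)⁻¹ else 0) ≤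
      (k : ℝ) ^ 2 / D * (oneSum D R fun a => (a : ℝ)⁻¹) ^ (k - 1) := by
    refine (sum_le_sum_of_subset_of_nonneg sdiff_subset fun s _ _ => sum_nonneg fun i _ =>
      sum_nonneg fun j _ => sum_nonneg fun p _ => by split_ifs <;> positivity).trans ?_
    obtain ⟨B, hB⟩ : ∃ B, B = (D : ℝ)⁻¹ * (oneSum D R fun a => (a : ℝ)⁻¹) ^ (k - 1) := ⟨_, rfl⟩
    have hB0 : 0 ≤ B := hB ▸ mul_nonneg (by positivity)
      (pow_nonneg (sum_nonneg fun a _ => by positivity) _)
    rw [div_eq_mul_inv, mul_assoc, ← hB, sum_comm]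
    refine (sum_le_card_nsmul _ _ ((k : ℝ) * B) fun i hi => ?_).trans ?_
    · rw [sum_comm]
      refine (sum_le_card_nsmul _ _ B fun j hj => ?_).trans ?_
      · rw [sum_comm, hB]
        refine (sum_le_sum fun p hp => sum_boxAt_dvd_le (prime_of_mid p hp).pos
          (mem_erase.1 hj).1.symm (mem_erase.1 hi).1
          (mem_erase.1 (mem_erase.1 hj).2).1).trans ?_
        rw [← sum_mul]
        exact mul_le_mul_of_nonneg_right (sum_midPrimes_inv_sq_le hD)
          (pow_nonneg (sum_nonneg fun a _ => by positivity) _)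
      · rw [nsmul_eq_mul]
        exact mul_le_mul_of_nonneg_right (Nat.cast_le.2 ((card_le_univ _).trans
          (Fintype.card_fin k).le)) hB0
    · rw [nsmul_eq_mul, sq, mul_assoc]
      exact mul_le_mul_of_nonneg_right (Nat.cast_le.2 ((card_le_univ _).trans
          (Fintype.card_fin k).le)) (mul_nonneg (Nat.cast_nonneg k) hB0)
  have h4 := div_le_div_of_nonneg_right h2 hτ.le
  linarith

/-- The lower bound for `E_m[f h]`. -/
def lowBound (k D R : ℕ) (g : ℕ → ℝ) (τ : ℝ) : ℝ :=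
  oneSum D R (fun a => g a / a) *
    ((oneSum D R fun a => g a ^ 2 / a) ^ (k - 1) -
      ((k : ℝ) - 1) * (oneSum D R fun a => Real.log a * (g a ^ 2 / a)) *
        (oneSum D R fun a => g a ^ 2 / a) ^ (k - 2) / τ -
      (k : ℝ) ^ 2 / D * (oneSum D R fun a => (a : ℝ)⁻¹) ^ (k - 1)) -
  2 * oneSum D R (fun a => cw (4 * k) a / a) *
    (excess k D R * (oneSum D R fun a => cw (4 * k) a / a) ^ (k - 1) -
      (oneSum D R fun a => (a : ℝ)⁻¹) ^ (k - 1))

theorem avgAway_mul_eq (m : Fin k) (g : ℕ → ℝ) (τ : ℝ) :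
    avgAway D R m (fun c => sieveSum D R g k c * testSum D R m g τ c) =
      ∑ s ∈ testSet D R m τ, (∏ i, g (s i)) / ((∏ i, s i).totient : ℝ) *
        ∑ t ∈ suppAt D R m, foldWeight D R m g t *
          avgAway D R m (fun c => tupleX D R t c * tupleZ D R s c) := by
  classical
  have hswap : avgAway D R m (fun c => sieveSum D R g k c * testSum D R m g τ c) =
      ∑ s ∈ testSet D R m τ, (∏ i, g (s i)) / ((∏ i, s i).totient : ℝ) *
        ∑ r ∈ supp k D R, (∏ i, g (r i)) / ((∏ i, r i).totient : ℝ) *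
          avgAway D R m (fun c => tupleX D R r c * tupleZ D R s c) := by
    simp only [avgAway, sieveSum, testSum, sum_mul_sum]
    simp only [mul_sum, sum_div]
    rw [sum_comm]
    refine (sum_congr rfl fun r _ => sum_comm).trans ?_
    rw [sum_comm]
    exact sum_congr rfl fun s _ => sum_congr rfl fun r _ => sum_congr rfl fun c _ => by ring
  rw [hswap]
  refine sum_congr rfl fun s _ => congrArg _ ?_
  rw [← sum_fiberwise_of_maps_to (g := delAt m) (t := suppAt D R m)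
    fun r hr => mem_filter.2 (delAt_mem hr)]
  refine sum_congr rfl fun t _ => ?_
  rw [foldWeight, sum_mul]
  refine sum_congr rfl fun r hr => congrArg _ ?_
  rw [mem_filter] at hr
  simp only [avgAway, ← mul_assoc]
  refine congrArg (· / _) (sum_congr rfl fun c _ => ?_)
  rw [awayAll_tupleX hr.1 c (m := m), hr.2]

/-- **The mean away from `m`**, from below. -/
theorem lowBound_sq_le (hk : AdmissibleTuple k D) (hD : 5 ≤ D) (m : Fin k) {g : ℕ → ℝ}
    (hg : ∀ a, 0 ≤ g a ∧ g a ≤ 1) (hg1 : g 1 = 1) {τ : ℝ} (hR : 1 ≤ R) (hτ : 0 < τ)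
    (hτR : τ ≤ Real.log R)
    (hsupp : ∀ a ∈ rough D R, g a ≠ 0 → Real.log a + τ ≤ Real.log R)
    (hlow : 0 ≤ lowBound k D R g τ) :
    lowBound k D R g τ ^ 2 ≤ avgAway D R m (fun c => sieveSum D R g k c ^ 2) *
      (oneSum D R fun a => g a ^ 2 * (cw (4 * k) a / a)) ^ (k - 1) := by
  obtain ⟨A₁, hA₁⟩ : ∃ x, x = oneSum D R fun a => (a : ℝ)⁻¹ := ⟨_, rfl⟩
  obtain ⟨Ac, hAc⟩ : ∃ x, x = oneSum D R fun a => cw (4 * k) a / a := ⟨_, rfl⟩
  have hk1 : 1 ≤ k := (Nat.zero_le _).trans_lt m.2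
  have hA : A₁ ≤ Ac := by
    rw [hA₁, hAc]
    exact sum_le_sum fun a _ => by
      rw [← one_div]
      exact div_le_div_of_nonneg_right (one_le_cw (by positivity) _) (Nat.cast_nonneg _)
  have hA0 : 0 ≤ A₁ := hA₁ ▸ sum_nonneg fun a _ => by positivity
  have he := one_le_excess (D := D) (R := R) hk1
  have hterm : ∀ s : Fin k → ℕ, (∏ i, ((s i : ℕ) : ℝ)⁻¹) ≤ ∏ i, cw (4 * k) (s i) / (s i : ℕ) :=
    fun s => prod_le_prod (fun i _ => by positivity) fun i _ => by
      rw [← one_div]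
      exact div_le_div_of_nonneg_right (one_le_cw (by positivity) _) (Nat.cast_nonneg _)
  have hpos : ∀ s : Fin k → ℕ, 0 ≤ ∏ i, cw (4 * k) (s i) / (s i : ℕ) := fun s =>
    (prod_nonneg fun i _ => by positivity).trans (hterm s)
  have hsub : testSet D R m τ ⊆ boxAt D R m :=
    (filter_subset _ _).trans (suppAt_subset_boxAt m)
  have hfh : lowBound k D R g τ ≤
      avgAway D R m (fun c => sieveSum D R g k c * testSum D R m g τ c) := by
    rw [avgAway_mul_eq]
    refine le_trans ?_ (sum_le_sum fun s hs => test_term_le hk hD hg hg1 hsupp hs)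
    rw [sum_sub_distrib, sum_sub_distrib, ← sum_mul, ← mul_sum, ← mul_sum, ← hA₁, ← hAc]
    have h1 := mul_le_mul_of_nonneg_right
      (le_sum_testSet (D := D) (by omega) hg hg1 hR hτ hτR (m := m))
      (show 0 ≤ oneSum D R (fun a => g a / a) from
        sum_nonneg fun a _ => div_nonneg (hg a).1 (Nat.cast_nonneg a))
    have hbox1 : ∑ s ∈ boxAt D R m, ∏ i, ((s i : ℕ) : ℝ)⁻¹ = A₁ ^ (k - 1) :=
      hA₁ ▸ sum_boxAt_prod m (f := fun a : ℕ => ((a : ℕ) : ℝ)⁻¹) (by simp)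
    have hboxc : ∑ s ∈ boxAt D R m, ∏ i, cw (4 * k) (s i) / (s i : ℕ) = Ac ^ (k - 1) :=
      hAc ▸ sum_boxAt_prod m (f := fun a : ℕ => cw (4 * k) a / (a : ℕ)) (by simp [cw])
    have h2 : ∑ s ∈ testSet D R m τ,
        ((∏ i, cw (4 * k) (s i) / (s i : ℕ)) - ∏ i, ((s i : ℕ) : ℝ)⁻¹) ≤
          excess k D R * Ac ^ (k - 1) - A₁ ^ (k - 1) := by
      refine (sum_le_sum_of_subset_of_nonneg hsub fun s _ _ => sub_nonneg.2 (hterm s)).trans ?_
      rw [sum_sub_distrib, hbox1, hboxc]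
      exact sub_le_sub_right (le_mul_of_one_le_left (pow_nonneg (hA0.trans hA) _) he) _
    have h3 : ∑ s ∈ testSet D R m τ,
        (excess k D R * (∏ i, cw (4 * k) (s i) / (s i : ℕ)) - ∏ i, ((s i : ℕ) : ℝ)⁻¹) ≤
          excess k D R * Ac ^ (k - 1) - A₁ ^ (k - 1) := by
      refine (sum_le_sum_of_subset_of_nonneg hsub fun s _ _ => sub_nonneg.2
        ((hterm s).trans (le_mul_of_one_le_left (hpos s) he))).trans ?_
      rw [sum_sub_distrib, ← mul_sum, hbox1, hboxc]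
    have hE : 0 ≤ excess k D R * Ac ^ (k - 1) - A₁ ^ (k - 1) :=
      sub_nonneg.2 ((pow_le_pow_left₀ hA0 hA _).trans
        (le_mul_of_one_le_left (pow_nonneg (hA0.trans hA) _) he))
    rw [lowBound, ← hA₁, ← hAc]
    rw [← hA₁] at h1
    have h4 := mul_le_mul_of_nonneg_left h2 hA0
    have h5 := mul_le_mul_of_nonneg_left h3 (hA0.trans hA)
    have h6 := mul_le_mul_of_nonneg_right hA hE
    linarith
  obtain ⟨den, hden⟩ : ∃ d, d = ∏ p ∈ midPrimes D R, ((p : ℝ) - 1) := ⟨_, rfl⟩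
  have hd0 : 0 < den := hden ▸ prod_sub_one_pos
  have hCS : avgAway D R m (fun c => sieveSum D R g k c * testSum D R m g τ c) ^ 2 ≤
      avgAway D R m (fun c => sieveSum D R g k c ^ 2) *
        avgAway D R m (fun c => testSum D R m g τ c ^ 2) := by
    simp only [avgAway, ← hden]
    rw [div_pow, div_mul_div_comm, sq den]
    refine div_le_div_of_nonneg_right ?_ (mul_self_nonneg den)
    refine sum_sq_le_sum_mul_sum_of_sq_le_mul _ (fun c _ => mul_nonneg (awayAll_nonneg m c)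
      (sq_nonneg _)) (fun c _ => mul_nonneg (awayAll_nonneg m c) (sq_nonneg _))
      fun c _ => le_of_eq ?_
    ring
  refine ((pow_le_pow_left₀ hlow hfh 2).trans hCS).trans
    (mul_le_mul_of_nonneg_left (test_sq_le hk hD hg1) ?_)
  simp only [avgAway, ← hden]
  exact div_nonneg (sum_nonneg fun c _ => mul_nonneg (awayAll_nonneg m c) (sq_nonneg _)) hd0.le

end FA.BoundedGaps
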