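import Fermat.Agent.BoundedGaps.SecondMoment

/-!
# The mean of `f²` away from the `m`-th form, from below

Cauchy's inequality against `h = ∑_s ∏ g (s i) / φ (∏ s) ∏_p (1 - (p - 1) 1[p ∣ L i])`, summed over
the tuples with `s m = 1` and `log ∏ s ≤ τ`.
-/

set_option autoImplicit false
set_option linter.unusedSectionVars false

noncomputable section

namespace FA.BoundedGaps

open Finset
open scoped Nat

variable [Shifts]

variable {k D R : ℕ}

/-- `∑_{a} f a` over rough numbers. -/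
def oneSum (D R : ℕ) (f : ℕ → ℝ) : ℝ := ∑ a ∈ rough D R, f a

/-- `∏_p (1 + (k - 1) / (p - 1) ^ 2)`. -/
def excess (k D R : ℕ) : ℝ :=
  ∏ p ∈ midPrimes D R, (1 + ((k : ℝ) - 1) / ((p : ℝ) - 1) ^ 2)

theorem one_le_excess (hk : 1 ≤ k) : 1 ≤ excess k D R :=
  one_le_prod fun p _ => le_add_of_nonneg_right
    (div_nonneg (sub_nonneg.2 (by exact_mod_cast hk)) (sq_nonneg _))

theorem sum_rough_dvd_le {p : ℕ} (hp : 0 < p) :
    ∑ a ∈ (rough D R).filter (p ∣ ·), ((a : ℕ) : ℝ)⁻¹ ≤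
      (p : ℝ)⁻¹ * oneSum D R fun a => (a : ℝ)⁻¹ := by
  refine (sum_le_sum_of_subset_of_nonneg (t := (rough D R).image (p * ·)) (fun a ha => ?_)
    fun a _ _ => by positivity).trans ?_
  · rw [mem_filter, mem_rough] at ha
    obtain ⟨⟨⟨h1, h2⟩, h3, h4⟩, j, rfl⟩ := ha
    refine mem_image.2 ⟨j, mem_rough.2 ⟨⟨Nat.pos_of_mul_pos_left h1,
      (Nat.le_mul_of_pos_left j hp).trans h2⟩, h3.squarefree_of_dvd (dvd_mul_left j p),
      h4.coprime_dvd_left (dvd_mul_left j p)⟩, rfl⟩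
  · rw [sum_image fun x _ z _ h => Nat.eq_of_mul_eq_mul_left hp h, oneSum, mul_sum]
    exact le_of_eq (sum_congr rfl fun a _ => by push_cast; rw [mul_inv])

theorem one_add_sum_le_prod {S : Finset ℕ} {x : ℕ → ℝ} (hx : ∀ p, 0 ≤ x p) :
    1 + ∑ p ∈ S, x p ≤ ∏ p ∈ S, (1 + x p) := by
  induction S using Finset.induction_on with
  | empty => simp
  | insert p S hp ih =>
    rw [sum_insert hp, prod_insert hp]
    have := mul_le_mul_of_nonneg_left ih (show 0 ≤ 1 + x p by linarith [hx p])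
    have := mul_nonneg (hx p) (sum_nonneg fun q (_ : q ∈ S) => hx q)
    linarith

theorem cw_prod {s : Fin k → ℕ} (hs : s ∈ supp k D R) (C : ℝ) :
    cw C (∏ i, s i) = ∏ i, cw C (s i) := by
  have hpos : ∀ i, s i ≠ 0 := fun i =>
    Nat.one_le_iff_ne_zero.1 (mem_rough.1 ((mem_supp.1 hs).1 i)).1.1
  have h1 : ∀ (T : Finset (Fin k)), cw C (∏ i ∈ T, s i) = ∏ i ∈ T, cw C (s i) := by
    intro T
    induction T using Finset.induction_on with
    | empty => simp [cw]
    | insert i T hi ih =>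
      have hco : (s i).Coprime (∏ j ∈ T, s j) :=
        Nat.Coprime.prod_right fun j hj => coprime_of_supp hs fun e => hi (e ▸ hj)
      rw [prod_insert hi, prod_insert hi, ← ih, cw, cw, cw, hco.primeFactors_mul,
        prod_union hco.disjoint_primeFactors]
  exact h1 univ

/-- The tuples with `r m = 1`. -/
def suppAt (D R : ℕ) (m : Fin k) : Finset (Fin k → ℕ) := (supp k D R).filter fun r => r m = 1

theorem suppAt_subset_boxAt (m : Fin k) : suppAt D R m ⊆ boxAt D R m := by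
  intro r hr
  rw [suppAt, mem_filter] at hr
  have h1 := (mem_rough.1 ((mem_supp.1 hr.1).1 m)).1
  exact (mem_boxAt (h1.1.trans h1.2)).2 ⟨(mem_supp.1 hr.1).1, hr.2⟩

/-- The tuples of the test function. -/
def testSet (D R : ℕ) (m : Fin k) (τ : ℝ) : Finset (Fin k → ℕ) :=
  (suppAt D R m).filter fun s : Fin k → ℕ => Real.log ((∏ i, s i : ℕ) : ℝ) ≤ τ

/-- The test function. -/
def testSum (D R : ℕ) (m : Fin k) (g : ℕ → ℝ) (τ : ℝ) (c : ℕ) : ℝ :=
  ∑ s ∈ testSet D R m τ, (∏ i, g (s i)) / ((∏ i, s i).totient : ℝ) * tupleZ D R s c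

theorem prod_g_delAt {m : Fin k} {g : ℕ → ℝ} (hg1 : g 1 = 1) (r : Fin k → ℕ) :
    ∏ i, g (r i) = g (r m) * ∏ i, g (delAt m r i) := by
  rw [← mul_prod_erase univ _ (mem_univ m),
    ← mul_prod_erase univ (fun i => g (delAt m r i)) (mem_univ m), delAt, Function.update_self,
    hg1, one_mul]
  congr 1
  exact prod_congr rfl fun i hi => by rw [Function.update_of_ne (mem_erase.1 hi).1]

theorem totient_delAt {m : Fin k} {r : Fin k → ℕ} (hr : r ∈ supp k D R) :
    ((∏ i, r i).totient : ℝ) = ((r m).totient : ℝ) * ((∏ i, delAt m r i).totient : ℝ) := by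
  rw [totient_prod_coprime fun i j h => coprime_of_supp hr h,
    totient_prod_coprime fun i j h => coprime_of_supp (delAt_mem (m := m) hr).1 h, ← Nat.cast_mul]
  congr 1
  rw [← mul_prod_erase univ _ (mem_univ m),
    ← mul_prod_erase univ (fun i => (delAt m r i).totient) (mem_univ m), delAt,
    Function.update_self, Nat.totient_one, one_mul]
  congr 1
  exact prod_congr rfl fun i hi => by rw [Function.update_of_ne (mem_erase.1 hi).1]

/-- The collected weight of the tuples over `t`. -/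
def foldWeight (D R : ℕ) (m : Fin k) (g : ℕ → ℝ) (t : Fin k → ℕ) : ℝ :=
  ∑ r ∈ (supp k D R).filter (fun r => delAt m r = t),
    (∏ i, g (r i)) / ((∏ i, r i).totient : ℝ)

theorem abs_foldWeight_le (hD : 5 ≤ D) (hk : 1 ≤ k) {m : Fin k} {g : ℕ → ℝ}
    (hg : ∀ a, 0 ≤ g a ∧ g a ≤ 1) (t : Fin k → ℕ) :
    |foldWeight D R m g t| ≤
      oneSum D R (fun a => cw (4 * k) a / a) / ((∏ i, t i).totient : ℝ) := by
  rw [foldWeight, abs_of_nonneg (sum_nonneg fun r _ =>
    div_nonneg (prod_nonneg fun i _ => (hg _).1) (Nat.cast_nonneg _))]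
  refine (sum_le_sum (g := fun r : Fin k → ℕ =>
    (1 / ((r m).totient : ℝ)) / ((∏ i, t i).totient : ℝ)) fun r hr => ?_).trans ?_
  · rw [mem_filter] at hr
    rw [totient_delAt hr.1 (m := m), hr.2, div_div]
    exact div_le_div_of_nonneg_right (prod_le_one (fun i _ => (hg _).1) fun i _ => (hg _).2)
      (by positivity)
  rw [← sum_div]
  refine div_le_div_of_nonneg_right ?_ (Nat.cast_nonneg _)
  rw [← sum_image (g := fun r : Fin k → ℕ => r m) (f := fun a : ℕ => 1 / (a.totient : ℝ))]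
  · refine (sum_le_sum_of_subset_of_nonneg (t := rough D R) (fun a ha => ?_)
      fun a _ _ => by positivity).trans (sum_le_sum fun a ha => ?_)
    · obtain ⟨r, hr, rfl⟩ := mem_image.1 ha
      exact (mem_supp.1 (mem_filter.1 hr).1).1 m
    · refine (inv_totient_le_cw (by omega) ha).trans (div_le_div_of_nonneg_right
        (cw_mono (by norm_num) ?_ a) (Nat.cast_nonneg a))
      have : (1 : ℝ) ≤ k := by exact_mod_cast hk
      linarith
  · intro r hr r' hr' h
    have e := (mem_filter.1 hr).2.trans (mem_filter.1 hr').2.symm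
    funext i
    rcases eq_or_ne i m with rfl | hi
    · exact h
    · have := congrFun e i
      rwa [delAt, delAt, Function.update_of_ne hi, Function.update_of_ne hi] at this

theorem le_foldWeight {m : Fin k} {g : ℕ → ℝ} (hg : ∀ a, 0 ≤ g a ∧ g a ≤ 1) (hg1 : g 1 = 1)
    {τ : ℝ} (hsupp : ∀ a ∈ rough D R, g a ≠ 0 → Real.log a + τ ≤ Real.log R)
    {s : Fin k → ℕ} (hs : s ∈ testSet D R m τ) :
    (∏ i, g (s i)) / ((∏ i, s i).totient : ℝ) *
        (oneSum D R (fun a => g a / a) -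
          oneSum D R (fun a => (a : ℝ)⁻¹) * (∏ i, cw (4 * k) (s i) - 1)) ≤
      foldWeight D R m g s := by
  rw [testSet, suppAt, mem_filter, mem_filter] at hs
  obtain ⟨⟨hsS, hsm⟩, hsτ⟩ := hs
  have hk : 1 ≤ k := (Nat.zero_le _).trans_lt m.2
  obtain ⟨n, hn⟩ : ∃ n, n = ∏ i, s i := ⟨_, rfl⟩
  rw [← hn] at hsτ
  have hn0 : 0 < n := hn ▸ prod_pos_of_supp hsS
  obtain ⟨T, hT⟩ : ∃ T, T = (rough D R).filter fun a => g a ≠ 0 ∧ a.Coprime n := ⟨_, rfl⟩
  have hW : (∏ i, g (s i)) / ((n.totient : ℕ) : ℝ) * ∑ a ∈ T, g a / a ≤ foldWeight D R m g s := by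
    rw [mul_sum]
    have hmem : ∀ a ∈ T, Function.update s m a ∈
        (supp k D R).filter (fun r => delAt m r = s) := by
      intro a ha
      rw [hT, mem_filter] at ha
      obtain ⟨har, hga, hco⟩ := ha
      have hprod : ∏ i, Function.update s m a i = a * n := by
        rw [← mul_prod_erase univ _ (mem_univ m), Function.update_self, hn,
          ← mul_prod_erase univ s (mem_univ m), hsm, one_mul]
        congr 1
        exact prod_congr rfl fun i hi => by rw [Function.update_of_ne (mem_erase.1 hi).1]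
      rw [mem_filter, mem_supp, hprod]
      refine ⟨⟨fun i => ?_, ?_, ?_⟩, ?_⟩
      · rcases eq_or_ne i m with rfl | hi
        · rw [Function.update_self]
          exact har
        · rw [Function.update_of_ne hi]
          exact (mem_supp.1 hsS).1 i
      · rw [Nat.squarefree_mul_iff]
        exact ⟨hco, (mem_rough.1 har).2.1, hn ▸ (mem_supp.1 hsS).2.1⟩
      · have ha1 := (mem_rough.1 har).1
        have h := hsupp a har hga
        rw [← Nat.cast_le (α := ℝ)]
        refine (Real.log_le_log_iff (Nat.cast_pos.2 (Nat.mul_pos ha1.1 hn0))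
          (Nat.cast_pos.2 (ha1.1.trans ha1.2))).1 ?_
        rw [Nat.cast_mul, Real.log_mul (Nat.cast_ne_zero.2 (Nat.one_le_iff_ne_zero.1 ha1.1))
          (Nat.cast_ne_zero.2 hn0.ne')]
        linarith
      · funext i
        rcases eq_or_ne i m with rfl | hi
        · rw [delAt, Function.update_self, hsm]
        · rw [delAt, Function.update_of_ne hi, Function.update_of_ne hi]
    refine le_trans (sum_le_sum (g := fun a => (∏ i, g (Function.update s m a i)) /
      ((∏ i, Function.update s m a i).totient : ℝ)) fun a ha => ?_) ?_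
    · obtain ⟨hr, hdel⟩ := mem_filter.1 (hmem a ha)
      rw [prod_g_delAt hg1 (Function.update s m a) (m := m), totient_delAt hr (m := m), hdel,
        Function.update_self, ← hn, mul_comm (g a), mul_comm ((a.totient : ℕ) : ℝ),
        ← div_mul_div_comm]
      refine mul_le_mul_of_nonneg_left ?_
        (div_nonneg (prod_nonneg fun i _ => (hg _).1) (Nat.cast_nonneg _))
      exact div_le_div_of_nonneg_left (hg a).1
        (Nat.cast_pos.2 (Nat.totient_pos.2 (mem_rough.1 (mem_filter.1 (hT ▸ ha)).1).1.1))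
        (Nat.cast_le.2 (Nat.totient_le a))
    · rw [foldWeight, ← sum_image (g := fun a => Function.update s m a)
        (f := fun r : Fin k → ℕ => (∏ i, g (r i)) / ((∏ i, r i).totient : ℝ))]
      · exact sum_le_sum_of_subset_of_nonneg (image_subset_iff.2 hmem) fun r _ _ =>
          div_nonneg (prod_nonneg fun i _ => (hg _).1) (Nat.cast_nonneg _)
      · intro a _ b _ h
        simpa using congrFun h m
  rw [← hn]
  refine le_trans (mul_le_mul_of_nonneg_left ?_
    (div_nonneg (prod_nonneg fun i _ => (hg _).1) (Nat.cast_nonneg _))) hW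
  rw [sub_le_iff_le_add]
  have hsplit : oneSum D R (fun a => g a / a) ≤
      ∑ a ∈ T, g a / a + ∑ a ∈ (rough D R).filter (fun a => ¬ a.Coprime n), ((a : ℕ) : ℝ)⁻¹ := by
    rw [oneSum, hT, sum_filter, sum_filter, ← sum_add_distrib]
    refine sum_le_sum fun a _ => ?_
    have h1 : g a / a ≤ ((a : ℕ) : ℝ)⁻¹ := by
      rw [← one_div]
      exact div_le_div_of_nonneg_right (hg a).2 (Nat.cast_nonneg a)
    have h2 : (0 : ℝ) ≤ ((a : ℕ) : ℝ)⁻¹ := by positivity
    by_cases h0 : g a = 0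
    · simp only [h0, zero_div, ne_eq, not_true_eq_false, false_and, if_false, zero_add]
      split_ifs <;> simp [h2]
    · by_cases hc : a.Coprime n
      · rw [if_pos ⟨h0, hc⟩, if_neg (not_not_intro hc), add_zero]
      · rw [if_neg fun h => hc h.2, if_pos hc, zero_add]
        exact h1
  refine hsplit.trans (add_le_add le_rfl ?_)
  have h3 : ∑ a ∈ (rough D R).filter (fun a => ¬ a.Coprime n), ((a : ℕ) : ℝ)⁻¹ ≤
      ∑ p ∈ n.primeFactors, ∑ a ∈ (rough D R).filter (p ∣ ·), ((a : ℕ) : ℝ)⁻¹ := by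
    simp only [sum_filter]
    rw [sum_comm]
    refine sum_le_sum fun a _ => ?_
    by_cases hc : a.Coprime n
    · rw [if_neg (not_not_intro hc)]
      exact sum_nonneg fun p _ => by positivity
    · rw [if_pos hc]
      obtain ⟨p, hp, hpa, hpn⟩ := Nat.Prime.not_coprime_iff_dvd.1 hc
      refine le_trans ?_ (single_le_sum (a := p) (fun q _ => by positivity)
        (Nat.mem_primeFactors.2 ⟨hp, hpn, hn0.ne'⟩))
      rw [if_pos hpa]
  refine h3.trans ((sum_le_sum fun p hp => sum_rough_dvd_le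
    (Nat.prime_of_mem_primeFactors hp).pos).trans ?_)
  rw [← sum_mul, mul_comm]
  refine mul_le_mul_of_nonneg_left ?_ (sum_nonneg fun a _ => by positivity)
  rw [← cw_prod hsS, ← hn, le_sub_iff_add_le, add_comm, cw]
  refine le_trans (add_le_add le_rfl (sum_le_sum fun p _ => ?_))
    (one_add_sum_le_prod fun p => by positivity)
  rw [inv_eq_one_div]
  refine div_le_div_of_nonneg_right ?_ (Nat.cast_nonneg p)
  have : (1 : ℝ) ≤ k := by exact_mod_cast hk
  linarith

theorem rowXZ_nonneg {p : ℕ} (hp : (1 : ℝ) ≤ p) (m : Fin k) (o' o : Option (Fin k)) :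
    0 ≤ rowXZ D p m o' o := by
  unfold rowXZ
  split_ifs
  · exact le_rfl
  · exact div_nonneg (abs_nonneg _) zero_le_one
  · exact div_nonneg (abs_nonneg _) (sub_nonneg.2 hp)

theorem sum_rowXZ_prod_le (hk : AdmissibleTuple k D) (hD : 5 ≤ D) {m : Fin k} {s : Fin k → ℕ}
    (hs : s ∈ suppAt D R m) :
    ∑ t ∈ suppAt D R m,
        |avgAway D R m (fun c => tupleX D R t c * tupleZ D R s c)| /
          ((∏ i, t i).totient : ℝ) ≤
      excess k D R * ∏ p ∈ midPrimes D R,
        (if lab s p = none then 1 else (p : ℝ) * ((p : ℝ) + k - 4) / ((p : ℝ) - 1) ^ 2) := by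
  rw [suppAt, mem_filter] at hs
  have hk1 : (1 : ℝ) ≤ k := by exact_mod_cast (show 1 ≤ k from (Nat.zero_le _).trans_lt m.2)
  refine (le_of_eq (sum_congr rfl fun t ht => ?_)).trans ((sum_supp_lab_le
    (G := fun p o => rowXZ D p m (lab s p) o) (fun p hp o => ?_)
    (show suppAt D R m ⊆ supp k D R from filter_subset _ _)).trans ?_)
  · rw [suppAt, mem_filter] at ht
    rw [avgAway_XZ, abs_prod, totient_prod ht.1, ← prod_div_distrib]
    refine prod_congr rfl fun p hp => ?_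
    rw [rowXZ, if_neg (lab_ne_some ht.1 ht.2 (prime_of_mid p hp))]
  · exact rowXZ_nonneg (by linarith [three_le_of_mid hD hp]) _ _ _
  rw [excess, ← prod_mul_distrib]
  refine prod_le_prod (fun p hp => sum_nonneg fun o _ => ?_) fun p hp => ?_
  · exact rowXZ_nonneg (by linarith [three_le_of_mid hD hp]) _ _ _
  have h6 := three_le_of_mid hD hp
  rw [sum_rowXZ (goodPrime hk hp) (by linarith) (lab_ne_some hs.1 hs.2 (prime_of_mid p hp))]
  split_ifs
  · rw [mul_one]
  · refine le_mul_of_one_le_left ?_ (le_add_of_nonneg_right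
      (div_nonneg (by linarith) (sq_nonneg _)))
    exact div_nonneg (mul_nonneg (by linarith) (by linarith)) (sq_nonneg _)

theorem test_term_le (hk : AdmissibleTuple k D) (hD : 5 ≤ D) {m : Fin k} {g : ℕ → ℝ}
    (hg : ∀ a, 0 ≤ g a ∧ g a ≤ 1) (hg1 : g 1 = 1) {τ : ℝ}
    (hsupp : ∀ a ∈ rough D R, g a ≠ 0 → Real.log a + τ ≤ Real.log R)
    {s : Fin k → ℕ} (hs : s ∈ testSet D R m τ) :
    (∏ i, g (s i) ^ 2 / (s i : ℕ)) * oneSum D R (fun a => g a / a) -
        oneSum D R (fun a => (a : ℝ)⁻¹) *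
          (∏ i, cw (4 * k) (s i) / (s i : ℕ) - ∏ i, ((s i : ℕ) : ℝ)⁻¹) -
        oneSum D R (fun a => cw (4 * k) a / a) *
          (excess k D R * (∏ i, cw (4 * k) (s i) / (s i : ℕ)) - ∏ i, ((s i : ℕ) : ℝ)⁻¹) ≤
      (∏ i, g (s i)) / ((∏ i, s i).totient : ℝ) *
        ∑ t ∈ suppAt D R m, foldWeight D R m g t *
          avgAway D R m (fun c => tupleX D R t c * tupleZ D R s c) := by
  classical
  have hsA : s ∈ suppAt D R m := (mem_filter.1 hs).1
  obtain ⟨hsS, hsm⟩ := mem_filter.1 hsA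
  have hk1 : 1 ≤ k := (Nat.zero_le _).trans_lt m.2
  obtain ⟨γ, hγ⟩ : ∃ γ, γ = avgAway D R m (fun c => tupleX D R s c * tupleZ D R s c) := ⟨_, rfl⟩
  obtain ⟨φ₀, hφ₀⟩ : ∃ x : ℝ, x = ((∏ i, s i).totient : ℝ) := ⟨_, rfl⟩
  obtain ⟨a₀, ha₀⟩ : ∃ x, x = ∏ i, g (s i) := ⟨_, rfl⟩
  obtain ⟨P₁, hP₁⟩ : ∃ x, x = ∏ i, ((s i : ℕ) : ℝ)⁻¹ := ⟨_, rfl⟩
  obtain ⟨Pc, hPc⟩ : ∃ x, x = ∏ i, cw (4 * k) (s i) / (s i : ℕ) := ⟨_, rfl⟩
  obtain ⟨Ac, hAc⟩ : ∃ x, x = oneSum D R fun a => cw (4 * k) a / a := ⟨_, rfl⟩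
  obtain ⟨A₁, hA₁⟩ : ∃ x, x = oneSum D R fun a => (a : ℝ)⁻¹ := ⟨_, rfl⟩
  obtain ⟨G₁, hG₁⟩ : ∃ x, x = oneSum D R fun a => g a / a := ⟨_, rfl⟩
  have hφpos : 0 < φ₀ := hφ₀ ▸ Nat.cast_pos.2 (Nat.totient_pos.2 (prod_pos_of_supp hsS))
  have ha01 : 0 ≤ a₀ ∧ a₀ ≤ 1 :=
    ⟨ha₀ ▸ prod_nonneg fun i _ => (hg _).1, ha₀ ▸ prod_le_one (fun i _ => (hg _).1)
      fun i _ => (hg _).2⟩
  have hP1c : P₁ ≤ Pc := by
    rw [hP₁, hPc]
    refine prod_le_prod (fun i _ => by positivity) fun i _ => ?_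
    rw [← one_div]
    exact div_le_div_of_nonneg_right (one_le_cw (by positivity) _) (Nat.cast_nonneg _)
  have hAc0 : 0 ≤ Ac := hAc ▸ sum_nonneg fun a _ =>
    div_nonneg (zero_le_one.trans (one_le_cw (by positivity) a)) (Nat.cast_nonneg a)
  have hA₁0 : 0 ≤ A₁ := hA₁ ▸ sum_nonneg fun a _ => by positivity
  have hG₁0 : 0 ≤ G₁ := hG₁ ▸ sum_nonneg fun a _ => div_nonneg (hg a).1 (Nat.cast_nonneg a)
  -- the diagonal moment
  have hdiag : γ = ∏ p ∈ midPrimes D R,
      (if lab s p = none then 1 else (p : ℝ) * ((p : ℝ) - 2) / ((p : ℝ) - 1)) := by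
    rw [hγ, avgAway_XZ]
    refine prod_congr rfl fun p hp => ?_
    obtain ⟨h1, -, -, h4⟩ := sum_XZ (goodPrime hk hp) m
    have h6 := three_le_of_mid hD hp
    have hne := lab_ne_some hsS hsm (prime_of_mid p hp)
    cases hl : lab s p with
    | none => simp [momXZ, h1, (show (p : ℝ) - 1 ≠ 0 by linarith)]
    | some i =>
      have hi : i ≠ m := fun h => hne (by rw [hl, h])
      simp [momXZ, h4 i i hi hi]
  have hγ2 : P₁ ≤ γ / φ₀ / φ₀ := by
    rw [hdiag, hφ₀, totient_prod hsS, ← prod_div_distrib, ← prod_div_distrib, hP₁,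
      show ∏ i, ((s i : ℕ) : ℝ)⁻¹ =
        ∏ p ∈ midPrimes D R, (if lab s p = none then (1 : ℝ) else (p : ℝ)⁻¹) by
        rw [prod_lab hsS (fun p o => if o = none then (1 : ℝ) else (p : ℝ)⁻¹) fun p => if_pos rfl]
        refine prod_congr rfl fun i _ => ?_
        rw [coord_prod_eq hsS i, ← prod_inv_distrib]
        exact prod_congr rfl fun p _ => by simp]
    refine prod_le_prod (fun p _ => by positivity) fun p hp => ?_
    have h6 := three_le_of_mid hD hp
    split_ifs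
    · simp
    · rw [inv_eq_one_div, div_div, div_div, div_le_div_iff₀ (by linarith) (by
        have : 0 < (p : ℝ) - 1 := by linarith
        positivity), one_mul]
      nlinarith [mul_nonneg (sq_nonneg (p : ℝ)) (show (0 : ℝ) ≤ (p : ℝ) - 6 by linarith)]
  have hγ0 : 0 ≤ γ := by
    have h0 : 0 ≤ P₁ := hP₁ ▸ prod_nonneg fun i _ => by positivity
    have := h0.trans hγ2
    rw [div_div, le_div_iff₀ (by positivity), zero_mul] at this
    exact this
  -- everything else
  have hrow : excess k D R * ∏ p ∈ midPrimes D R, (if lab s p = none then 1 else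
      (p : ℝ) * ((p : ℝ) + k - 4) / ((p : ℝ) - 1) ^ 2) ≤ excess k D R * (Pc * φ₀) := by
    refine mul_le_mul_of_nonneg_left ?_ (zero_le_one.trans (one_le_excess hk1))
    rw [← div_le_iff₀ hφpos, hφ₀, totient_prod hsS, ← prod_div_distrib, hPc]
    refine (le_of_eq (prod_congr rfl fun p _ => ?_)).trans (prod_lab_le hsS (C := 4 * k)
      (F := fun p o => if o = none then 1 else
        (p : ℝ) * ((p : ℝ) + k - 4) / ((p : ℝ) - 1) ^ 2 / ((p : ℝ) - 1)) (fun p => if_pos rfl)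
      fun p hp i => ?_)
    · split_ifs <;> simp
    · have h6 := three_le_of_mid hD hp
      have hk1' : (1 : ℝ) ≤ k := by exact_mod_cast hk1
      rw [if_neg (by simp)]
      have hp1 : 0 < (p : ℝ) - 1 := by linarith
      refine ⟨div_nonneg (div_nonneg (by nlinarith) (sq_nonneg _)) hp1.le, ?_⟩
      rw [div_div, div_le_div_iff₀ (by positivity) (by linarith), one_add_div (by linarith),
        div_mul_eq_mul_div, le_div_iff₀ (by linarith)]
      nlinarith [mul_nonneg (mul_nonneg (show (0 : ℝ) ≤ k by linarith)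
        (sq_nonneg (p : ℝ))) (show (0 : ℝ) ≤ (p : ℝ) - 6 by linarith),
        mul_nonneg (show (0 : ℝ) ≤ k by linarith) (show (0 : ℝ) ≤ (p : ℝ) - 6 by linarith),
        sq_nonneg (p : ℝ), mul_nonneg (sq_nonneg (p : ℝ)) (show (0 : ℝ) ≤ (p : ℝ) - 6 by linarith)]
  have hrest : ∑ t ∈ (suppAt D R m).erase s, |foldWeight D R m g t *
      avgAway D R m (fun c => tupleX D R t c * tupleZ D R s c)| ≤
        Ac * (excess k D R * (Pc * φ₀) - γ / φ₀) := by
    have h := (sum_rowXZ_prod_le hk hD hsA).trans hrow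
    rw [← add_sum_erase _ _ hsA, ← hγ, ← hφ₀, abs_of_nonneg hγ0] at h
    refine le_trans (sum_le_sum (g := fun t => Ac *
      (|avgAway D R m (fun c => tupleX D R t c * tupleZ D R s c)| /
        ((∏ i, t i).totient : ℝ))) fun t _ => ?_) ?_
    · rw [abs_mul, hAc, mul_div_assoc', ← div_mul_eq_mul_div]
      exact mul_le_mul_of_nonneg_right (abs_foldWeight_le hD hk1 hg t) (abs_nonneg _)
    · rw [← mul_sum]
      exact mul_le_mul_of_nonneg_left (by linarith) hAc0
  have hmain := le_foldWeight hg hg1 hsupp hs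
  rw [← ha₀, ← hφ₀, ← hG₁, ← hA₁] at hmain
  rw [← add_sum_erase _ _ hsA, ← hγ, ← ha₀, ← hφ₀]
  have hsum : -(Ac * (excess k D R * (Pc * φ₀) - γ / φ₀)) ≤ ∑ t ∈ (suppAt D R m).erase s,
      foldWeight D R m g t * avgAway D R m (fun c => tupleX D R t c * tupleZ D R s c) :=
    (abs_le.1 ((abs_sum_le_sum_abs _ _).trans hrest)).1
  rw [show (∏ i, g (s i) ^ 2 / (s i : ℕ)) = a₀ ^ 2 * P₁ by
    rw [ha₀, hP₁, ← prod_pow, ← prod_mul_distrib]
    exact prod_congr rfl fun i _ => by rw [div_eq_mul_inv], ← hP₁, ← hPc, ← hG₁, ← hA₁, ← hAc]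
  obtain ⟨η, hη⟩ : ∃ η, η = γ / φ₀ / φ₀ := ⟨_, rfl⟩
  rw [← hη] at hγ2
  have hη0 : 0 ≤ η := (hP₁ ▸ prod_nonneg fun i _ => by positivity : (0 : ℝ) ≤ P₁).trans hγ2
  have hcorr : ∏ i, cw (4 * k) (s i) = Pc / P₁ := by
    rw [hPc, hP₁, ← prod_div_distrib]
    refine prod_congr rfl fun i _ => ?_
    have : ((s i : ℕ) : ℝ) ≠ 0 :=
      Nat.cast_ne_zero.2 (Nat.one_le_iff_ne_zero.1 (mem_rough.1 ((mem_supp.1 hsS).1 i)).1.1)
    field_simp
  have hP₁0 : 0 < P₁ := hP₁ ▸ prod_pos fun i _ => inv_pos.2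
    (Nat.cast_pos.2 (mem_rough.1 ((mem_supp.1 hsS).1 i)).1.1)
  obtain ⟨V, hV⟩ : ∃ V, V = G₁ - A₁ * (Pc / P₁ - 1) := ⟨_, rfl⟩
  rw [hcorr, ← hV] at hmain
  obtain ⟨W, hW⟩ : ∃ W, W = foldWeight D R m g s := ⟨_, rfl⟩
  rw [← hW] at hmain ⊢
  have hW0 : 0 ≤ W := hW ▸ sum_nonneg fun r _ =>
    div_nonneg (prod_nonneg fun i _ => (hg _).1) (Nat.cast_nonneg _)
  -- the diagonal term
  have h1 : a₀ ^ 2 * P₁ * G₁ - A₁ * (Pc - P₁) ≤ a₀ / φ₀ * (W * γ) := by
    rcases le_total 0 V with hV0 | hV0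
    · calc a₀ ^ 2 * P₁ * G₁ - A₁ * (Pc - P₁) ≤ a₀ ^ 2 * (P₁ * V) := by
            have e : a₀ ^ 2 * (P₁ * V) = a₀ ^ 2 * P₁ * G₁ - a₀ ^ 2 * (A₁ * (Pc - P₁)) := by
              rw [hV]
              field_simp
            have := mul_le_of_le_one_left (mul_nonneg hA₁0 (sub_nonneg.2 hP1c))
              (pow_le_one₀ ha01.1 ha01.2 (n := 2))
            linarith
        _ ≤ a₀ ^ 2 * (η * V) := mul_le_mul_of_nonneg_left
            (mul_le_mul_of_nonneg_right hγ2 hV0) (sq_nonneg _)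
        _ = a₀ / φ₀ * (a₀ / φ₀ * V * γ) := by rw [hη]; field_simp
        _ ≤ _ := mul_le_mul_of_nonneg_left (mul_le_mul_of_nonneg_right hmain hγ0)
            (div_nonneg ha01.1 hφpos.le)
    · refine le_trans ?_ (mul_nonneg (div_nonneg ha01.1 hφpos.le) (mul_nonneg hW0 hγ0))
      have e : P₁ * V = P₁ * G₁ - A₁ * (Pc - P₁) := by
        rw [hV]
        field_simp
      have := mul_nonpos_of_nonneg_of_nonpos hP₁0.le hV0
      have := mul_le_of_le_one_left (mul_nonneg hP₁0.le hG₁0) (pow_le_one₀ ha01.1 ha01.2 (n := 2))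
      linarith
  have h2 : -(Ac * (excess k D R * Pc - P₁)) ≤
      a₀ / φ₀ * -(Ac * (excess k D R * (Pc * φ₀) - γ / φ₀)) := by
    rw [show a₀ / φ₀ * -(Ac * (excess k D R * (Pc * φ₀) - γ / φ₀)) =
      -(a₀ * (Ac * (excess k D R * Pc - η))) by rw [hη]; field_simp, neg_le_neg_iff]
    refine le_trans ?_ (mul_le_mul_of_nonneg_left
      (sub_le_sub_left hγ2 _) hAc0)
    refine mul_le_of_le_one_left ?_ ha01.2
    refine mul_nonneg hAc0 ?_
    have h3 : 0 ≤ excess k D R * (Pc * φ₀) - γ / φ₀ := by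
      rcases hAc0.eq_or_lt with h0 | h0
      · have h := (sum_rowXZ_prod_le hk hD hsA).trans hrow
        rw [← add_sum_erase _ _ hsA, ← hγ, ← hφ₀, abs_of_nonneg hγ0] at h
        have : 0 ≤ ∑ t ∈ (suppAt D R m).erase s,
            |avgAway D R m (fun c => tupleX D R t c * tupleZ D R s c)| /
              ((∏ i, t i).totient : ℝ) := sum_nonneg fun t _ => by positivity
        linarith
      · exact nonneg_of_mul_nonneg_right
          ((sum_nonneg fun t _ => abs_nonneg _).trans hrest) h0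
    rw [show excess k D R * Pc - η = (excess k D R * (Pc * φ₀) - γ / φ₀) / φ₀ by
      rw [hη]; field_simp]
    exact div_nonneg h3 hφpos.le
  have h3 := mul_le_mul_of_nonneg_left hsum (div_nonneg ha01.1 hφpos.le)
  rw [mul_add]
  linarith

theorem test_sq_le (hk : AdmissibleTuple k D) (hD : 5 ≤ D) {m : Fin k} {g : ℕ → ℝ} {τ : ℝ}
    (hg1 : g 1 = 1) :
    avgAway D R m (fun c => testSum D R m g τ c ^ 2) ≤
      (oneSum D R fun a => g a ^ 2 * (cw (4 * k) a / a)) ^ (k - 1) := by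
  classical
  obtain ⟨T, hT⟩ : ∃ T, T = testSet D R m τ := ⟨_, rfl⟩
  obtain ⟨u, hu⟩ : ∃ u : (Fin k → ℕ) → ℝ,
      u = fun s => (∏ i, g (s i)) / ((∏ i, s i).totient : ℝ) := ⟨_, rfl⟩
  obtain ⟨L, hL⟩ : ∃ L : (Fin k → ℕ) → (Fin k → ℕ) → ℝ,
      L = fun r r' => avgAway D R m fun c => tupleZ D R r c * tupleZ D R r' c := ⟨_, rfl⟩
  have e : avgAway D R m (fun c => testSum D R m g τ c ^ 2) =
      ∑ r ∈ T, ∑ r' ∈ T, u r * u r' * L r r' := by
    simp only [hu, hL, hT, avgAway, testSum, sq, sum_mul_sum]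
    simp only [mul_sum, sum_div]
    rw [sum_comm]
    refine sum_congr rfl fun r _ => ?_
    rw [sum_comm]
    exact sum_congr rfl fun r' _ => sum_congr rfl fun c _ => by ring
  have hTA : ∀ s ∈ T, s ∈ supp k D R ∧ s m = 1 := fun s hs => by
    rw [hT] at hs
    exact mem_filter.1 (mem_filter.1 hs).1
  rw [e, oneSum, ← sum_boxAt_prod (D := D) (R := R) m (f := fun a => g a ^ 2 * (cw (4 * k) a / a))
    (by simp [hg1, cw])]
  refine (quadratic_le T u L (fun s => ∏ p ∈ midPrimes D R,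
    (if lab s p = none then 1 else (p : ℝ) + k - 4)) (fun r r' => ?_) fun s hs => ?_).trans ?_
  · simp only [hL, mul_comm (tupleZ D R r _)]
  · simp only [hL, avgAway_ZZ, abs_prod]
    refine le_trans (le_of_eq (sum_congr rfl fun s' hs' => prod_congr rfl fun p hp => ?_))
      ((sum_supp_lab_le (G := fun p o => if o = some m then 0 else |momZZ D p m (lab s p) o|)
        (fun p _ o => by split_ifs <;> positivity)
        (fun s' hs' => (hTA s' hs').1)).trans (le_of_eq ?_))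
    · rw [if_neg (lab_ne_some (hTA s' hs').1 (hTA s' hs').2 (prime_of_mid p hp))]
    · refine prod_congr rfl fun p hp => ?_
      exact sum_abs_momZZ (goodPrime hk hp) (by linarith [three_le_of_mid hD hp])
        (lab_ne_some (hTA s hs).1 (hTA s hs).2 (prime_of_mid p hp))
  refine (sum_le_sum fun s hs => ?_).trans (sum_le_sum_of_subset_of_nonneg
    (fun s hs => suppAt_subset_boxAt m (mem_filter.2 (hTA s hs))) fun r _ _ => prod_nonneg
      fun i _ => mul_nonneg (sq_nonneg _)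
        (div_nonneg (zero_le_one.trans (one_le_cw (by positivity) _)) (Nat.cast_nonneg _)))
  obtain ⟨hsS, -⟩ := hTA s hs
  rw [hu, div_pow, prod_mul_distrib, prod_pow, totient_prod hsS, div_mul_eq_mul_div, mul_div_assoc]
  rw [← prod_pow (midPrimes D R), ← prod_div_distrib]
  refine mul_le_mul_of_nonneg_left ?_ (sq_nonneg _)
  refine (le_of_eq (prod_congr rfl fun p _ => ?_)).trans (prod_lab_le hsS (C := 4 * k)
    (F := fun p o => if o = none then 1 else ((p : ℝ) + k - 4) / ((p : ℝ) - 1) ^ 2)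
    (fun p => if_pos rfl) fun p hp i => ?_)
  · split_ifs <;> simp
  · have h6 := three_le_of_mid hD hp
    have hk1 : (1 : ℝ) ≤ k := by exact_mod_cast (show 1 ≤ k from (Nat.zero_le _).trans_lt i.2)
    rw [if_neg (by simp)]
    refine ⟨div_nonneg (by linarith) (sq_nonneg _), ?_⟩
    rw [div_le_div_iff₀ (by nlinarith) (by linarith), one_add_div (by linarith),
      div_mul_eq_mul_div, le_div_iff₀ (by linarith)]
    nlinarith [mul_nonneg (mul_nonneg (show (0 : ℝ) ≤ k by linarith)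
      (show (0 : ℝ) ≤ p by linarith)) (show (0 : ℝ) ≤ (p : ℝ) - 3 by linarith)]

end FA.BoundedGaps
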