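import Fermat.Agent.BoundedGaps.AwayLower

/-!
# The weight function

`g a = 2 ^ (-l)` for `2 ^ (l - 1) ℓ < log a ≤ 2 ^ l ℓ`, `l ≤ L`, and its one-dimensional sums.
-/

set_option autoImplicit false

noncomputable section

namespace FA.BoundedGaps

open Finset
open scoped Nat

/-- The coefficients of the step function. -/
def stepCoef (r : ℝ) (L l : ℕ) : ℝ := if l < L then r ^ l - r ^ (l + 1) else r ^ l

/-- `∑_l coef l 1[log a ≤ 2 ^ l ℓ]`. -/
def stepFun (r : ℝ) (L : ℕ) (ℓ : ℝ) (a : ℕ) : ℝ :=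
  ∑ l ∈ range (L + 1), if Real.log a ≤ 2 ^ l * ℓ then stepCoef r L l else 0

/-- `∑_l coef l c ^ l`. -/
def stepInt (r c : ℝ) (L : ℕ) : ℝ := ∑ l ∈ range (L + 1), stepCoef r L l * c ^ l

theorem stepCoef_nonneg {r : ℝ} (h0 : 0 ≤ r) (h1 : r ≤ 1) (L l : ℕ) : 0 ≤ stepCoef r L l := by
  unfold stepCoef
  split_ifs
  · exact sub_nonneg.2 (pow_le_pow_of_le_one h0 h1 (Nat.le_succ l))
  · exact pow_nonneg h0 l

theorem stepFun_succ (r : ℝ) (L : ℕ) (ℓ : ℝ) (a : ℕ) :
    stepFun r (L + 1) ℓ a = stepFun r L ℓ a +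
      ((if Real.log a ≤ 2 ^ (L + 1) * ℓ then r ^ (L + 1) else 0) -
        if Real.log a ≤ 2 ^ L * ℓ then r ^ (L + 1) else 0) := by
  rw [stepFun, stepFun, sum_range_succ, sum_range_succ, sum_range_succ _ L]
  rw [sum_congr rfl fun l hl => show (if Real.log a ≤ 2 ^ l * ℓ then stepCoef r (L + 1) l else 0) =
      if Real.log a ≤ 2 ^ l * ℓ then stepCoef r L l else 0 by
    rw [mem_range] at hl
    simp [stepCoef, hl, hl.trans (Nat.lt_succ_self L)]]
  simp only [stepCoef, lt_irrefl, if_false, Nat.lt_succ_self, if_true]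
  split_ifs <;> ring

theorem stepFun_zero (r : ℝ) (ℓ : ℝ) (a : ℕ) :
    stepFun r 0 ℓ a = if Real.log a ≤ ℓ then 1 else 0 := by
  simp [stepFun, stepCoef]

theorem stepFun_eq_zero {r : ℝ} {L : ℕ} {ℓ : ℝ} (hℓ : 0 ≤ ℓ) {a : ℕ}
    (h : ¬ Real.log a ≤ 2 ^ L * ℓ) : stepFun r L ℓ a = 0 := by
  refine sum_eq_zero fun l hl => if_neg fun h' => h (h'.trans ?_)
  exact mul_le_mul_of_nonneg_right
    (pow_le_pow_right₀ one_le_two (Nat.lt_succ_iff.1 (mem_range.1 hl))) hℓ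

theorem stepFun_step {r : ℝ} {L : ℕ} {ℓ : ℝ} (hℓ : 0 ≤ ℓ) (a : ℕ) :
    stepFun r (L + 1) ℓ a = if Real.log a ≤ 2 ^ L * ℓ then stepFun r L ℓ a
      else if Real.log a ≤ 2 ^ (L + 1) * ℓ then r ^ (L + 1) else 0 := by
  rw [stepFun_succ]
  by_cases h : Real.log a ≤ 2 ^ L * ℓ
  · rw [if_pos h, if_pos h, if_pos (h.trans (mul_le_mul_of_nonneg_right
      (pow_le_pow_right₀ one_le_two (Nat.le_succ L)) hℓ)), sub_self, add_zero]
  · rw [if_neg h, if_neg h, stepFun_eq_zero hℓ h, sub_zero, zero_add]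

theorem stepFun_sq {r : ℝ} {L : ℕ} {ℓ : ℝ} (hℓ : 0 ≤ ℓ) (a : ℕ) :
    stepFun r L ℓ a ^ 2 = stepFun (r ^ 2) L ℓ a := by
  induction L with
  | zero =>
    rw [stepFun_zero, stepFun_zero]
    split_ifs <;> simp
  | succ L ih =>
    rw [stepFun_step hℓ, stepFun_step hℓ]
    split_ifs
    · exact ih
    · ring
    · ring

theorem stepFun_mem {r : ℝ} {L : ℕ} {ℓ : ℝ} (h0 : 0 ≤ r) (h1 : r ≤ 1) (hℓ : 0 ≤ ℓ) (a : ℕ) :
    0 ≤ stepFun r L ℓ a ∧ stepFun r L ℓ a ≤ 1 := by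
  induction L with
  | zero =>
    rw [stepFun_zero]
    split_ifs <;> norm_num
  | succ L ih =>
    rw [stepFun_step hℓ]
    split_ifs
    · exact ih
    · exact ⟨pow_nonneg h0 _, pow_le_one₀ h0 h1⟩
    · norm_num

theorem stepFun_one {r : ℝ} {L : ℕ} {ℓ : ℝ} (hℓ : 0 ≤ ℓ) : stepFun r L ℓ 1 = 1 := by
  induction L with
  | zero => simp [stepFun_zero, hℓ]
  | succ L ih =>
    rw [stepFun_step hℓ, if_pos (by simp [hℓ])]
    exact ih

theorem stepInt_succ (r c : ℝ) (L : ℕ) :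
    stepInt r c (L + 1) = stepInt r c L + r ^ (L + 1) * (c ^ (L + 1) - c ^ L) := by
  rw [stepInt, stepInt, sum_range_succ, sum_range_succ, sum_range_succ _ L]
  rw [sum_congr rfl fun l hl => show stepCoef r (L + 1) l * c ^ l = stepCoef r L l * c ^ l by
    rw [mem_range] at hl
    simp [stepCoef, hl, hl.trans (Nat.lt_succ_self L)]]
  simp only [stepCoef, lt_irrefl, if_false, Nat.lt_succ_self, if_true]
  ring

theorem stepInt_half (L : ℕ) : stepInt (1 / 2) 2 L = (L : ℝ) / 2 + 1 := by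
  induction L with
  | zero => simp [stepInt, stepCoef]
  | succ L ih =>
    have e : (1 / 2 : ℝ) ^ L * 2 ^ L = 1 := by rw [← mul_pow]; norm_num
    rw [stepInt_succ, ih]
    push_cast
    linear_combination (1 / 2 : ℝ) * e

theorem stepInt_quarter_four (L : ℕ) : stepInt (1 / 4) 4 L = 3 * (L : ℝ) / 4 + 1 := by
  induction L with
  | zero => simp [stepInt, stepCoef]
  | succ L ih =>
    have e : (1 / 4 : ℝ) ^ L * 4 ^ L = 1 := by rw [← mul_pow]; norm_num
    rw [stepInt_succ, ih]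
    push_cast
    linear_combination (3 / 4 : ℝ) * e

theorem stepInt_quarter_two (L : ℕ) :
    1 ≤ stepInt (1 / 4) 2 L ∧ stepInt (1 / 4) 2 L ≤ 3 / 2 := by
  have h : ∀ n : ℕ, stepInt (1 / 4) 2 n = 3 / 2 - (1 / 2) * (1 / 2 : ℝ) ^ n := by
    intro n
    induction n with
    | zero => norm_num [stepInt, stepCoef]
    | succ n ih =>
      have e : (1 / 4 : ℝ) ^ n * 2 ^ n = (1 / 2) ^ n := by rw [← mul_pow]; norm_num
      rw [stepInt_succ, ih]
      linear_combination (1 / 4 : ℝ) * e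
  have h0 : (0 : ℝ) ≤ (1 / 2) ^ L := by positivity
  have h1 : (1 / 2 : ℝ) ^ L ≤ 1 := pow_le_one₀ (by norm_num) (by norm_num)
  rw [h]
  constructor <;> linarith

theorem oneSum_stepFun (D R : ℕ) (r : ℝ) (L : ℕ) (ℓ : ℝ) (F : ℕ → ℝ) :
    oneSum D R (fun a => stepFun r L ℓ a * F a) =
      ∑ l ∈ range (L + 1),
        stepCoef r L l * oneSum D R fun a => if Real.log a ≤ 2 ^ l * ℓ then F a else 0 := by
  simp only [oneSum, stepFun, sum_mul, mul_sum]
  rw [sum_comm]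
  refine sum_congr rfl fun l _ => sum_congr rfl fun a _ => ?_
  split_ifs <;> simp

/-- `ℓ` is large enough for `D` and `ε`. -/
structure LargeScale (C : ℝ) (D : ℕ) (ε ℓ : ℝ) : Prop where
  eps_pos : 0 < ε
  eps_le : ε ≤ 1
  five_le : 5 ≤ D
  inv_le : (D : ℝ)⁻¹ ≤ ε / 2
  exp_le : Real.exp (C / D) ≤ 1 + ε / 4
  large : 3 * (D ! : ℕ) + 2 ≤ ε / 4 * (density D * ℓ)

variable {C : ℝ} {D R : ℕ} {ε ℓ : ℝ}

theorem LargeScale.nonneg (h : LargeScale C D ε ℓ) : 0 ≤ ℓ := by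
  by_contra hℓ
  have := mul_nonpos_of_nonneg_of_nonpos (show 0 ≤ ε / 4 by linarith [h.eps_pos])
    (mul_nonpos_of_nonneg_of_nonpos (density_pos D).le (not_le.1 hℓ).le)
  have : (0 : ℝ) ≤ (D ! : ℕ) := Nat.cast_nonneg _
  linarith [h.large]

theorem LargeScale.upper (h : LargeScale C D ε ℓ) (hC : 0 ≤ C) {t : ℝ} (ht : ℓ ≤ t) :
    oneSum D R (fun a => if Real.log a ≤ t then cw C a / a else 0) ≤
      (1 + ε) * (density D * t) := by
  have hℓ := h.nonneg
  refine (sum_rough_cw_le (by linarith [h.five_le]) (hℓ.trans ht) hC).trans ?_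
  have h1 : density D * (1 + t) + (D ! : ℕ) ≤ (1 + ε / 4) * (density D * t) := by
    have := mul_le_mul_of_nonneg_left (mul_le_mul_of_nonneg_left ht (density_pos D).le)
      (show 0 ≤ ε / 4 by linarith [h.eps_pos])
    have : (0 : ℝ) ≤ (D ! : ℕ) := Nat.cast_nonneg _
    linarith [h.large, density_le_one D]
  refine (mul_le_mul h.exp_le h1 ?_ (by linarith [h.eps_pos])).trans ?_
  · exact add_nonneg (mul_nonneg (density_pos D).le (by linarith)) (Nat.cast_nonneg _)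
  · rw [← mul_assoc]
    refine mul_le_mul_of_nonneg_right ?_ (mul_nonneg (density_pos D).le (hℓ.trans ht))
    have := mul_le_mul_of_nonneg_left h.eps_le h.eps_pos.le
    linarith [h.eps_pos]

theorem LargeScale.lower (h : LargeScale C D ε ℓ) {t : ℝ} (ht : ℓ ≤ t) (hR : Real.exp t ≤ R) :
    (1 - ε) * (density D * t) ≤
      oneSum D R (fun a => if Real.log a ≤ t then (a : ℝ)⁻¹ else 0) := by
  have hℓ := h.nonneg
  refine le_trans ?_ (le_sum_rough (by linarith [h.five_le]) (hℓ.trans ht) hR)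
  have h1 := mul_le_mul_of_nonneg_left (mul_le_mul_of_nonneg_left ht (density_pos D).le)
    (show 0 ≤ ε / 4 by linarith [h.eps_pos])
  have h2 := mul_le_mul_of_nonneg_right h.inv_le
    (mul_nonneg (density_pos D).le (hℓ.trans ht))
  have h3 := mul_nonneg (show 0 ≤ ε by linarith [h.eps_pos])
    (mul_nonneg (density_pos D).le (hℓ.trans ht))
  linarith [h.large]

theorem LargeScale.level_le (h : LargeScale C D ε ℓ) (l : ℕ) : ℓ ≤ 2 ^ l * ℓ :=
  le_mul_of_one_le_left h.nonneg (one_le_pow₀ one_le_two)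

theorem LargeScale.step_upper (h : LargeScale C D ε ℓ) (hC : 0 ≤ C) {r : ℝ} (h0 : 0 ≤ r)
    (h1 : r ≤ 1) (L : ℕ) :
    oneSum D R (fun a => stepFun r L ℓ a * (cw C a / a)) ≤
      (1 + ε) * (density D * ℓ) * stepInt r 2 L := by
  rw [oneSum_stepFun, stepInt, mul_sum]
  refine sum_le_sum fun l _ => ?_
  refine (mul_le_mul_of_nonneg_left (h.upper hC (h.level_le l))
    (stepCoef_nonneg h0 h1 L l)).trans (le_of_eq ?_)
  ring

theorem LargeScale.step_log_upper (h : LargeScale C D ε ℓ) (hC : 0 ≤ C) {r : ℝ} (h0 : 0 ≤ r)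
    (h1 : r ≤ 1) (L : ℕ) :
    oneSum D R (fun a => Real.log a * (stepFun r L ℓ a / a)) ≤
      (1 + ε) * (density D * ℓ) * ℓ * stepInt r 4 L := by
  rw [show (fun a : ℕ => Real.log a * (stepFun r L ℓ a / a)) =
    fun a : ℕ => stepFun r L ℓ a * (Real.log a / a) from funext fun a => by ring,
    oneSum_stepFun, stepInt, mul_sum]
  refine sum_le_sum fun l _ => ?_
  refine (mul_le_mul_of_nonneg_left (show _ ≤ 2 ^ l * ℓ * ((1 + ε) * (density D * (2 ^ l * ℓ)))
    from ?_) (stepCoef_nonneg h0 h1 L l)).trans (le_of_eq ?_)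
  · refine le_trans ?_ (mul_le_mul_of_nonneg_left (h.upper (R := R) hC (h.level_le l))
      (mul_nonneg (by positivity) h.nonneg))
    rw [oneSum, oneSum, mul_sum]
    refine sum_le_sum fun a _ => ?_
    split_ifs with h2
    · refine (mul_le_mul_of_nonneg_right h2 (inv_nonneg.2 (Nat.cast_nonneg a)) |>.trans_eq'
        (div_eq_mul_inv _ _)).trans (mul_le_mul_of_nonneg_left ?_
          (mul_nonneg (by positivity) h.nonneg))
      rw [← one_div]
      exact div_le_div_of_nonneg_right (one_le_cw hC a) (Nat.cast_nonneg a)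
    · rw [mul_zero]
  · rw [show (4 : ℝ) = 2 * 2 by norm_num, mul_pow]
    ring

theorem LargeScale.step_lower (h : LargeScale C D ε ℓ) {r : ℝ} (h0 : 0 ≤ r)
    (h1 : r ≤ 1) (L : ℕ) (hR : Real.exp (2 ^ L * ℓ) ≤ R) :
    (1 - ε) * (density D * ℓ) * stepInt r 2 L ≤
      oneSum D R (fun a => stepFun r L ℓ a / a) := by
  simp only [div_eq_mul_inv]
  rw [oneSum_stepFun, stepInt, mul_sum]
  refine sum_le_sum fun l hl => ?_
  refine le_trans (le_of_eq ?_) (mul_le_mul_of_nonneg_left (h.lower (h.level_le l)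
    ((Real.exp_le_exp.2 (mul_le_mul_of_nonneg_right (pow_le_pow_right₀ one_le_two
      (Nat.lt_succ_iff.1 (mem_range.1 hl))) h.nonneg)).trans hR)) (stepCoef_nonneg h0 h1 L l))
  ring

theorem LargeScale.all_upper (h : LargeScale C D ε ℓ) (hC : 0 ≤ C)
    (hR : ℓ ≤ Real.log R) :
    oneSum D R (fun a => cw C a / a) ≤ (1 + ε) * (density D * Real.log R) := by
  refine le_trans (le_of_eq (sum_congr rfl fun a ha => ?_)) (h.upper (R := R) hC hR)
  beta_reduce
  rw [if_pos (Real.log_le_log (Nat.cast_pos.2 (mem_rough.1 ha).1.1)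
    (Nat.cast_le.2 (mem_rough.1 ha).1.2))]

theorem LargeScale.all_lower (h : LargeScale C D ε ℓ) (hR1 : 1 ≤ R) (hR : ℓ ≤ Real.log R) :
    (1 - ε) * (density D * Real.log R) ≤ oneSum D R (fun a => (a : ℝ)⁻¹) := by
  refine (h.lower hR (le_of_eq (Real.exp_log (Nat.cast_pos.2 hR1)))).trans
    (le_of_eq (sum_congr rfl fun a ha => ?_))
  beta_reduce
  rw [if_pos (Real.log_le_log (Nat.cast_pos.2 (mem_rough.1 ha).1.1)
    (Nat.cast_le.2 (mem_rough.1 ha).1.2))]

end FA.BoundedGaps
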