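import Fermat.Agent.BoundedGaps.SecondMoment
import Mathlib.Data.Int.CardIntervalMod

/-!
# The residue class of a pair of coefficients

`1[d i ∣ L i, e i ∣ L i for all i]` is empty or one class modulo `q = lcm (∏ d) (∏ e)`; its means
are `1 / q` and, away from the `m`-th form, `1 / φ q`. Also sums of `J ^ ω a / a`.
-/

set_option autoImplicit false
set_option linter.unusedSectionVars false

noncomputable section

namespace FA.BoundedGaps

open Finset
open scoped Nat

variable [Shifts]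

variable {k D R : ℕ}

/-- The product of the indicators of two tuples. -/
def pairInd (D : ℕ) (d e : Fin k → ℕ) (c : ℕ) : ℝ := dvdInd D d c * dvdInd D e c

/-- The modulus of the class. -/
def pairMod (d e : Fin k → ℕ) : ℕ := Nat.lcm (∏ i, d i) (∏ i, e i)

theorem squarefree_modulus : Squarefree (modulus D R) :=
  squarefree_prod_of_pairwise_isCoprime (fun p hp q hq h => Nat.coprime_iff_isRelPrime.1
    ((Nat.coprime_primes (prime_of_mid p hp) (prime_of_mid q hq)).2 h))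
    fun p hp => (prime_of_mid p hp).squarefree

theorem prod_dvd_modulus {d : Fin k → ℕ} (hd : d ∈ supp k D R) : ∏ i, d i ∣ modulus D R := by
  have hsub : (∏ i, d i).primeFactors ⊆ midPrimes D R := by
    intro p hp
    rw [Nat.mem_primeFactors] at hp
    obtain ⟨i, -, hi⟩ := (Nat.Prime.prime hp.1).exists_mem_finset_dvd hp.2.1
    exact primeFactors_subset ((mem_supp.1 hd).1 i) (Nat.mem_primeFactors.2
      ⟨hp.1, hi, Nat.one_le_iff_ne_zero.1 (mem_rough.1 ((mem_supp.1 hd).1 i)).1.1⟩)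
  rw [← Nat.prod_primeFactors_of_squarefree (mem_supp.1 hd).2.1]
  exact prod_dvd_prod_of_subset _ _ _ hsub

theorem pairMod_dvd {d e : Fin k → ℕ} (hd : d ∈ supp k D R) (he : e ∈ supp k D R) :
    pairMod d e ∣ modulus D R := Nat.lcm_dvd (prod_dvd_modulus hd) (prod_dvd_modulus he)

theorem pairMod_le {d e : Fin k → ℕ} (hd : d ∈ supp k D R) (he : e ∈ supp k D R) :
    pairMod d e ≤ R ^ 2 := by
  rw [sq]
  exact (Nat.le_of_dvd (Nat.mul_pos (prod_pos_of_supp hd) (prod_pos_of_supp he))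
    (Nat.lcm_dvd_mul _ _)).trans (Nat.mul_le_mul (mem_supp.1 hd).2.2 (mem_supp.1 he).2.2)

theorem dvdInd_eq {d : Fin k → ℕ} (hd : d ∈ supp k D R) {c₀ : ℕ}
    (h0 : ∀ i : Fin k, d i ∣ form D i c₀) (c : ℕ) :
    dvdInd D d c = if c ≡ c₀ [MOD ∏ i, d i] then 1 else 0 := by
  have hiff : (∀ i : Fin k, d i ∣ form D i c) ↔ c ≡ c₀ [MOD ∏ i, d i] := by
    constructor
    · intro h
      have hi : ∀ i : Fin k, c ≡ c₀ [MOD d i] := fun i => by
        have h1 : form D i c ≡ form D i c₀ [MOD d i] :=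
          (Nat.modEq_zero_iff_dvd.2 (h i)).trans (Nat.modEq_zero_iff_dvd.2 (h0 i)).symm
        refine Nat.ModEq.cancel_left_of_coprime ?_ (Nat.ModEq.add_right_cancel' (shift i) h1)
        exact (mem_rough.1 ((mem_supp.1 hd).1 i)).2.2
      rw [Nat.modEq_iff_dvd, Nat.cast_prod]
      refine Finset.prod_dvd_of_coprime ?_ fun i _ => (Nat.modEq_iff_dvd).1 (hi i)
      intro i _ j _ hij
      exact Nat.isCoprime_iff_coprime.2 (coprime_of_supp hd hij)
    · intro h i
      exact ((((h.of_dvd (dvd_prod_of_mem d (mem_univ i))).mul_left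
        (D !)).add_right (shift i)).dvd_iff (dvd_refl (d i))).2 (h0 i)
  simp only [dvdInd, hiff]

theorem pairInd_eq {d e : Fin k → ℕ} (hd : d ∈ supp k D R) (he : e ∈ supp k D R) {c₀ : ℕ}
    (h0 : pairInd D d e c₀ ≠ 0) (c : ℕ) :
    pairInd D d e c = if c ≡ c₀ [MOD pairMod d e] then 1 else 0 := by
  simp only [pairInd, dvdInd, ne_eq, mul_eq_zero, not_or] at h0
  have h1 : ∀ i : Fin k, d i ∣ form D i c₀ := by
    by_contra h
    exact h0.1 (if_neg h)
  have h2 : ∀ i : Fin k, e i ∣ form D i c₀ := by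
    by_contra h
    exact h0.2 (if_neg h)
  rw [pairInd, dvdInd_eq hd h1, dvdInd_eq he h2]
  have hiff : c ≡ c₀ [MOD pairMod d e] ↔
      c ≡ c₀ [MOD ∏ i, d i] ∧ c ≡ c₀ [MOD ∏ i, e i] :=
    ⟨fun h => ⟨h.of_dvd (Nat.dvd_lcm_left _ _), h.of_dvd (Nat.dvd_lcm_right _ _)⟩, fun h => by
      rw [Nat.modEq_iff_dvd, pairMod]
      exact Int.coe_lcm_dvd (Nat.modEq_iff_dvd.1 h.1) (Nat.modEq_iff_dvd.1 h.2)⟩
  by_cases ha : c ≡ c₀ [MOD ∏ i, d i] <;> by_cases hb : c ≡ c₀ [MOD ∏ i, e i] <;>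
    simp [hiff, ha, hb]

theorem class_prod_eq {q : ℕ} (hq : q ∣ modulus D R) (c₀ c : ℕ) :
    (if c ≡ c₀ [MOD q] then (1 : ℝ) else 0) =
      ∏ p ∈ midPrimes D R, (if p ∣ q then (if c ≡ c₀ [MOD p] then 1 else 0) else 1) := by
  by_cases h : c ≡ c₀ [MOD q]
  · rw [if_pos h, prod_eq_one fun p _ => ?_]
    by_cases hp : p ∣ q
    · rw [if_pos hp, if_pos (h.of_dvd hp)]
    · rw [if_neg hp]
  · rw [if_neg h]
    obtain ⟨p, hp, hnp⟩ : ∃ p ∈ q.primeFactors, ¬ c ≡ c₀ [MOD p] := by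
      by_contra hall
      push Not at hall
      refine h ?_
      rw [← Nat.prod_primeFactors_of_squarefree (squarefree_modulus.squarefree_of_dvd hq),
        Nat.modEq_iff_dvd, Nat.cast_prod]
      refine Finset.prod_dvd_of_coprime (fun p hp p' hp' hne => ?_)
        fun p hp => Nat.modEq_iff_dvd.1 (hall p hp)
      exact Nat.isCoprime_iff_coprime.2 ((Nat.coprime_primes (Nat.prime_of_mem_primeFactors hp)
        (Nat.prime_of_mem_primeFactors hp')).2 hne)
    have hmem : p ∈ midPrimes D R := by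
      have := Nat.primeFactors_mono hq (modulus_pos (D := D) (R := R)).ne' hp
      rwa [modulus, Nat.primeFactors_prod prime_of_mid] at this
    exact (prod_eq_zero hmem
      (by rw [if_pos (Nat.dvd_of_mem_primeFactors hp), if_neg hnp])).symm

theorem sum_range_class {p : ℕ} (hp : 0 < p) (c₀ : ℕ) (F : ℕ → ℝ) :
    ∑ c ∈ range p, (if c ≡ c₀ [MOD p] then F c else 0) = F (c₀ % p) := by
  rw [sum_eq_single (c₀ % p), if_pos (Nat.mod_modEq c₀ p)]
  · intro c hc hne
    rw [if_neg]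
    intro h
    exact hne (by rw [← h, Nat.mod_eq_of_lt (mem_range.1 hc)])
  · exact fun h => absurd (mem_range.2 (Nat.mod_lt _ hp)) h

theorem primeFactors_filter_mid {q : ℕ} (hq : q ∣ modulus D R) :
    (midPrimes D R).filter (· ∣ q) = q.primeFactors := by
  have hq0 : q ≠ 0 := fun h => (modulus_pos (D := D) (R := R)).ne' (zero_dvd_iff.1 (h ▸ hq))
  ext p
  rw [mem_filter, Nat.mem_primeFactors]
  refine ⟨fun h => ⟨prime_of_mid p h.1, h.2, hq0⟩, fun h => ⟨?_, h.2.1⟩⟩
  have := Nat.primeFactors_mono hq (modulus_pos (D := D) (R := R)).ne'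
    (Nat.mem_primeFactors.2 h)
  rwa [modulus, Nat.primeFactors_prod prime_of_mid] at this

theorem avgAll_class {q : ℕ} (hq : q ∣ modulus D R) (c₀ : ℕ) :
    avgAll D R (fun c => if c ≡ c₀ [MOD q] then 1 else 0) = (q : ℝ)⁻¹ := by
  simp only [avgAll, class_prod_eq hq]
  rw [modulus, sum_range_prod prime_of_mid
    (fun p c => if p ∣ q then (if c ≡ c₀ [MOD p] then 1 else 0) else 1), Nat.cast_prod,
    ← prod_div_distrib]
  · rw [prod_congr rfl (g := fun p : ℕ => if p ∣ q then (p : ℝ)⁻¹ else 1) fun p hp => ?_]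
    · rw [← prod_filter, primeFactors_filter_mid hq, prod_inv_distrib, ← Nat.cast_prod,
        Nat.prod_primeFactors_of_squarefree (squarefree_modulus.squarefree_of_dvd hq)]
    · have hp0 := (prime_of_mid p hp).pos
      by_cases h : p ∣ q
      · simp only [if_pos h]
        rw [sum_range_class hp0 c₀ fun _ => 1, one_div]
      · simp only [if_neg h, sum_const, card_range, nsmul_one]
        exact div_self (Nat.cast_ne_zero.2 hp0.ne')
  · intro p _ c
    by_cases h : p ∣ q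
    · simp only [if_pos h, Nat.ModEq, Nat.mod_mod]
      split_ifs <;> rfl
    · simp only [if_neg h]

theorem totient_eq_prod {q : ℕ} (hq : Squarefree q) :
    (q.totient : ℝ) = ∏ p ∈ q.primeFactors, ((p : ℝ) - 1) := by
  have h := Nat.totient_eq_div_primeFactors_mul q
  rw [Nat.prod_primeFactors_of_squarefree hq, Nat.div_self (Nat.pos_of_ne_zero hq.ne_zero),
    one_mul] at h
  rw [h, Nat.cast_prod]
  exact prod_congr rfl fun p hp => by
    rw [Nat.cast_sub (Nat.prime_of_mem_primeFactors hp).one_lt.le, Nat.cast_one]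

theorem avgAway_class (hk : AdmissibleTuple k D) {m : Fin k} {q : ℕ} (hq : q ∣ modulus D R) {c₀ : ℕ}
    (hc : ∀ p ∈ q.primeFactors, ¬ p ∣ form D m c₀) :
    avgAway D R m (fun c => if c ≡ c₀ [MOD q] then 1 else 0) = ((q.totient : ℕ) : ℝ)⁻¹ := by
  simp only [avgAway, awayAll, class_prod_eq hq, ← prod_mul_distrib]
  rw [modulus, sum_range_prod prime_of_mid (fun p c => away D p m c *
    if p ∣ q then (if c ≡ c₀ [MOD p] then 1 else 0) else 1), ← prod_div_distrib]
  · rw [prod_congr rfl (g := fun p : ℕ => if p ∣ q then ((p : ℝ) - 1)⁻¹ else 1) fun p hp => ?_]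
    · rw [← prod_filter, primeFactors_filter_mid hq, prod_inv_distrib,
        ← totient_eq_prod (squarefree_modulus.squarefree_of_dvd hq)]
    · have hpp := prime_of_mid p hp
      by_cases h : p ∣ q
      · simp only [if_pos h, mul_ite, mul_one, mul_zero]
        have hnot : ¬ p ∣ form D m c₀ := hc p (primeFactors_filter_mid hq ▸ mem_filter.2 ⟨hp, h⟩)
        rw [sum_range_class hpp.pos, away_mod, away, hit, if_neg hnot, sub_zero, one_div]
      · simp only [if_neg h, mul_one, sum_away (goodPrime hk hp)]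
        exact div_self (sub_ne_zero.2 (by exact_mod_cast hpp.one_lt.ne'))
  · intro p _ c
    rw [away_mod]
    by_cases h : p ∣ q
    · simp only [if_pos h, Nat.ModEq, Nat.mod_mod]
      split_ifs <;> rfl
    · simp only [if_neg h]

theorem abs_card_class_sub_le {q : ℕ} (hq : 0 < q) (N c₀ : ℕ) :
    |(((Ioc N (2 * N)).filter fun j => j ≡ c₀ [MOD q]).card : ℝ) - (N : ℝ) / q| ≤ 1 := by
  have h := Nat.Ioc_filter_modEq_card N (2 * N) hq c₀
  obtain ⟨u, hu⟩ : ∃ u : ℚ, u = (((2 * N : ℕ) : ℚ) - c₀) / q := ⟨_, rfl⟩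
  obtain ⟨v, hv⟩ : ∃ v : ℚ, v = ((N : ℚ) - c₀) / q := ⟨_, rfl⟩
  rw [← hu, ← hv] at h
  have huv : u - v = (N : ℚ) / q := by
    rw [hu, hv, ← sub_div]
    push_cast
    ring
  have hle : ⌊v⌋ ≤ ⌊u⌋ := by
    refine Int.floor_mono ?_
    have : (0 : ℚ) ≤ (N : ℚ) / q := by positivity
    linarith
  rw [max_eq_left (sub_nonneg.2 hle)] at h
  have h2 : |(((Ioc N (2 * N)).filter fun j => j ≡ c₀ [MOD q]).card : ℚ) - (N : ℚ) / q| ≤ 1 := by
    rw [← Int.cast_natCast (R := ℚ) (((Ioc N (2 * N)).filter _).card), h, Int.cast_sub, ← huv,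
      abs_le]
    constructor <;>
      linarith [Int.floor_le u, Int.lt_floor_add_one u, Int.floor_le v, Int.lt_floor_add_one v]
  have h3 := (Rat.cast_le (K := ℝ)).2 h2
  push_cast at h3
  exact h3

theorem sum_rough_omega_le (J : ℕ) :
    ∑ a ∈ rough D R, (J : ℝ) ^ a.primeFactors.card / (a : ℕ) ≤
      (∑ a ∈ Icc 1 R, ((a : ℕ) : ℝ)⁻¹) ^ J := by
  classical
  induction J with
  | zero =>
    rw [pow_zero]
    refine (sum_le_sum_of_subset_of_nonneg (t := {1} ∪ (rough D R).filter (· ≠ 1))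
      (fun a ha => ?_) fun a _ _ => by positivity).trans ?_
    · by_cases h : a = 1
      · exact mem_union_left _ (mem_singleton.2 h)
      · exact mem_union_right _ (mem_filter.2 ⟨ha, h⟩)
    · rw [sum_union (disjoint_singleton_left.2 (by simp)), sum_singleton,
        sum_eq_zero fun a ha => ?_]
      · simp
      · rw [mem_filter] at ha
        have : 2 ≤ a := by
          have := (mem_rough.1 ha.1).1
          omega
        rw [Nat.cast_zero, zero_pow, zero_div]
        exact card_ne_zero.2 (Nat.nonempty_primeFactors.2 this)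
  | succ J ih =>
    obtain ⟨H, hH⟩ : ∃ H, H = ∑ a ∈ Icc 1 R, ((a : ℕ) : ℝ)⁻¹ := ⟨_, rfl⟩
    rw [← hH] at ih ⊢
    rw [pow_succ]
    refine le_trans ?_ (mul_le_mul_of_nonneg_right ih
      (hH ▸ sum_nonneg fun a _ => by positivity))
    rw [hH, sum_mul_sum, ← sum_product']
    have e : ∀ a : ℕ, ((J + 1 : ℕ) : ℝ) ^ a.primeFactors.card / (a : ℕ) =
        ∑ T ∈ a.primeFactors.powerset, (J : ℝ) ^ T.card / (a : ℕ) := fun a => by
      rw [← sum_div]
      push_cast
      rw [← sum_pow_mul_eq_add_pow]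
      simp
    simp only [e]
    have hkey : ∀ a ∈ rough D R, ∀ T ∈ a.primeFactors.powerset,
        (∏ p ∈ T, p) ∣ a ∧ (∏ p ∈ T, p).primeFactors = T ∧ (∏ p ∈ T, p) ∈ rough D R := by
      intro a ha T hT
      rw [mem_powerset] at hT
      have hdvd : (∏ p ∈ T, p) ∣ a :=
        (prod_dvd_prod_of_subset _ _ _ hT).trans a.prod_primeFactors_dvd
      obtain ⟨⟨h1, h2⟩, h3, h4⟩ := mem_rough.1 ha
      exact ⟨hdvd, Nat.primeFactors_prod fun p hp => Nat.prime_of_mem_primeFactors (hT hp),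
        mem_rough.2 ⟨⟨Nat.pos_of_dvd_of_pos hdvd h1, (Nat.le_of_dvd h1 hdvd).trans h2⟩,
          h3.squarefree_of_dvd hdvd, h4.coprime_dvd_left hdvd⟩⟩
    rw [sum_sigma']
    refine le_trans (le_of_eq ?_) (sum_le_sum_of_subset_of_nonneg
      (s := ((rough D R).sigma fun a => a.primeFactors.powerset).image
        fun x => (∏ p ∈ x.2, p, x.1 / ∏ p ∈ x.2, p)) (fun y hy => ?_) fun y _ _ => by positivity)
    · rw [sum_image]
      · refine sum_congr rfl fun x hx => ?_
        rw [mem_sigma] at hx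
        obtain ⟨hdvd, hpf, hr⟩ := hkey x.1 hx.1 x.2 hx.2
        have h1 : ((∏ p ∈ x.2, p : ℕ) : ℝ) ≠ 0 :=
          Nat.cast_ne_zero.2 (Nat.one_le_iff_ne_zero.1 (mem_rough.1 hr).1.1)
        rw [hpf, Nat.cast_div hdvd h1, inv_div, div_mul_div_comm, mul_comm ((∏ p ∈ x.2, p : ℕ) : ℝ),
          mul_div_mul_right _ _ h1]
      · intro x hx y hy h
        rw [mem_coe, mem_sigma] at hx hy
        obtain ⟨hdvd, hpf, -⟩ := hkey x.1 hx.1 x.2 hx.2
        obtain ⟨hdvd', hpf', -⟩ := hkey y.1 hy.1 y.2 hy.2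
        obtain ⟨h1, h2⟩ := Prod.ext_iff.1 h
        refine Sigma.ext ?_ (heq_of_eq (hpf ▸ hpf' ▸ congrArg Nat.primeFactors h1))
        rw [← Nat.mul_div_cancel' hdvd, ← Nat.mul_div_cancel' hdvd']
        exact congrArg₂ (· * ·) h1 h2
    · obtain ⟨x, hx, rfl⟩ := mem_image.1 hy
      rw [mem_sigma] at hx
      obtain ⟨hdvd, hpf, hr⟩ := hkey x.1 hx.1 x.2 hx.2
      refine mem_product.2 ⟨hr, mem_Icc.2 ⟨Nat.div_pos (Nat.le_of_dvd (mem_rough.1 hx.1).1.1 hdvd)
        (mem_rough.1 hr).1.1, (Nat.div_le_self _ _).trans (mem_rough.1 hx.1).1.2⟩⟩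

theorem div_totient_le_two_pow {n : ℕ} (hn : 0 < n) :
    (n : ℝ) / (n.totient : ℕ) ≤ 2 ^ n.primeFactors.card := by
  have h := Nat.totient_eq_div_primeFactors_mul n
  have hP : 0 < ∏ p ∈ n.primeFactors, p :=
    prod_pos fun p hp => (Nat.prime_of_mem_primeFactors hp).pos
  rw [h, div_le_iff₀ (Nat.cast_pos.2 (h ▸ Nat.totient_pos.2 hn)), Nat.cast_mul,
    Nat.cast_div n.prod_primeFactors_dvd (Nat.cast_ne_zero.2 hP.ne')]
  push_cast
  rw [← prod_const, ← mul_assoc, mul_comm (∏ _p ∈ n.primeFactors, (2 : ℝ)), mul_assoc,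
    ← prod_mul_distrib, div_mul_eq_mul_div,
    le_div_iff₀ (prod_pos fun p hp => Nat.cast_pos.2 (Nat.prime_of_mem_primeFactors hp).pos)]
  refine mul_le_mul_of_nonneg_left (prod_le_prod (fun p _ => Nat.cast_nonneg p) fun p hp => ?_)
    (Nat.cast_nonneg n)
  have hp2 := (Nat.prime_of_mem_primeFactors hp).two_le
  rw [Nat.cast_sub (by omega), Nat.cast_one]
  have : (2 : ℝ) ≤ p := by exact_mod_cast hp2
  linarith

end FA.BoundedGaps
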