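import Fermat.Agent.BoundedGaps.SecondMoment

/-!
# The mean of the squared weight where a small prime divides a form

For a prime `p` and the `i`-th form the mean of `1[p ∣ L i] f²` is at most `1 / p` times
`(log p + O (1)) H ^ (k - 1)` plus `O (H ^ k / p ^ 2)`, `H` being the one-dimensional sum: for each
tuple free of `p` the coefficients nearly cancel unless a coordinate, or the product of all, lies
in one of a few windows of logarithmic length `log p`.
-/

set_option autoImplicit false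
set_option linter.unusedSectionVars false

noncomputable section

namespace FA.BoundedGaps

open Finset
open scoped Nat

variable [Shifts]

variable {k D R : ℕ}

/-- The constant in the harmonic sums over windows. -/
def windowConst (D : ℕ) : ℝ := 2 * (D ! : ℕ) + 2

theorem windowConst_nonneg (D : ℕ) : 0 ≤ windowConst D := by
  unfold windowConst
  positivity

/-- **Harmonic sums prime to `W` over a window.** -/
theorem sum_coprime_window_le {D : ℕ} {t u : ℝ} (hu : 0 ≤ u) {S : Finset ℕ}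
    (hS : ∀ n ∈ S, 1 ≤ n ∧ n.Coprime D ! ∧ t - u < Real.log n ∧ Real.log n ≤ t) :
    ∑ n ∈ S, (n : ℝ)⁻¹ ≤ density D * u + windowConst D := by
  have hδ := density_pos D
  have hW1 : (1 : ℝ) ≤ (D ! : ℕ) := Nat.one_le_cast.2 (Nat.factorial_pos D)
  have hnn : 0 ≤ density D * u := mul_nonneg hδ.le hu
  rcases S.eq_empty_or_nonempty with rfl | ⟨n₀, hn₀⟩
  · simpa using add_nonneg hnn (windowConst_nonneg D)
  obtain ⟨h01, -, -, h04⟩ := hS n₀ hn₀
  have ht : 0 ≤ t := (Real.log_natCast_nonneg n₀).trans h04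
  obtain ⟨y, hy⟩ : ∃ y, y = ⌊Real.exp t⌋₊ := ⟨_, rfl⟩
  have hy1 : 1 ≤ y := hy ▸ Nat.le_floor (by simpa using Real.one_le_exp ht)
  have hly : Real.log y ≤ t := (le_floor_exp_iff hy1 t).1 hy.le
  obtain ⟨T, hT⟩ : ∃ T : ℕ → Finset ℕ,
      T = fun y => (Icc 1 y).filter fun n => n.Coprime D ! := ⟨_, rfl⟩
  have hsub : S ⊆ T y := fun n hn => by
    obtain ⟨h1, h2, -, h4⟩ := hS n hn
    rw [hT, mem_filter, mem_Icc]
    exact ⟨⟨h1, hy ▸ (le_floor_exp_iff h1 t).2 h4⟩, h2⟩
  have hupper := sum_coprime_le D y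
  have hdl := mul_le_mul_of_nonneg_left hly hδ.le
  have hd1 := density_le_one D
  unfold windowConst
  by_cases htu : t - u < 0
  · refine (sum_le_sum_of_subset_of_nonneg hsub fun n _ _ => by positivity).trans ?_
    simp only [hT]
    have := mul_le_mul_of_nonneg_left (show t ≤ u by linarith) hδ.le
    linarith
  · push Not at htu
    obtain ⟨z, hz⟩ : ∃ z, z = ⌊Real.exp (t - u)⌋₊ := ⟨_, rfl⟩
    have hz1 : 1 ≤ z := hz ▸ Nat.le_floor (by simpa using Real.one_le_exp htu)
    have hzy : z ≤ y := by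
      rw [hz, hy]
      exact Nat.floor_le_floor (Real.exp_le_exp.2 (by linarith))
    have hlz : t - u - 1 ≤ Real.log z := by
      have h1 := Nat.lt_floor_add_one (Real.exp (t - u))
      rw [← hz] at h1
      have h2 : (1 : ℝ) ≤ z := by exact_mod_cast hz1
      have h3 := Real.log_le_log (Real.exp_pos (t - u))
        (show Real.exp (t - u) ≤ 2 * z by linarith)
      rw [Real.log_exp, Real.log_mul two_ne_zero (by positivity)] at h3
      linarith [Real.log_two_lt_d9]
    have hzsub : T z ⊆ T y := by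
      simp only [hT]
      exact filter_subset_filter _ (Icc_subset_Icc_right hzy)
    have hsub' : S ⊆ T y \ T z := fun n hn => by
      rw [mem_sdiff]
      refine ⟨hsub hn, fun hn' => ?_⟩
      rw [hT, mem_filter, mem_Icc] at hn'
      have := (le_floor_exp_iff hn'.1.1 (t - u)).1 (hz ▸ hn'.1.2)
      linarith [(hS n hn).2.2.1]
    refine (sum_le_sum_of_subset_of_nonneg hsub' fun n _ _ => by positivity).trans ?_
    rw [sum_sdiff_eq_sub hzsub]
    simp only [hT]
    have hlow := le_sum_coprime D z hz1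
    have hlW := mul_le_mul_of_nonneg_left (Real.log_le_self (Nat.cast_nonneg (D !))) hδ.le
    have hW2 := mul_le_mul_of_nonneg_right hd1 (Nat.cast_nonneg (α := ℝ) (D !))
    have hlz' := mul_le_mul_of_nonneg_left hlz hδ.le
    linarith

/-- **Weighted squarefree numbers over a window.** -/
theorem sum_rough_cw_window_le {D R : ℕ} {t u C : ℝ} (hD : 1 ≤ D) (hu : 0 ≤ u) (hC : 0 ≤ C) :
    ∑ a ∈ rough D R, (if t - u < Real.log a ∧ Real.log a ≤ t then cw C a / a else 0) ≤
      Real.exp (C / D) * (density D * u + windowConst D) := by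
  classical
  obtain ⟨U, hU⟩ : ∃ U, U = density D * u + windowConst D := ⟨_, rfl⟩
  have hU0 : 0 ≤ U :=
    hU ▸ add_nonneg (mul_nonneg (density_pos D).le hu) (windowConst_nonneg D)
  rw [← hU]
  obtain ⟨A, hA⟩ : ∃ A, A = (rough D R).filter
    fun a : ℕ => t - u < Real.log a ∧ Real.log a ≤ t := ⟨_, rfl⟩
  rw [← sum_filter, ← hA]
  have hexp : ∀ a ∈ A, cw C a / a = ∑ T ∈ (midPrimes D R).powerset,
      if T ⊆ a.primeFactors then (∏ p ∈ T, C / (p : ℝ)) / a else 0 := by
    intro a ha
    rw [hA, mem_filter] at ha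
    rw [cw, prod_one_add, sum_div, ← sum_filter]
    refine sum_congr ?_ fun T _ => rfl
    ext T
    simp only [mem_powerset, mem_filter]
    exact ⟨fun h => ⟨h.trans (primeFactors_subset ha.1), h⟩, fun h => h.2⟩
  rw [sum_congr rfl hexp, sum_comm]
  refine le_trans (sum_le_sum (g := fun T : Finset ℕ => (∏ p ∈ T, C / (p : ℝ) ^ 2) * U)
    fun T hT => ?_) ?_
  · rw [mem_powerset] at hT
    obtain ⟨d, hd⟩ : ∃ d : ℕ, d = ∏ p ∈ T, p := ⟨_, rfl⟩
    have hprimes : ∀ p ∈ T, p.Prime := fun p hp => (mem_filter.1 (hT hp)).2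
    have hd0 : 0 < d := hd ▸ prod_pos fun p hp => (hprimes p hp).pos
    obtain ⟨S, hS⟩ : ∃ S, S = ((A.filter fun a => T ⊆ a.primeFactors).image (· / d)) := ⟨_, rfl⟩
    have hdvd : ∀ a ∈ A.filter (fun a => T ⊆ a.primeFactors), d ∣ a := fun a ha => by
      rw [hd]
      exact (prod_dvd_prod_of_subset _ _ _ (mem_filter.1 ha).2).trans a.prod_primeFactors_dvd
    have himg : A.filter (fun a => T ⊆ a.primeFactors) ⊆ S.image (d * ·) := fun a ha =>
      mem_image.2 ⟨a / d, hS ▸ mem_image_of_mem _ ha, Nat.mul_div_cancel' (hdvd a ha)⟩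
    rw [← sum_filter]
    refine le_trans (sum_le_sum_of_subset_of_nonneg himg
      fun a _ _ => div_nonneg (prod_nonneg fun p _ => by positivity) (Nat.cast_nonneg a)) ?_
    rw [sum_image fun x _ z _ h => Nat.eq_of_mul_eq_mul_left hd0 h]
    push_cast
    simp only [div_eq_mul_inv (∏ p ∈ T, C / (p : ℝ)), mul_inv, ← mul_assoc]
    rw [← mul_sum]
    refine mul_le_mul (le_of_eq ?_) ?_ (sum_nonneg fun n _ => by positivity)
      (prod_nonneg fun p _ => by positivity)
    · rw [hd, Nat.cast_prod, ← prod_inv_distrib, ← prod_mul_distrib]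
      exact prod_congr rfl fun p _ => by ring
    · rw [hU]
      refine sum_coprime_window_le (t := t - Real.log d) hu fun n hn => ?_
      rw [hS] at hn
      obtain ⟨a, ha, rfl⟩ := mem_image.1 hn
      obtain ⟨j, hj⟩ := hdvd a ha
      rw [mem_filter, hA, mem_filter, mem_rough] at ha
      obtain ⟨⟨⟨⟨ha1, -⟩, -, hco⟩, hlo, hhi⟩, -⟩ := ha
      subst hj
      rw [Nat.mul_div_cancel_left _ hd0]
      have hj0 : 0 < j := Nat.pos_of_mul_pos_left ha1
      have hlog : Real.log ((d * j : ℕ) : ℝ) = Real.log d + Real.log j := by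
        push_cast
        exact Real.log_mul (Nat.cast_ne_zero.2 hd0.ne') (Nat.cast_ne_zero.2 hj0.ne')
      rw [hlog] at hlo hhi
      exact ⟨hj0, hco.coprime_dvd_left (dvd_mul_left j d), by linarith, by linarith⟩
  · rw [← sum_mul, ← prod_one_add]
    refine mul_le_mul_of_nonneg_right
      ((Real.prod_one_add_le_exp_sum _ fun p => by positivity).trans (Real.exp_le_exp.2 ?_)) hU0
    simp only [div_eq_mul_inv]
    rw [← mul_sum]
    exact mul_le_mul_of_nonneg_left (sum_midPrimes_inv_sq_le hD) hC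

/-- `r` with the `j`-th coordinate multiplied by `p`. -/
def mulAt (p : ℕ) (j : Fin k) (r : Fin k → ℕ) : Fin k → ℕ := Function.update r j (p * r j)

theorem prod_mulAt (p : ℕ) (j : Fin k) (r : Fin k → ℕ) : ∏ l, mulAt p j r l = p * ∏ l, r l := by
  rw [mulAt, prod_update_of_mem (mem_univ j), ← erase_eq, mul_assoc,
    mul_prod_erase univ r (mem_univ j)]

theorem coprime_prod_of_lab_none {p : ℕ} (hp : p.Prime) {r : Fin k → ℕ}
    (h : lab r p = none) : p.Coprime (∏ l, r l) :=
  Nat.Coprime.prod_right fun l _ => hp.coprime_iff_not_dvd.2 (lab_eq_none.1 h l)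

theorem mulAt_mem {p : ℕ} (hp : p ∈ midPrimes D R) (j : Fin k) {r : Fin k → ℕ}
    (hr : r ∈ supp k D R) (hlab : lab r p = none) (hle : p * ∏ l, r l ≤ R) :
    mulAt p j r ∈ supp k D R := by
  have hpp := prime_of_mid p hp
  have hsq : Squarefree (∏ l, mulAt p j r l) := by
    rw [prod_mulAt, Nat.squarefree_mul (coprime_prod_of_lab_none hpp hlab)]
    exact ⟨hpp.squarefree, (mem_supp.1 hr).2.1⟩
  rw [mem_supp]
  refine ⟨fun l => ?_, hsq, by rwa [prod_mulAt]⟩
  rcases eq_or_ne l j with rfl | hl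
  · have hdvd : mulAt p l r l ∣ ∏ l', mulAt p l r l' := dvd_prod_of_mem _ (mem_univ l)
    obtain ⟨⟨h1, -⟩, -, h3⟩ := mem_rough.1 ((mem_supp.1 hr).1 l)
    refine mem_rough.2 ⟨⟨?_, ?_⟩, hsq.squarefree_of_dvd hdvd, ?_⟩
    · rw [mulAt, Function.update_self]
      exact Nat.mul_pos hpp.pos h1
    · refine le_trans (Nat.le_of_dvd ?_ hdvd) (by rwa [prod_mulAt])
      rw [prod_mulAt]
      exact Nat.mul_pos hpp.pos (prod_pos_of_supp hr)
    · rw [mulAt, Function.update_self]
      exact Nat.Coprime.mul_left (hpp.coprime_iff_not_dvd.2 fun h => absurd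
        (hpp.dvd_factorial.1 h) (not_le.2 (mem_Ioc.1 (mem_filter.1 hp).1).1)) h3
  · rw [mulAt, Function.update_of_ne hl]
    exact (mem_supp.1 hr).1 l

theorem lab_mulAt_self {p : ℕ} (hp : p ∈ midPrimes D R) (j : Fin k) {r : Fin k → ℕ}
    (hr : r ∈ supp k D R) (hlab : lab r p = none) (hle : p * ∏ l, r l ≤ R) :
    lab (mulAt p j r) p = some j := by
  rw [lab_eq_some (mulAt_mem hp j hr hlab hle) (prime_of_mid p hp), mulAt, Function.update_self]
  exact dvd_mul_right p _

theorem lab_mulAt_of_ne {p q : ℕ} (hp : p ∈ midPrimes D R) (hq : q.Prime) (hqp : q ≠ p)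
    (j : Fin k) {r : Fin k → ℕ} (hr : r ∈ supp k D R) (hlab : lab r p = none)
    (hle : p * ∏ l, r l ≤ R) :
    lab (mulAt p j r) q = lab r q := by
  have hiff : ∀ l, q ∣ mulAt p j r l ↔ q ∣ r l := fun l => by
    rcases eq_or_ne l j with rfl | hl
    · rw [mulAt, Function.update_self, hq.dvd_mul,
        or_iff_right fun h => hqp ((Nat.prime_dvd_prime_iff_eq hq (prime_of_mid p hp)).1 h)]
    · rw [mulAt, Function.update_of_ne hl]
  cases hl : lab r q with
  | none => exact lab_eq_none.2 fun l h => lab_eq_none.1 hl l ((hiff l).1 h)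
  | some l =>
    exact (lab_eq_some (mulAt_mem hp j hr hlab hle) hq l).2
      ((hiff l).2 ((lab_eq_some hr hq l).1 hl))

theorem tupleX_mulAt {p : ℕ} (hp : p ∈ midPrimes D R) (j : Fin k) {r : Fin k → ℕ}
    (hr : r ∈ supp k D R) (hlab : lab r p = none) (hle : p * ∏ l, r l ≤ R) (c : ℕ) :
    tupleX D R (mulAt p j r) c = basicX D p (some j) c * tupleX D R r c := by
  rw [tupleX, tupleX, ← mul_prod_erase _ _ hp,
    ← mul_prod_erase _ (fun q => basicX D q (lab r q) c) hp, lab_mulAt_self hp j hr hlab hle,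
    hlab, show basicX D p (none : Option (Fin k)) c = 1 from rfl, one_mul]
  congr 1
  refine prod_congr rfl fun q hq => ?_
  rw [mem_erase] at hq
  rw [lab_mulAt_of_ne hp (prime_of_mid q hq.2) hq.1 j hr hlab hle]

/-- The coefficient of a tuple of `f`. -/
def tupleW (g : ℕ → ℝ) (r : Fin k → ℕ) : ℝ :=
  (∏ l, g (r l)) / ((∏ l, r l).totient : ℝ)

/-- The coefficient of a tuple free of `p` in `f` where `p ∣ L i`. -/
def hitCoef (R : ℕ) (g : ℕ → ℝ) (p : ℕ) (i : Fin k) (r : Fin k → ℕ) : ℝ :=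
  tupleW g r + ∑ j, if p * ∏ l, r l ≤ R then
    tupleW g (mulAt p j r) * (if j = i then 1 - (p : ℝ) else 1) else 0

theorem sieveSum_hit (hk : AdmissibleTuple k D) {p : ℕ} (hp : p ∈ midPrimes D R) (i : Fin k)
    (g : ℕ → ℝ) (c : ℕ) :
    hit D p i c * sieveSum D R g k c = hit D p i c *
      ∑ s ∈ (supp k D R).filter (fun r => lab r p = none),
        hitCoef R g p i s * tupleX D R s c := by
  classical
  by_cases hc : p ∣ form D i c
  swap
  · simp [hit, hc]
  congr 1
  have hsum : sieveSum D R g k c = ∑ r ∈ supp k D R, tupleW g r * tupleX D R r c := rfl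
  obtain ⟨S, hS⟩ : ∃ S, S = (supp k D R).filter fun r => lab r p = none := ⟨_, rfl⟩
  rw [hsum, ← sum_fiberwise (supp k D R) (fun r => lab r p), Fintype.sum_option, ← hS]
  simp only [hitCoef, add_mul, sum_mul, sum_add_distrib]
  rw [sum_comm (s := S)]
  congr 1
  refine sum_congr rfl fun j _ => ?_
  simp only [ite_mul, zero_mul]
  rw [← sum_filter]
  symm
  refine sum_nbij' (mulAt p j) (fun r => Function.update r j (r j / p)) ?_ ?_ ?_ ?_ ?_
  · intro s hs
    simp only [hS, mem_filter] at hs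
    exact mem_filter.2 ⟨mulAt_mem hp j hs.1.1 hs.1.2 hs.2,
      lab_mulAt_self hp j hs.1.1 hs.1.2 hs.2⟩
  · intro r hr
    rw [mem_filter] at hr
    have hpp := prime_of_mid p hp
    have hd := (lab_eq_some hr.1 hpp j).1 hr.2
    have hmem : Function.update r j (r j / p) ∈ supp k D R := by
      refine mem_supp_of_dvd hr.1 fun l => ?_
      rcases eq_or_ne l j with rfl | hl
      · rw [Function.update_self]
        exact Nat.div_dvd_of_dvd hd
      · rw [Function.update_of_ne hl]
    have hnone : lab (Function.update r j (r j / p)) p = none := lab_eq_none.2 fun l h => by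
      rcases eq_or_ne l j with rfl | hl
      · rw [Function.update_self] at h
        have hsq := (mem_rough.1 ((mem_supp.1 hr.1).1 l)).2.1
        refine hpp.not_isUnit (hsq p ?_)
        obtain ⟨t, ht⟩ := hd
        rw [ht, Nat.mul_div_cancel_left _ hpp.pos] at h
        rw [ht]
        exact mul_dvd_mul_left p h
      · rw [Function.update_of_ne hl] at h
        have := (lab_eq_some hr.1 hpp l).2 h
        rw [hr.2, Option.some_inj] at this
        exact hl this.symm
    refine mem_filter.2 ⟨hS ▸ mem_filter.2 ⟨hmem, hnone⟩, ?_⟩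
    rw [← prod_mulAt p j, mulAt, Function.update_self, Function.update_idem,
      Nat.mul_div_cancel' hd, Function.update_eq_self]
    exact (mem_supp.1 hr.1).2.2
  · intro s _
    simp only [mulAt, Function.update_self, Function.update_idem]
    rw [Nat.mul_div_cancel_left _ (prime_of_mid p hp).pos, Function.update_eq_self]
  · intro r hr
    rw [mem_filter] at hr
    simp only [mulAt, Function.update_self, Function.update_idem]
    rw [Nat.mul_div_cancel' ((lab_eq_some hr.1 (prime_of_mid p hp) j).1 hr.2),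
      Function.update_eq_self]
  · intro s hs
    simp only [hS, mem_filter] at hs
    rw [tupleX_mulAt hp j hs.1.1 hs.1.2 hs.2, mul_assoc]
    congr 2
    by_cases hji : j = i
    · subst hji
      simp [basicX, hit, hc]
    · simp [basicX, hit, hji, not_two_hits (goodPrime hk hp) (fun e => hji e.symm) hc]

theorem avgAll_hit_mul {p : ℕ} (hk : AdmissibleTuple k D) (hp : p ∈ midPrimes D R) (i : Fin k)
    {r s : Fin k → ℕ} (hr : lab r p = none) (hs : lab s p = none) :
    avgAll D R (fun c => hit D p i c * (tupleX D R r c * tupleX D R s c)) =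
      (p : ℝ)⁻¹ * avgAll D R (fun c => tupleX D R r c * tupleX D R s c) := by
  rw [avgAll_mul, ← mul_prod_erase _ _ hp]
  have e : ∀ c, hit D p i c * (tupleX D R r c * tupleX D R s c) =
      ∏ q ∈ midPrimes D R, (if q = p then hit D q i c else 1) *
        (basicX D q (lab r q) c * basicX D q (lab s q) c) := fun c => by
    rw [prod_mul_distrib, prod_mul_distrib, prod_ite_eq' (midPrimes D R) p, if_pos hp]
    rfl
  simp only [avgAll, e]
  rw [modulus, sum_range_prod prime_of_mid (fun q c => (if q = p then hit D q i c else 1) *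
    (basicX D q (lab r q) c * basicX D q (lab s q) c)), Nat.cast_prod, ← prod_div_distrib,
    ← mul_prod_erase _ _ hp, hr, hs]
  · have hpp : (p : ℝ) ≠ 0 := Nat.cast_ne_zero.2 (prime_of_mid p hp).ne_zero
    have h1 : momXX D p (none : Option (Fin k)) none = 1 := by
      simp [momXX, basicX, div_self hpp]
    rw [h1, one_mul]
    congr 1
    · simp [basicX, sum_hit (goodPrime hk hp)]
    · refine prod_congr rfl fun q hq => ?_
      simp [momXX, (mem_erase.1 hq).1]
  · intro q _ c
    simp only [hit_mod, basicX_mod]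

/-- The diagonal bound of the quadratic form, over the square of the totient. -/
theorem rowBound_div_le (hD : 5 ≤ D) {r : Fin k → ℕ} (hr : r ∈ supp k D R) :
    (∏ q ∈ midPrimes D R, (if lab r q = none then 1 else ((q : ℝ) - 1) + ((k : ℝ) - 1))) /
      ((∏ l, r l).totient : ℝ) ^ 2 ≤ ∏ l, cw (4 * k) (r l) / (r l : ℕ) := by
  rw [totient_prod hr, ← prod_pow (midPrimes D R), ← prod_div_distrib]
  refine (le_of_eq (prod_congr rfl fun q _ => ?_)).trans (prod_lab_le hr (C := 4 * k)
    (F := fun q o => if o = none then 1 else (((q : ℝ) - 1) + ((k : ℝ) - 1)) / ((q : ℝ) - 1) ^ 2)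
    (fun q => if_pos rfl) fun q hq i => ?_)
  · split_ifs <;> simp
  · have h6 := three_le_of_mid hD hq
    have hk1 : (1 : ℝ) ≤ k := by exact_mod_cast (show 1 ≤ k from (Nat.zero_le _).trans_lt i.2)
    rw [if_neg (by simp)]
    refine ⟨div_nonneg (by linarith) (sq_nonneg _), ?_⟩
    rw [div_le_div_iff₀ (by nlinarith) (by linarith), one_add_div (by linarith),
      div_mul_eq_mul_div, le_div_iff₀ (by linarith)]
    nlinarith [mul_nonneg (mul_nonneg (show (0 : ℝ) ≤ k by linarith)
      (show (0 : ℝ) ≤ q by linarith)) (show (0 : ℝ) ≤ (q : ℝ) - 3 by linarith)]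

/-- One coordinate summed first. -/
theorem sum_split_le (hR : 1 ≤ R) (i : Fin k) {h : ℕ → ℝ} (h0 : ∀ a, 0 ≤ h a) (h1 : h 1 = 1)
    {F : (Fin k → ℕ) → ℕ → ℝ} (hF0 : ∀ r a, 0 ≤ F r a) {W : ℝ}
    (hW : ∀ r ∈ boxAt D R i, ∑ a ∈ rough D R, F r a ≤ W) {S : Finset (Fin k → ℕ)}
    (hS : S ⊆ box k D R) :
    ∑ s ∈ S, (∏ l ∈ univ.erase i, h (s l)) * F (Function.update s i 1) (s i) ≤
      W * (∑ a ∈ rough D R, h a) ^ (k - 1) := by
  rw [← sum_boxAt_prod i h1, mul_sum]
  refine le_trans ?_ (sum_le_sum (f := fun r => ∑ a ∈ rough D R, (∏ l, h (r l)) * F r a)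
    fun r hr => ?_)
  · rw [← sum_product']
    refine le_trans (le_of_eq ?_) (sum_le_sum_of_subset_of_nonneg
      (s := S.image fun s => (Function.update s i 1, s i)) (fun x hx => ?_)
      fun x _ _ => mul_nonneg (prod_nonneg fun l _ => h0 _) (hF0 _ _))
    · rw [sum_image]
      · refine sum_congr rfl fun s _ => ?_
        dsimp only
        congr 1
        rw [← mul_prod_erase univ _ (mem_univ i), Function.update_self, h1, one_mul]
        exact prod_congr rfl fun l hl => by rw [Function.update_of_ne (mem_erase.1 hl).1]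
      · intro s _ s' _ e
        rw [Prod.mk.injEq] at e
        funext l
        rcases eq_or_ne l i with rfl | hl
        · exact e.2
        · simpa [Function.update_of_ne hl] using congrFun e.1 l
    · obtain ⟨s, hs, rfl⟩ := mem_image.1 hx
      refine mem_product.2 ⟨(mem_boxAt hR).2 ⟨fun l => ?_, Function.update_self ..⟩,
        mem_box.1 (hS hs) i⟩
      dsimp only
      rcases eq_or_ne l i with rfl | hl
      · rw [Function.update_self]
        exact one_mem_rough hR
      · rw [Function.update_of_ne hl]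
        exact mem_box.1 (hS hs) l
  · rw [← mul_sum, mul_comm W]
    exact mul_le_mul_of_nonneg_left (hW r hr) (prod_nonneg fun l _ => h0 _)

/-- **The mean of `1[p ∣ L i] f²`.** -/
theorem avgAll_hit_sq_le (hk : AdmissibleTuple k D) (hD : 5 ≤ D) (hR : 1 ≤ R) {p : ℕ}
    (hp : p ∈ midPrimes D R) (i : Fin k) {g : ℕ → ℝ} (hg : ∀ a, 0 ≤ g a ∧ g a ≤ 1)
    (hg1 : g 1 = 1) (hmono : ∀ a, 1 ≤ a → g (p * a) ≤ g a) {n : ℕ} {t : ℕ → ℝ}
    (hjump : ∀ a : ℕ, 1 ≤ a → g a - g (p * a) ≤ ∑ l ∈ range n,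
      if t l - Real.log p < Real.log a ∧ Real.log a ≤ t l then 1 else 0) :
    avgAll D R (fun c => hit D p i c * sieveSum D R g k c ^ 2) ≤
      2 / p * (((n : ℝ) + 1) *
          (Real.exp (4 * k / D) * (density D * Real.log p + windowConst D)) *
          (∑ a ∈ rough D R, g a ^ 2 * (cw (4 * k) a / a)) ^ (k - 1) +
        (k : ℝ) ^ 2 / ((p : ℝ) - 1) ^ 2 *
          (∑ a ∈ rough D R, g a ^ 2 * (cw (4 * k) a / a)) ^ k) := by
  classical
  have hpp := prime_of_mid p hp
  have hp1 : (1 : ℝ) < p := by exact_mod_cast hpp.one_lt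
  have hlp : 0 ≤ Real.log p := Real.log_natCast_nonneg p
  obtain ⟨h, hh⟩ : ∃ h : ℕ → ℝ, h = fun a => g a ^ 2 * (cw (4 * k) a / a) := ⟨_, rfl⟩
  obtain ⟨c₀, hc₀⟩ : ∃ c₀ : ℕ → ℝ, c₀ = fun a => cw (4 * k) a / a := ⟨_, rfl⟩
  have hc0 : ∀ a, 0 ≤ c₀ a := fun a => hc₀ ▸
    div_nonneg (zero_le_one.trans (one_le_cw (by positivity) a)) (Nat.cast_nonneg a)
  have hhc : ∀ a, h a = g a ^ 2 * c₀ a := fun a => by rw [hh, hc₀]
  have hh0 : ∀ a, 0 ≤ h a := fun a => hhc a ▸ mul_nonneg (sq_nonneg _) (hc0 a)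
  have hh1 : h 1 = 1 := by simp [hh, hg1, cw]
  have hhle : ∀ a, h a ≤ c₀ a := fun a => hhc a ▸
    mul_le_of_le_one_left (hc0 a) (pow_le_one₀ (hg a).1 (hg a).2)
  obtain ⟨W, hW⟩ : ∃ W, W = Real.exp (4 * k / D) * (density D * Real.log p + windowConst D) :=
    ⟨_, rfl⟩
  obtain ⟨S, hS⟩ : ∃ S, S = (supp k D R).filter fun r => lab r p = none := ⟨_, rfl⟩
  have hSbox : S ⊆ box k D R := hS ▸ (filter_subset _ _).trans (filter_subset _ _)
  obtain ⟨v, hv⟩ : ∃ v, v = hitCoef (k := k) R g p i := ⟨_, rfl⟩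
  obtain ⟨L, hL⟩ : ∃ L : (Fin k → ℕ) → (Fin k → ℕ) → ℝ,
      L = fun r r' => avgAll D R fun c => tupleX D R r c * tupleX D R r' c := ⟨_, rfl⟩
  obtain ⟨B, hB⟩ : ∃ B : (Fin k → ℕ) → ℝ, B = fun r => ∏ q ∈ midPrimes D R,
      (if lab r q = none then 1 else ((q : ℝ) - 1) + ((k : ℝ) - 1)) := ⟨_, rfl⟩
  have e : avgAll D R (fun c => hit D p i c * sieveSum D R g k c ^ 2) =
      (p : ℝ)⁻¹ * ∑ r ∈ S, ∑ r' ∈ S, v r * v r' * L r r' := by
    have hpoint : ∀ c, hit D p i c * sieveSum D R g k c ^ 2 =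
        ∑ r ∈ S, ∑ r' ∈ S, v r * v r' * (hit D p i c * (tupleX D R r c * tupleX D R r' c)) := by
      intro c
      have h1 := sieveSum_hit hk hp i g c
      rw [← hS, ← hv] at h1
      rw [sq, ← mul_assoc, h1, mul_assoc, mul_comm (∑ s ∈ S, v s * _), ← mul_assoc, h1,
        mul_assoc, sum_mul_sum, mul_sum]
      refine sum_congr rfl fun r _ => ?_
      rw [mul_sum]
      exact sum_congr rfl fun r' _ => by ring
    rw [mul_sum]
    simp only [avgAll, hpoint]
    rw [sum_comm, sum_div]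
    refine sum_congr rfl fun r hr => ?_
    rw [sum_comm, sum_div, mul_sum]
    refine sum_congr rfl fun r' hr' => ?_
    rw [← mul_sum, mul_div_assoc]
    rw [hS, mem_filter] at hr hr'
    have h2 := avgAll_hit_mul hk hp i hr.2 hr'.2
    simp only [avgAll] at h2
    rw [h2, hL]
    simp only [avgAll]
    ring
  rw [e, show (2 : ℝ) / p = (p : ℝ)⁻¹ * 2 by ring, mul_assoc]
  refine mul_le_mul_of_nonneg_left ?_ (by positivity)
  refine (quadratic_le S v L B (fun r r' => ?_) fun r hr => ?_).trans ?_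
  · simp only [hL, mul_comm (tupleX D R r _)]
  · simp only [hL, hB, avgAll_mul, abs_prod]
    refine (sum_supp_lab_le (G := fun q o => |momXX D q (lab r q) o|)
      (fun q _ o => abs_nonneg _) (hS ▸ filter_subset _ _)).trans (le_of_eq ?_)
    exact prod_congr rfl fun q hq => sum_abs_momXX (goodPrime hk hq) _
  -- the coefficients
  obtain ⟨P, hP⟩ : ∃ P : (Fin k → ℕ) → ℕ, P = fun s => ∏ l ∈ univ.erase i, s l := ⟨_, rfl⟩
  obtain ⟨F, hF⟩ : ∃ F : (Fin k → ℕ) → ℕ → ℝ, F = fun s (a : ℕ) =>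
      (∑ l ∈ range n, if t l - Real.log p < Real.log a ∧ Real.log a ≤ t l then c₀ a else 0) +
        if Real.log R - Real.log (P s : ℕ) - Real.log p < Real.log a ∧
          Real.log a ≤ Real.log R - Real.log (P s : ℕ) then c₀ a else 0 := ⟨_, rfl⟩
  have hF0 : ∀ s a, 0 ≤ F s a := fun s a => by
    rw [hF]
    exact add_nonneg (sum_nonneg fun l _ => by split_ifs <;> simp [hc0])
      (by split_ifs <;> simp [hc0])
  have hterm : ∀ s ∈ S, v s ^ 2 * B s ≤
      2 * ((∏ l ∈ univ.erase i, h (s l)) * F (Function.update s i 1) (s i)) +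
      2 * ((k : ℝ) ^ 2 / ((p : ℝ) - 1) ^ 2 * ∏ l, h (s l)) := by
    intro s hs
    obtain ⟨hs, hlab⟩ := mem_filter.1 (hS ▸ hs)
    obtain ⟨hmem, -, hprod⟩ := mem_supp.1 hs
    have hs1 : ∀ l, 1 ≤ s l := fun l => (mem_rough.1 (hmem l)).1.1
    obtain ⟨ψ, hψ⟩ : ∃ ψ : ℝ, ψ = ((∏ l, s l).totient : ℝ) := ⟨_, rfl⟩
    have hψ0 : 0 < ψ := hψ ▸ Nat.cast_pos.2 (Nat.totient_pos.2 (prod_pos_of_supp hs))
    have hw : ∀ j, tupleW g (mulAt p j s) =
        g (p * s j) * (∏ l ∈ univ.erase j, g (s l)) / (((p : ℝ) - 1) * ψ) := fun j => by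
      rw [tupleW, prod_mulAt, Nat.totient_mul (coprime_prod_of_lab_none hpp hlab),
        Nat.totient_prime hpp, Nat.cast_mul, Nat.cast_sub hpp.one_lt.le, Nat.cast_one, ← hψ,
        ← mul_prod_erase univ _ (mem_univ j), mulAt, Function.update_self]
      congr 2
      exact prod_congr rfl fun l hl => by rw [Function.update_of_ne (mem_erase.1 hl).1]
    obtain ⟨b, hb⟩ : ∃ b : ℝ, b = if p * ∏ l, s l ≤ R then 1 else 0 := ⟨_, rfl⟩
    have hb01 : 0 ≤ b ∧ b ≤ 1 := by rw [hb]; split_ifs <;> norm_num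
    obtain ⟨E, hE⟩ : ∃ E : ℝ,
        E = (g (s i) - b * g (p * s i)) * ∏ l ∈ univ.erase i, g (s l) := ⟨_, rfl⟩
    obtain ⟨O, hO⟩ : ∃ O : ℝ,
        O = b * ∑ j ∈ univ.erase i, g (p * s j) * ∏ l ∈ univ.erase j, g (s l) := ⟨_, rfl⟩
    have hveq : v s = (E + O / ((p : ℝ) - 1)) / ψ := by
      have hp0 : (p : ℝ) - 1 ≠ 0 := by linarith
      rw [hv, hitCoef, ← add_sum_erase univ _ (mem_univ i)]
      simp only [hw, if_true]
      rw [sum_congr rfl (g := fun j => b * (g (p * s j) * (∏ l ∈ univ.erase j, g (s l)) /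
        (((p : ℝ) - 1) * ψ))) fun j hj => by
          rw [if_neg (mem_erase.1 hj).1, mul_one, hb]
          split_ifs <;> ring]
      rw [← mul_sum, ← sum_div, hE, hO, tupleW, ← hψ, ← mul_prod_erase univ _ (mem_univ i), hb]
      split_ifs
      · field_simp
        ring
      · simp
    have hG0 : ∀ T : Finset (Fin k), 0 ≤ ∏ l ∈ T, g (s l) :=
      fun T => prod_nonneg fun l _ => (hg _).1
    have hO2 : O ^ 2 ≤ (k : ℝ) ^ 2 * (∏ l, g (s l)) ^ 2 := by
      rw [← mul_pow]
      refine pow_le_pow_left₀ (hO ▸ mul_nonneg hb01.1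
        (sum_nonneg fun j _ => mul_nonneg (hg _).1 (hG0 _))) ?_ 2
      rw [hO]
      refine (mul_le_of_le_one_left (sum_nonneg fun j _ => mul_nonneg (hg _).1 (hG0 _))
        hb01.2).trans ((sum_le_card_nsmul _ _ (∏ l, g (s l)) fun j _ => ?_).trans ?_)
      · rw [← mul_prod_erase univ _ (mem_univ j)]
        exact mul_le_mul_of_nonneg_right (hmono _ (hs1 j)) (hG0 _)
      · rw [nsmul_eq_mul]
        refine mul_le_mul_of_nonneg_right (Nat.cast_le.2 ?_) (hG0 _)
        exact (card_le_univ _).trans (Fintype.card_fin k).le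
    have hEsq : E ^ 2 * ∏ l, c₀ (s l) ≤
        (∏ l ∈ univ.erase i, h (s l)) * F (Function.update s i 1) (s i) := by
      have hsplit : E ^ 2 * ∏ l, c₀ (s l) =
          (∏ l ∈ univ.erase i, h (s l)) * ((g (s i) - b * g (p * s i)) ^ 2 * c₀ (s i)) := by
        rw [hE, ← mul_prod_erase univ _ (mem_univ i)]
        simp only [hhc, prod_mul_distrib, prod_pow]
        ring
      rw [hsplit]
      refine mul_le_mul_of_nonneg_left ?_ (prod_nonneg fun l _ => hh0 _)
      have hPs : P (Function.update s i 1) = P s := by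
        simp only [hP]
        exact prod_congr rfl fun l hl => by rw [Function.update_of_ne (mem_erase.1 hl).1]
      simp only [hF, hPs]
      by_cases hle : p * ∏ l, s l ≤ R
      · refine le_add_of_le_of_nonneg ?_ (by split_ifs <;> simp [hc0])
        rw [hb, if_pos hle, one_mul]
        have hd0 : 0 ≤ g (s i) - g (p * s i) := by linarith [hmono _ (hs1 i)]
        have hd1 : g (s i) - g (p * s i) ≤ 1 := by linarith [(hg (s i)).2, (hg (p * s i)).1]
        refine (mul_le_mul_of_nonneg_right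
          (((sq (g (s i) - g (p * s i))).trans_le (mul_le_of_le_one_left hd0 hd1)).trans
            (hjump _ (hs1 i))) (hc0 _)).trans ?_
        rw [sum_mul]
        refine le_of_eq (sum_congr rfl fun l _ => ?_)
        split_ifs <;> simp
      · refine le_add_of_nonneg_of_le (sum_nonneg fun l _ => by split_ifs <;> simp [hc0]) ?_
        rw [hb, if_neg hle, zero_mul, sub_zero, if_pos, ← hhc]
        · exact hhle _
        · have hPpos : 0 < P s := hP ▸ prod_pos fun l _ => hs1 l
          have hmul : ∏ l, s l = s i * P s := by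
            rw [hP]
            exact (mul_prod_erase univ s (mem_univ i)).symm
          rw [hmul] at hle hprod
          push Not at hle
          have hlogm : Real.log ((s i * P s : ℕ) : ℝ) = Real.log (s i) + Real.log (P s) := by
            push_cast
            exact Real.log_mul (Nat.cast_ne_zero.2 (Nat.one_le_iff_ne_zero.1 (hs1 i)))
              (Nat.cast_ne_zero.2 hPpos.ne')
          have hup : Real.log ((s i * P s : ℕ) : ℝ) ≤ Real.log R :=
            Real.log_le_log (Nat.cast_pos.2 (Nat.mul_pos (hs1 i) hPpos)) (Nat.cast_le.2 hprod)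
          have hlo : Real.log R < Real.log p + Real.log ((s i * P s : ℕ) : ℝ) := by
            rw [← Real.log_mul (by linarith) (Nat.cast_ne_zero.2
              (Nat.mul_pos (hs1 i) hPpos).ne'), ← Nat.cast_mul]
            exact Real.log_lt_log (Nat.cast_pos.2 hR) (Nat.cast_lt.2 hle)
          exact ⟨by linarith, by linarith⟩
    have hrow : B s / ψ ^ 2 ≤ ∏ l, c₀ (s l) := by
      rw [hB, hψ, hc₀]
      exact rowBound_div_le hD hs
    have hB0 : 0 ≤ B s := hB ▸ prod_nonneg fun q hq => by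
      split_ifs with hn
      · exact zero_le_one
      · have := three_le_of_mid hD hq
        linarith [(Nat.cast_nonneg k : (0 : ℝ) ≤ k)]
    calc v s ^ 2 * B s = (E + O / ((p : ℝ) - 1)) ^ 2 * (B s / ψ ^ 2) := by
          rw [hveq, div_pow]
          ring
      _ ≤ (2 * E ^ 2 + 2 * ((k : ℝ) ^ 2 * (∏ l, g (s l)) ^ 2 / ((p : ℝ) - 1) ^ 2)) *
            ∏ l, c₀ (s l) := by
          refine mul_le_mul ?_ hrow (div_nonneg hB0 (sq_nonneg _))
            (by positivity)
          have := div_le_div_of_nonneg_right hO2 (sq_nonneg ((p : ℝ) - 1))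
          rw [← div_pow] at this
          nlinarith [sq_nonneg (E - O / ((p : ℝ) - 1))]
      _ = 2 * (E ^ 2 * ∏ l, c₀ (s l)) +
            2 * ((k : ℝ) ^ 2 / ((p : ℝ) - 1) ^ 2 * ∏ l, h (s l)) := by
          simp only [hhc, prod_mul_distrib, prod_pow]
          ring
      _ ≤ _ := by linarith
  refine (sum_le_sum hterm).trans ?_
  rw [sum_add_distrib, ← mul_sum, ← mul_sum, ← mul_sum, mul_add, ← hW, ← hh]
  refine add_le_add (mul_le_mul_of_nonneg_left ?_ two_pos.le)
    (mul_le_mul_of_nonneg_left (mul_le_mul_of_nonneg_left ?_ (by positivity)) two_pos.le)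
  · refine sum_split_le hR i hh0 hh1 hF0 (fun r _ => ?_) hSbox
    simp only [hF, sum_add_distrib]
    rw [sum_comm, add_mul, one_mul, hW, hc₀]
    refine add_le_add ((sum_le_card_nsmul _ _
      (Real.exp (4 * k / D) * (density D * Real.log p + windowConst D))
      fun l _ => ?_).trans (le_of_eq ?_)) ?_
    · exact sum_rough_cw_window_le (by omega) hlp (by positivity)
    · rw [card_range, nsmul_eq_mul]
    · exact sum_rough_cw_window_le (by omega) hlp (by positivity)
  · rw [← sum_box_prod]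
    exact sum_le_sum_of_subset_of_nonneg hSbox fun r _ _ => prod_nonneg fun l _ => hh0 _

end FA.BoundedGaps
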