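import Fermat.Agent.BoundedGaps.Rough
import Mathlib.Data.ZMod.Basic
import Mathlib.Data.Nat.ModEq

/-!
# Residues modulo a product of primes

Sums of products of periodic functions factor over the primes, and the local values of the
functions `1 - p 1[p ∣ L i]` and `1 - (p - 1) 1[p ∣ L i]` for the forms `L i c = W c + b i`, the
shifts `b i` being given by an instance of `Shifts`.
-/

set_option autoImplicit false
set_option linter.unusedSectionVars false

noncomputable section

namespace FA.BoundedGaps

open Finset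
open scoped Nat

theorem sum_range_mul_coprime {a b : ℕ} (h : a.Coprime b) (ha : a ≠ 0) (hb : b ≠ 0)
    (F G : ℕ → ℝ) :
    ∑ c ∈ range (a * b), F (c % a) * G (c % b) =
      (∑ x ∈ range a, F x) * ∑ y ∈ range b, G y := by
  rw [sum_mul_sum, ← sum_product']
  refine sum_nbij' (fun c => (c % a, c % b))
    (fun x => (Nat.chineseRemainder h x.1 x.2 : ℕ)) ?_ ?_ ?_ ?_ ?_
  · intro c _
    rw [mem_product, mem_range, mem_range]
    exact ⟨Nat.mod_lt _ (Nat.pos_of_ne_zero ha), Nat.mod_lt _ (Nat.pos_of_ne_zero hb)⟩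
  · intro x _
    rw [mem_range]
    exact Nat.chineseRemainder_lt_mul h x.1 x.2 ha hb
  · intro c hc
    rw [mem_range] at hc
    have h2 := (Nat.chineseRemainder h (c % a) (c % b)).2
    have h3 := (Nat.modEq_and_modEq_iff_modEq_mul h).1
      ⟨h2.1.trans (Nat.mod_modEq c a), h2.2.trans (Nat.mod_modEq c b)⟩
    exact h3.eq_of_lt_of_lt (Nat.chineseRemainder_lt_mul h _ _ ha hb) hc
  · intro x hx
    rw [mem_product, mem_range, mem_range] at hx
    have h2 := (Nat.chineseRemainder h x.1 x.2).2
    refine Prod.ext ?_ ?_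
    · exact Eq.trans h2.1 (Nat.mod_eq_of_lt hx.1)
    · exact Eq.trans h2.2 (Nat.mod_eq_of_lt hx.2)
  · intro c _
    rfl

/-- **Factorisation over the primes.** -/
theorem sum_range_prod {P : Finset ℕ} (hP : ∀ p ∈ P, p.Prime) (F : ℕ → ℕ → ℝ)
    (hper : ∀ p ∈ P, ∀ c, F p (c % p) = F p c) :
    ∑ c ∈ range (∏ p ∈ P, p), ∏ p ∈ P, F p c = ∏ p ∈ P, ∑ c ∈ range p, F p c := by
  induction P using Finset.induction_on with
  | empty => simp
  | insert q P hq ih =>
    have hP' : ∀ p ∈ P, p.Prime := fun p hp => hP p (mem_insert_of_mem hp)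
    have hcop : q.Coprime (∏ p ∈ P, p) := Nat.Coprime.prod_right fun p hp =>
      (Nat.coprime_primes (hP q (mem_insert_self q P)) (hP' p hp)).2 fun h => hq (h ▸ hp)
    rw [prod_insert hq, prod_insert hq, ← ih hP' fun p hp => hper p (mem_insert_of_mem hp),
      ← sum_range_mul_coprime hcop (hP q (mem_insert_self q P)).ne_zero
        (prod_ne_zero_iff.2 fun p hp => (hP' p hp).ne_zero) (F q) fun c => ∏ p ∈ P, F p c]
    refine sum_congr rfl fun c _ => ?_
    rw [prod_insert hq, hper q (mem_insert_self q P)]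
    congr 1
    refine prod_congr rfl fun p hp => ?_
    rw [← hper p (mem_insert_of_mem hp) c, ← hper p (mem_insert_of_mem hp) (c % ∏ p ∈ P, p),
      Nat.mod_mod_of_dvd _ (dvd_prod_of_mem (fun p => p) hp)]

/-- The constant terms of the forms. -/
class Shifts where
  /-- The constant term of the `i`-th form. -/
  shift : ℕ → ℕ

export Shifts (shift)

variable [Shifts]

/-- The value of the `i`-th form. -/
def form (D i c : ℕ) : ℕ := D ! * c + shift i

/-- The indicator of `p ∣ L i c`. -/
def hit (D p i c : ℕ) : ℝ := if p ∣ form D i c then 1 else 0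

theorem form_mod (D p i c : ℕ) : form D i (c % p) ≡ form D i c [MOD p] :=
  ((Nat.mod_modEq c p).mul_left _).add_right _

theorem hit_mod (D p i c : ℕ) : hit D p i (c % p) = hit D p i c := by
  have h := (form_mod D p i c).dvd_iff (dvd_refl p)
  simp only [hit, h]

/-- An admissible tuple of `k ≤ D` forms: the constant terms are positive and prime to `D!`, and no
two are congruent to a prime beyond `D`. -/
structure AdmissibleTuple (k D : ℕ) : Prop where
  le : k ≤ D
  pos : ∀ i : Fin k, 0 < shift i
  coprime : ∀ i : Fin k, (shift i).Coprime D !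
  not_congr : ∀ i j : Fin k, i ≠ j → ∀ p : ℕ, p.Prime → D < p → ¬ shift i ≡ shift j [MOD p]

theorem form_pos {k D : ℕ} (h : AdmissibleTuple k D) (i : Fin k) (c : ℕ) : 0 < form D i c :=
  Nat.lt_of_lt_of_le (h.pos i) (Nat.le_add_left _ _)

theorem form_coprime {k D : ℕ} (h : AdmissibleTuple k D) (i : Fin k) (c : ℕ) :
    (form D i c).Coprime D ! := by
  rw [form, Nat.coprime_mul_left_add_left]
  exact h.coprime i

omit [Shifts] in
/-- The shifts of the progression `1 mod D!`. -/
theorem admissibleTuple_consecutive {k D : ℕ} (hk : k ≤ D) :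
    @AdmissibleTuple ⟨fun i => D ! * i + 1⟩ k D := by
  refine @AdmissibleTuple.mk ⟨fun i => D ! * i + 1⟩ k D hk (fun i => Nat.succ_pos _) (fun i => ?_)
    fun i j hij p hp hDp h => hij (Fin.ext ?_)
  · show (D ! * i + 1).Coprime D !
    rw [Nat.coprime_mul_left_add_left]
    exact Nat.coprime_one_left _
  · have hco : p.gcd (D !) = 1 :=
      hp.coprime_iff_not_dvd.2 fun h => absurd (hp.dvd_factorial.1 h) (not_le.2 hDp)
    have h2 : (i : ℕ) ≡ (j : ℕ) [MOD p] :=
      Nat.ModEq.cancel_left_of_coprime hco (Nat.ModEq.add_right_cancel' 1 h)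
    exact h2.eq_of_lt_of_lt (by omega) (by omega)

/-- A prime beyond `D`, and an admissible tuple. -/
structure GoodPrime (k D p : ℕ) : Prop where
  prime : p.Prime
  gt : D < p
  tuple : AdmissibleTuple k D

variable {k D p : ℕ}

theorem exists_root (hp : GoodPrime k D p) (i : ℕ) :
    ∃! c, c ∈ range p ∧ p ∣ form D i c := by
  have : Fact p.Prime := ⟨hp.prime⟩
  have hW : ((D ! : ℕ) : ZMod p) ≠ 0 := by
    rw [Ne, ZMod.natCast_eq_zero_iff, hp.prime.dvd_factorial]
    exact not_le.2 hp.gt
  have key : ∀ c : ℕ,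
      p ∣ form D i c ↔ (c : ZMod p) = -((D ! : ℕ) : ZMod p)⁻¹ * (shift i : ℕ) := by
    intro c
    rw [← ZMod.natCast_eq_zero_iff, form]
    push_cast
    constructor
    · intro h
      field_simp
      linear_combination h
    · intro h
      rw [h]
      field_simp
      ring
  refine ⟨(-((D ! : ℕ) : ZMod p)⁻¹ * (shift i : ℕ)).val,
    ⟨mem_range.2 (ZMod.val_lt _), (key _).2 (ZMod.natCast_zmod_val _)⟩, ?_⟩
  rintro c ⟨hc, hdiv⟩
  rw [← (key c).1 hdiv, ZMod.val_natCast, Nat.mod_eq_of_lt (mem_range.1 hc)]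

theorem not_two_hits (hp : GoodPrime k D p) {i j : Fin k} (hij : i ≠ j) {c : ℕ}
    (h1 : p ∣ form D i c) : ¬ p ∣ form D j c := by
  intro h2
  refine hp.tuple.not_congr i j hij p hp.prime hp.gt (Nat.ModEq.add_left_cancel' (D ! * c) ?_)
  exact (Nat.modEq_zero_iff_dvd.2 h1).trans (Nat.modEq_zero_iff_dvd.2 h2).symm

theorem sum_hit (hp : GoodPrime k D p) (i : ℕ) : ∑ c ∈ range p, hit D p i c = 1 := by
  obtain ⟨c₀, ⟨hc₀, hd⟩, huniq⟩ := exists_root hp i
  rw [sum_eq_single c₀]
  · rw [hit, if_pos hd]
  · intro c hc hne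
    rw [hit, if_neg fun h => hne (huniq c ⟨hc, h⟩)]
  · exact fun h => absurd hc₀ h

theorem hit_mul_hit (hp : GoodPrime k D p) (i j : Fin k) (c : ℕ) :
    hit D p i c * hit D p j c = if i = j then hit D p i c else 0 := by
  split_ifs with h
  · subst h
    rw [hit]
    split_ifs <;> simp
  · rw [hit, hit]
    split_ifs with h1 h2
    · exact absurd h2 (not_two_hits hp h h1)
    all_goals simp

/-- `1 - p 1[p ∣ L i]`. -/
def basicX (D p : ℕ) : Option (Fin k) → ℕ → ℝ
  | none, _ => 1
  | some i, c => 1 - p * hit D p i c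

/-- `1 - (p - 1) 1[p ∣ L i]`. -/
def basicZ (D p : ℕ) : Option (Fin k) → ℕ → ℝ
  | none, _ => 1
  | some i, c => 1 - ((p : ℝ) - 1) * hit D p i c

/-- The residues where `p ∤ L m`. -/
def away (D p : ℕ) (m : Fin k) (c : ℕ) : ℝ := 1 - hit D p m c

theorem basicX_mod (D p : ℕ) (o : Option (Fin k)) (c : ℕ) :
    basicX D p o (c % p) = basicX D p o c := by
  cases o <;> simp [basicX, hit_mod]

theorem basicZ_mod (D p : ℕ) (o : Option (Fin k)) (c : ℕ) :
    basicZ D p o (c % p) = basicZ D p o c := by
  cases o <;> simp [basicZ, hit_mod]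

theorem away_mod (D p : ℕ) (m : Fin k) (c : ℕ) : away D p m (c % p) = away D p m c := by
  simp [away, hit_mod]

theorem sum_affine_mul (hp : GoodPrime k D p) (i j : Fin k) (a b a' b' : ℝ) :
    ∑ c ∈ range p, (a + b * hit D p i c) * (a' + b' * hit D p j c) =
      p * (a * a') + a * b' + a' * b + (if i = j then b * b' else 0) := by
  have e : ∀ c, (a + b * hit D p i c) * (a' + b' * hit D p j c) =
      a * a' + a * b' * hit D p j c + a' * b * hit D p i c +
        b * b' * (hit D p i c * hit D p j c) := fun c => by ring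
  simp only [e, hit_mul_hit hp, sum_add_distrib, ← mul_sum, sum_hit hp, sum_const, card_range,
    nsmul_eq_mul, mul_one]
  split_ifs
  · rw [sum_hit hp]
    ring
  · simp only [sum_const_zero]
    ring

theorem sum_away_affine_mul (hp : GoodPrime k D p) {m i j : Fin k} (hi : i ≠ m) (hj : j ≠ m)
    (a b a' b' : ℝ) :
    ∑ c ∈ range p, away D p m c * ((a + b * hit D p i c) * (a' + b' * hit D p j c)) =
      ((p : ℝ) - 1) * (a * a') + a * b' + a' * b + (if i = j then b * b' else 0) := by
  have e : ∀ c, away D p m c * ((a + b * hit D p i c) * (a' + b' * hit D p j c)) =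
      (a + b * hit D p i c) * (a' + b' * hit D p j c) -
        (a * a' * hit D p m c + a * b' * (hit D p m c * hit D p j c) +
          a' * b * (hit D p m c * hit D p i c) +
          b * b' * (hit D p m c * hit D p i c) * hit D p j c) := fun c => by
    rw [away]
    ring
  simp only [e, sum_sub_distrib, sum_affine_mul hp, hit_mul_hit hp, if_neg hi.symm, if_neg hj.symm,
    mul_zero, zero_mul, add_zero, ← mul_sum, sum_hit hp, mul_one]
  ring

theorem sum_away (hp : GoodPrime k D p) (m : Fin k) :
    ∑ c ∈ range p, away D p m c = (p : ℝ) - 1 := by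
  simp [away, sum_sub_distrib, sum_hit hp]

/-- The local second moments of `basicX`. -/
theorem sum_XX (hp : GoodPrime k D p) :
    ∑ c ∈ range p, basicX D p (none : Option (Fin k)) c * basicX D p (none : Option (Fin k)) c = p ∧
    (∀ i : Fin k, ∑ c ∈ range p, basicX D p (none : Option (Fin k)) c * basicX D p (some i) c = 0) ∧
    (∀ i : Fin k, ∑ c ∈ range p, basicX D p (some i) c * basicX D p (none : Option (Fin k)) c = 0) ∧
    ∀ i j : Fin k, ∑ c ∈ range p, basicX D p (some i) c * basicX D p (some j) c =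
      if i = j then (p : ℝ) * ((p : ℝ) - 1) else -(p : ℝ) := by
  refine ⟨by simp [basicX], fun i => ?_, fun i => ?_, fun i j => ?_⟩
  · simp [basicX, sum_sub_distrib, ← mul_sum, sum_hit hp]
  · simp [basicX, sum_sub_distrib, ← mul_sum, sum_hit hp]
  · simp only [basicX, sub_eq_add_neg, ← neg_mul]
    rw [sum_affine_mul hp]
    split_ifs <;> ring

/-- The local moments of `basicX` against `basicZ` away from `m`. -/
theorem sum_XZ (hp : GoodPrime k D p) (m : Fin k) :
    ∑ c ∈ range p, away D p m c *
      (basicX D p (none : Option (Fin k)) c * basicZ D p (none : Option (Fin k)) c) = p - 1 ∧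
    (∀ i : Fin k, i ≠ m →
      ∑ c ∈ range p, away D p m c *
        (basicX D p (none : Option (Fin k)) c * basicZ D p (some i) c) = 0) ∧
    (∀ i : Fin k, i ≠ m →
      ∑ c ∈ range p, away D p m c *
        (basicX D p (some i) c * basicZ D p (none : Option (Fin k)) c) = -1) ∧
    ∀ i j : Fin k, i ≠ m → j ≠ m →
      ∑ c ∈ range p, away D p m c * (basicX D p (some i) c * basicZ D p (some j) c) =
        if i = j then (p : ℝ) * ((p : ℝ) - 2) else -(p : ℝ) := by
  refine ⟨by simp [basicX, basicZ, sum_away hp], fun i hi => ?_, fun i hi => ?_,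
    fun i j hi hj => ?_⟩
  · have := sum_away_affine_mul hp hi hi 1 0 1 (-((p : ℝ) - 1))
    simp only [if_true, zero_mul, add_zero, one_mul, mul_one, mul_zero] at this
    simp only [basicX, basicZ, one_mul, sub_eq_add_neg, ← neg_mul] at *
    rw [this]
    ring
  · have := sum_away_affine_mul hp hi hi 1 (-(p : ℝ)) 1 0
    simp only [if_true, zero_mul, add_zero, one_mul, mul_one, mul_zero] at this
    simp only [basicX, basicZ, mul_one, sub_eq_add_neg, ← neg_mul] at *
    rw [this]
    ring
  · simp only [basicX, basicZ, sub_eq_add_neg, ← neg_mul]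
    rw [sum_away_affine_mul hp hi hj]
    split_ifs <;> ring

/-- The local second moments of `basicZ` away from `m`. -/
theorem sum_ZZ (hp : GoodPrime k D p) (m : Fin k) :
    ∑ c ∈ range p, away D p m c *
      (basicZ D p (none : Option (Fin k)) c * basicZ D p (none : Option (Fin k)) c) = p - 1 ∧
    (∀ i : Fin k, i ≠ m →
      ∑ c ∈ range p, away D p m c *
        (basicZ D p (none : Option (Fin k)) c * basicZ D p (some i) c) = 0) ∧
    (∀ i : Fin k, i ≠ m →
      ∑ c ∈ range p, away D p m c *
        (basicZ D p (some i) c * basicZ D p (none : Option (Fin k)) c) = 0) ∧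
    ∀ i j : Fin k, i ≠ m → j ≠ m →
      ∑ c ∈ range p, away D p m c * (basicZ D p (some i) c * basicZ D p (some j) c) =
        if i = j then ((p : ℝ) - 1) * ((p : ℝ) - 2) else -((p : ℝ) - 1) := by
  refine ⟨by simp [basicZ, sum_away hp], fun i hi => ?_, fun i hi => ?_, fun i j hi hj => ?_⟩
  · have := sum_away_affine_mul hp hi hi 1 0 1 (-((p : ℝ) - 1))
    simp only [if_true, zero_mul, add_zero, one_mul, mul_one, mul_zero] at this
    simp only [basicZ, one_mul, sub_eq_add_neg, ← neg_mul] at *
    rw [this]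
    ring
  · have := sum_away_affine_mul hp hi hi 1 (-((p : ℝ) - 1)) 1 0
    simp only [if_true, zero_mul, add_zero, one_mul, mul_one, mul_zero] at this
    simp only [basicZ, mul_one, sub_eq_add_neg, ← neg_mul] at *
    rw [this]
    ring
  · simp only [basicZ, sub_eq_add_neg, ← neg_mul]
    rw [sum_away_affine_mul hp hi hj]
    split_ifs <;> ring

end FA.BoundedGaps
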