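import Fermat.Agent.BoundedGaps.PrimeSum
import Mathlib.Analysis.SpecialFunctions.Pow.Asymptotics

/-!
# The error terms for large `N`, with `R = N ^ (1 / 20)`
-/

set_option autoImplicit false
set_option linter.unusedSectionVars false

noncomputable section

namespace FA.BoundedGaps

open Finset Filter
open scoped Nat Topology

variable [Shifts]

/-- `⌊N ^ (1 / 20)⌋`. -/
def level (N : ℕ) : ℕ := ⌊(N : ℝ) ^ ((1 : ℝ) / 20)⌋₊

theorem level_pow_le (N : ℕ) : ((level N : ℕ) : ℝ) ^ 20 ≤ N := by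
  refine (pow_le_pow_left₀ (Nat.cast_nonneg _) (Nat.floor_le (by positivity)) 20).trans
    (le_of_eq ?_)
  rw [← Real.rpow_natCast, ← Real.rpow_mul (Nat.cast_nonneg N)]
  norm_num

theorem eventually_log_pow_le (c : ℝ) (n : ℕ) :
    ∀ᶠ N : ℕ in atTop, c * Real.log N ^ n ≤ N := by
  have h := ((Real.isLittleO_pow_log_id_atTop (n := n)).def
    (show (0 : ℝ) < (|c| + 1)⁻¹ by positivity))
  filter_upwards [tendsto_natCast_atTop_atTop.eventually h] with N hN
  rw [Real.norm_eq_abs, id, Real.norm_natCast, ← div_eq_inv_mul, le_div_iff₀ (by positivity)] at hN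
  refine le_trans ?_ hN
  refine (le_abs_self _).trans ?_
  rw [abs_mul, mul_comm]
  exact mul_le_mul_of_nonneg_left (by linarith) (abs_nonneg _)

theorem eventually_log_ge (c : ℝ) : ∀ᶠ N : ℕ in atTop, c ≤ Real.log N :=
  (Real.tendsto_log_atTop.comp tendsto_natCast_atTop_atTop).eventually_ge_atTop c

theorem sq_mul_le_of_pow_four {a u : ℝ} {N : ℝ} (hN : 0 ≤ N) (h1 : a ^ 4 ≤ N) (h2 : u ^ 4 ≤ N) :
    (a * u) ^ 2 ≤ N := by
  refine le_of_pow_le_pow_left₀ two_ne_zero hN ?_
  rw [← pow_mul, mul_pow, sq N]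
  exact mul_le_mul h1 h2 ((even_two_mul 2).pow_nonneg _) hN

/-- **The errors are negligible.** -/
theorem eventually_sums {k D : ℕ} (hk : AdmissibleTuple k D) (hD : 5 ≤ D) :
    ∀ᶠ N : ℕ in atTop,
      (1 ≤ level N ∧ Real.log (3 * (D ! : ℕ) * N) ≤ 21 * Real.log (level N)) ∧
      ∀ g : ℕ → ℝ, (∀ a, |g a| ≤ 1) →
        ∑ j ∈ Ioc N (2 * N), sieveSum D (level N) g k j ^ 2 ≤
            N * avgAll D (level N) (fun c => sieveSum D (level N) g k c ^ 2) + N ∧
        ∀ m : Fin k, (D ! : ℕ) * N / ((D !).totient : ℕ) *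
            avgAway D (level N) m (fun c => sieveSum D (level N) g k c ^ 2) - N ≤
          ∑ j ∈ Ioc N (2 * N), primeWeight D m j * sieveSum D (level N) g k j ^ 2 := by
  obtain ⟨J, hJ⟩ : ∃ J : ℕ, J = 2 ^ (4 * k + 5) := ⟨_, rfl⟩
  obtain ⟨A, hA⟩ : ∃ A : ℕ, A = 4 * k + J + 2 := ⟨_, rfl⟩
  obtain ⟨B, C, hC, hBV⟩ := BombieriVinogradov.Summary.bombieri_vinogradov_theta A
  obtain ⟨W, hW⟩ : ∃ W : ℝ, W = (D ! : ℕ) := ⟨_, rfl⟩
  obtain ⟨c₁, hc₁⟩ : ∃ c₁ : ℝ, c₁ = 3 * (2 + W) := ⟨_, rfl⟩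
  obtain ⟨P, hP⟩ : ∃ P : ℝ, P = 2 ^ (D !).primeFactors.card := ⟨_, rfl⟩
  obtain ⟨K, hK⟩ : ∃ K : ℝ, K = c₁ ^ (4 * k) * (4 + 2 * P) * (3 * W) * 2 ^ J *
      (2 * C * (3 * W) * 2 ^ A) := ⟨_, rfl⟩
  have hW1 : 1 ≤ W := hW ▸ Nat.one_le_cast.2 (Nat.factorial_pos D)
  filter_upwards [eventually_log_ge (20 * (Real.log (3 * W) + 21) + 2 * K),
    eventually_log_pow_le ((W * 2 ^ B) ^ 4) (4 * B),
    eventually_log_pow_le ((2 ^ k * (2 * c₁) ^ k) ^ 4) (4 * k),
    eventually_ge_atTop (3 + k),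
    eventually_ge_atTop ((univ : Finset (Fin k)).sup fun i => shift i)] with N hlogN hBN hkN hN hsh
  obtain ⟨L, hL⟩ : ∃ L : ℝ, L = Real.log (3 * W * N) := ⟨_, rfl⟩
  have hN0 : (0 : ℝ) < N := Nat.cast_pos.2 (by omega)
  have hN1 : (1 : ℝ) ≤ N := Nat.one_le_cast.2 (by omega)
  have hW3 : 0 ≤ Real.log (3 * W) := Real.log_nonneg (by linarith)
  have hK0 : 0 ≤ K := by rw [hK, hc₁, hP]; positivity
  have hLN : L = Real.log (3 * W) + Real.log N := by
    rw [hL, Real.log_mul (by positivity) hN0.ne']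
  have hL2 : L ≤ 2 * Real.log N := by linarith
  have hL1 : 1 ≤ L := by linarith
  obtain ⟨R, hR⟩ : ∃ R, R = level N := ⟨_, rfl⟩
  rw [← hR]
  have hR20 : (R : ℝ) ^ 20 ≤ N := hR ▸ level_pow_le N
  have hR1 : 1 ≤ R := hR ▸ Nat.le_floor (by
    rw [Nat.cast_one]; exact Real.one_le_rpow hN1 (by norm_num))
  have hRr : (1 : ℝ) ≤ R := Nat.one_le_cast.2 hR1
  have hRpow : ∀ n, n ≤ 20 → (R : ℝ) ^ n ≤ N := fun n hn =>
    (pow_le_pow_right₀ hRr hn).trans hR20
  have hRN : R ≤ N := (Nat.cast_le (α := ℝ)).1 (by simpa using hRpow 1 (by norm_num))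
  have hR2N : R ^ 2 ≤ N := (Nat.cast_le (α := ℝ)).1 (by push_cast; exact hRpow 2 (by norm_num))
  have hlogR : Real.log R ≤ L := (Real.log_le_log (by linarith) (Nat.cast_le.2 hRN)).trans
    (by linarith)
  have hlogR' : L ≤ 21 * Real.log R := by
    have h1 := Nat.lt_floor_add_one ((N : ℝ) ^ ((1 : ℝ) / 20))
    rw [← level, ← hR] at h1
    have h2 := Real.log_le_log (by positivity)
      (show (N : ℝ) ^ ((1 : ℝ) / 20) ≤ 2 * R by linarith)
    rw [Real.log_rpow hN0, Real.log_mul two_ne_zero (by linarith)] at h2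
    linarith [Real.log_two_lt_d9]
  have hB : coeffBound k D R ≤ (c₁ * L) ^ k := by
    refine pow_le_pow_left₀ (sum_nonneg fun a _ => by positivity) ?_ k
    refine (sum_le_sum (g := fun a : ℕ => if Real.log a ≤ Real.log R then cw 2 a / a else 0)
      fun a ha => ?_).trans ((sum_rough_cw_le (by omega) (Real.log_natCast_nonneg R)
        zero_le_two).trans ?_)
    · rw [if_pos (Real.log_le_log (Nat.cast_pos.2 (mem_rough.1 ha).1.1)
        (Nat.cast_le.2 (mem_rough.1 ha).1.2))]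
      exact inv_totient_le_cw (by omega) ha
    · rw [← hW]
      have he : Real.exp (2 / (D : ℝ)) ≤ 3 := by
        refine (Real.exp_le_exp.2 ?_).trans (by linarith [Real.exp_one_lt_d9] : Real.exp 1 ≤ 3)
        rw [div_le_one (Nat.cast_pos.2 (by omega))]
        exact_mod_cast (show 2 ≤ D by omega)
      refine (mul_le_mul he ?_ ?_ (by norm_num)).trans
        (le_of_eq (hc₁ ▸ mul_assoc (3 : ℝ) (2 + W) L).symm)
      · have := mul_le_mul (density_le_one D) (show 1 + Real.log R ≤ 2 * L by linarith)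
          (by linarith [Real.log_natCast_nonneg R]) zero_le_one
        have := mul_le_mul_of_nonneg_left hL1 (show (0 : ℝ) ≤ W by linarith)
        linarith
      · exact add_nonneg (mul_nonneg (density_pos D).le
          (by linarith [Real.log_natCast_nonneg R])) (by linarith)
  have hc₁0 : 0 ≤ c₁ := by rw [hc₁]; linarith
  refine ⟨⟨hR1, by rw [← hW, ← hL]; exact hlogR'⟩, fun g hg => ⟨?_, fun m => ?_⟩⟩
  · refine (sum_sq_le hg N).trans (add_le_add le_rfl ?_)
    refine sq_mul_le_of_pow_four hN0.le (by rw [← pow_mul]; exact hRpow 12 (by norm_num)) ?_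
    refine le_trans (pow_le_pow_left₀ (mul_nonneg (by positivity) coeffBound_nonneg)
      (mul_le_mul_of_nonneg_left (hB.trans (pow_le_pow_left₀ (mul_nonneg hc₁0 (by linarith))
        (show c₁ * L ≤ 2 * c₁ * Real.log N by
          have := mul_le_mul_of_nonneg_left hL2 hc₁0
          linarith) k)) (by positivity)) 4) ?_
    refine le_trans (le_of_eq ?_) hkN
    rw [mul_pow (2 * c₁)]
    ring
  · obtain ⟨E, hE1, hE2⟩ := exists_sum_prime_sq_ge hk m hg hRN
      ((Nat.mul_le_mul_left _ hR2N).trans (by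
        rw [form]
        exact Nat.le_add_right _ _))
    refine le_trans (sub_le_sub_left ?_ _) hE1
    obtain ⟨x, hx⟩ : ∃ x, x = form D m (2 * N) := ⟨_, rfl⟩
    have hxN : N ≤ x := by
      rw [hx, form]
      have := Nat.le_mul_of_pos_left (2 * N) (Nat.factorial_pos D)
      omega
    have hxW : (x : ℝ) ≤ 3 * W * N := by
      rw [hx, form, hW]
      exact_mod_cast (show D ! * (2 * N) + shift m ≤ 3 * D ! * N by
        have h1 : shift m ≤ D ! * N := ((le_sup (f := fun i : Fin k => shift i) (mem_univ m)).trans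
          hsh).trans (Nat.le_mul_of_pos_left N (Nat.factorial_pos D))
        rw [mul_assoc 3, mul_left_comm _ 2]
        omega)
    have hxp : (0 : ℝ) < x := Nat.cast_pos.2 (by omega)
    obtain ⟨l, hl⟩ : ∃ l, l = Real.log (x : ℝ) := ⟨_, rfl⟩
    have hl1 : Real.log N ≤ l := hl ▸ Real.log_le_log hN0 (Nat.cast_le.2 hxN)
    have hl2 : l ≤ L := by rw [hl, hL]; exact Real.log_le_log hxp hxW
    have hl0 : 0 < l := by linarith
    have hQ : ((D ! * R ^ 2 : ℕ) : ℝ) ≤ Real.sqrt x / Real.log x ^ B := by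
      rw [← hl, le_div_iff₀ (pow_pos hl0 B)]
      refine Real.le_sqrt_of_sq_le (le_trans ?_ (Nat.cast_le.2 hxN))
      push_cast
      rw [← hW, mul_comm W, mul_assoc]
      refine sq_mul_le_of_pow_four hN0.le (by rw [← pow_mul]; exact hRpow 8 (by norm_num)) ?_
      refine le_trans (pow_le_pow_left₀ (by positivity) (mul_le_mul_of_nonneg_left
        (pow_le_pow_left₀ hl0.le (hl2.trans hL2) B) (by linarith)) 4) (le_trans (le_of_eq ?_) hBN)
      rw [mul_pow (2 : ℝ)]
      ring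
    have hBV' : ∀ y ≤ x, ∑ t ∈ Icc 1 (D ! * R ^ 2), apErr y t ≤ C * (x / l ^ A) := fun y hy => by
      rw [hl]
      exact hBV x (by omega) _ hQ (fun _ => y) (fun t => (exists_worst y t).choose)
        fun t _ => ⟨hy, (exists_worst y t).choose_spec.1⟩
    have hNx : form D m N ≤ x :=
      hx ▸ Nat.add_le_add_right (Nat.mul_le_mul_left _ (by omega)) _
    rw [← hx] at hE2
    have hsum : ∑ t ∈ Icc 1 (D ! * R ^ 2), apErr (form D m N) t +
        ∑ t ∈ Icc 1 (D ! * R ^ 2), apErr x t ≤ 2 * C * (3 * W * N) * 2 ^ A / L ^ A := by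
      refine (add_le_add (hBV' _ hNx) (hBV' _ le_rfl)).trans (le_trans (le_of_eq ?_)
        (mul_le_mul_of_nonneg_left (div_le_div₀ (by positivity) hxW
          (pow_pos (half_pos (zero_lt_one.trans_le hL1)) A)
          (pow_le_pow_left₀ (by linarith) (show L / 2 ≤ l by linarith) A))
          (by positivity : 0 ≤ 2 * C)) |>.trans (le_of_eq ?_))
      · ring
      · rw [div_pow]
        field_simp
    have hH : ∑ a ∈ Icc 1 (R ^ 2), ((a : ℕ) : ℝ)⁻¹ ≤ 2 * L := by
      have h := harmonic_le_one_add_log (R ^ 2)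
      rw [harmonic_eq_sum_Icc] at h
      push_cast at h
      have := Real.log_le_log (by positivity) (show (R : ℝ) ^ 2 ≤ N from hRpow 2 (by norm_num))
      linarith
    refine le_of_pow_le_pow_left₀ two_ne_zero hN0.le (hE2.trans ?_)
    refine (mul_le_mul (mul_le_mul (pow_le_pow_left₀ coeffBound_nonneg hB 4)
      (mul_le_mul (mul_le_mul (show 4 * Real.log (x : ℝ) + 2 * (2 : ℝ) ^ (D !).primeFactors.card ≤
        (4 + 2 * P) * L by
          rw [← hl, ← hP]
          have := le_mul_of_one_le_right (show 0 ≤ 2 * P by rw [hP]; positivity) hL1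
          linarith) hxW hxp.le (by rw [hP]; positivity))
        (pow_le_pow_left₀ (sum_nonneg fun a _ => by positivity) hH _) (by positivity)
        (by rw [hP]; positivity)) ?_ (by positivity)) hsum
      (add_nonneg (sum_nonneg fun t _ => apErr_nonneg _ _) (sum_nonneg fun t _ => apErr_nonneg _ _))
      (by rw [hP]; positivity)).trans ?_
    · have := Real.log_natCast_nonneg x
      positivity
    rw [← hJ]
    refine le_trans (le_of_eq (?_ : _ = K * N ^ 2 / L)) ?_
    · have e : L ^ A = L ^ (4 * k) * L ^ J * L * L := by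
        rw [hA, pow_add, pow_add, sq]
        ring
      rw [e, hK, mul_pow (2 : ℝ) L, ← pow_mul, mul_comm k 4, mul_pow]
      have : L ≠ 0 := by linarith
      field_simp
    · rw [div_le_iff₀ (by linarith), mul_comm]
      exact mul_le_mul_of_nonneg_left (by linarith) (sq_nonneg _)

end FA.BoundedGaps
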