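import Fermat.Agent.BoundedGaps.Choice
import Fermat.Agent.BoundedGaps.Threshold

/-!
# Many primes in bounded intervals

With `k = 2 ^ L` forms the ratio of the two sums grows like `L`, so for `L` large some `j` has more
than `m₀` of the forms prime.
-/

set_option autoImplicit false
set_option linter.unusedSectionVars false

noncomputable section

namespace FA.BoundedGaps

open Finset Filter
open scoped Nat Topology

/-- The lower bound for `lowBound`, divided by `X ^ k`. -/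
def lowConst (k : ℕ) (G I Mom T K ε : ℝ) : ℝ :=
  (1 - ε) * G *
      (((1 - ε) * I) ^ (k - 1) - ((k : ℝ) - 1) * (1 + ε) * Mom * ((1 + ε) * I) ^ (k - 2) / T -
        ε * (k : ℝ) ^ 2 * ((1 + ε) * K) ^ (k - 1)) -
    2 * ((1 + ε) * K) * ((1 + ε) * ((1 + ε) * K) ^ (k - 1) - ((1 - ε) * K) ^ (k - 1))

/-- The main term of the bracket in `lowBound`. -/
def bracketConst (k : ℕ) (I Mom T K ε : ℝ) : ℝ :=
  ((1 - ε) * I) ^ (k - 1) - ((k : ℝ) - 1) * (1 + ε) * Mom * ((1 + ε) * I) ^ (k - 2) / T -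
    ε * (k : ℝ) ^ 2 * ((1 + ε) * K) ^ (k - 1)

theorem eventually_eps (k : ℕ) (G I Mom T K c : ℝ) (h1 : 0 < bracketConst k I Mom T K 0)
    (h2 : 0 < lowConst k G I Mom T K 0)
    (h3 : c * I ^ k * I ^ (k - 1) < lowConst k G I Mom T K 0 ^ 2) :
    ∃ ε : ℝ, 0 < ε ∧ ε ≤ 1 / 2 ∧ 0 ≤ bracketConst k I Mom T K ε ∧
      0 ≤ lowConst k G I Mom T K ε ∧
      c * ((1 + ε) * I) ^ k * ((1 + ε) * I) ^ (k - 1) < lowConst k G I Mom T K ε ^ 2 := by
  have hb : Continuous (bracketConst k I Mom T K) := by unfold bracketConst; fun_prop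
  have hl : Continuous (lowConst k G I Mom T K) := by unfold lowConst; fun_prop
  have hf : Continuous fun ε : ℝ => c * ((1 + ε) * I) ^ k * ((1 + ε) * I) ^ (k - 1) := by fun_prop
  have e1 := continuousAt_const.eventually_lt (hb.continuousAt (x := 0)) h1
  have e2 := continuousAt_const.eventually_lt (hl.continuousAt (x := 0)) h2
  have e3 := (hf.continuousAt (x := 0)).eventually_lt ((hl.pow 2).continuousAt (x := 0))
    (by simpa using h3)
  have e4 : ∀ᶠ ε in 𝓝 (0 : ℝ), ε ≤ 1 / 2 := eventually_le_nhds (by norm_num)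
  obtain ⟨ε, hε0, ha, hb', hc, hd⟩ := ((eventually_mem_nhdsWithin (a := (0 : ℝ))
    (s := Set.Ioi 0)).and
      ((e4.and (e1.and (e2.and e3))).filter_mono nhdsWithin_le_nhds)).exists
  exact ⟨ε, hε0, ha, hb'.le, hc.le, hd⟩

/-- The numerical choice. -/
theorem exists_params (m₀ : ℕ) :
    ∃ (k L : ℕ) (ε : ℝ), k = 2 ^ L ∧ 2 ≤ k ∧ 0 < ε ∧ ε ≤ 1 / 2 ∧
      0 ≤ bracketConst k (stepInt (1 / 4) 2 L) (stepInt (1 / 4) 4 L) (2 * k * (L + 1))
        (4 * k * (L + 1)) ε ∧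
      0 ≤ lowConst k (stepInt (1 / 2) 2 L) (stepInt (1 / 4) 2 L) (stepInt (1 / 4) 4 L)
        (2 * k * (L + 1)) (4 * k * (L + 1)) ε ∧
      21 * m₀ * (4 * (k : ℝ) * (L + 1)) / k * ((1 + ε) * stepInt (1 / 4) 2 L) ^ k *
          ((1 + ε) * stepInt (1 / 4) 2 L) ^ (k - 1) <
        lowConst k (stepInt (1 / 2) 2 L) (stepInt (1 / 4) 2 L) (stepInt (1 / 4) 4 L)
          (2 * k * (L + 1)) (4 * k * (L + 1)) ε ^ 2 := by
  obtain ⟨L, hL⟩ : ∃ L, L = 2112 * m₀ + 1 := ⟨_, rfl⟩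
  obtain ⟨k, hk⟩ : ∃ k, k = 2 ^ L := ⟨_, rfl⟩
  have hk2 : 2 ≤ k := hk ▸ (Nat.le_self_pow (by omega) 2)
  have hkr : (2 : ℝ) ≤ k := by exact_mod_cast hk2
  obtain ⟨I, hI⟩ : ∃ I, I = stepInt (1 / 4) 2 L := ⟨_, rfl⟩
  obtain ⟨G, hG⟩ : ∃ G, G = stepInt (1 / 2) 2 L := ⟨_, rfl⟩
  obtain ⟨M, hM⟩ : ∃ M, M = stepInt (1 / 4) 4 L := ⟨_, rfl⟩
  have hI1 : 1 ≤ I := hI ▸ (stepInt_quarter_two L).1
  have hI2 : I ≤ 3 / 2 := hI ▸ (stepInt_quarter_two L).2
  rw [stepInt_half] at hG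
  rw [stepInt_quarter_four] at hM
  have hLr : (0 : ℝ) ≤ L := Nat.cast_nonneg L
  obtain ⟨b, hb⟩ : ∃ b, b = bracketConst k I M (2 * k * (L + 1)) (4 * k * (L + 1)) 0 := ⟨_, rfl⟩
  have hhalf : ((k : ℝ) - 1) * M * I ^ (k - 2) / (2 * k * (L + 1)) ≤ I ^ (k - 1) / 2 := by
    rw [show k - 1 = (k - 2) + 1 by omega, pow_succ, div_le_div_iff₀ (by positivity) two_pos]
    have h1 : ((k : ℝ) - 1) * M ≤ k * (L + 1) * I := by
      refine le_trans (mul_le_mul (by linarith : (k : ℝ) - 1 ≤ k) (by linarith : M ≤ (L : ℝ) + 1)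
        (by linarith) (by linarith)) (le_mul_of_one_le_right (by positivity) hI1)
    have := mul_le_mul_of_nonneg_right h1 (pow_nonneg (by linarith : 0 ≤ I) (k - 2))
    linarith
  have hb2 : I ^ (k - 1) / 2 ≤ b := by
    have e : b = I ^ (k - 1) - ((k : ℝ) - 1) * M * I ^ (k - 2) / (2 * k * (L + 1)) := by
      rw [hb, bracketConst]
      ring
    linarith
  have hlow0 : lowConst k G I M (2 * k * (L + 1)) (4 * k * (L + 1)) 0 = G * b := by
    rw [hb, lowConst, bracketConst]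
    ring
  have hb0 : 0 < b := (div_pos (pow_pos (by linarith) _) two_pos).trans_le hb2
  have hG0 : 0 < G := by linarith
  obtain ⟨ε, h0, h1, h2, h3, h4⟩ := eventually_eps k G I M (2 * k * (L + 1)) (4 * k * (L + 1))
    (21 * m₀ * (4 * (k : ℝ) * (L + 1)) / k) (hb ▸ hb0) (by rw [hlow0]; positivity) (by
      rw [hlow0, mul_pow]
      have hsq : I ^ (k - 1) * I ^ (k - 1) / 4 ≤ b ^ 2 := by
        have := mul_le_mul hb2 hb2 (by positivity) hb0.le
        linarith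
      refine lt_of_lt_of_le ?_ (mul_le_mul_of_nonneg_left hsq (sq_nonneg G))
      have hIk : I ^ k = I * I ^ (k - 1) := by
        rw [← pow_succ', show k - 1 + 1 = k by omega]
      rw [show 21 * (m₀ : ℝ) * (4 * (k : ℝ) * (L + 1)) / k = 84 * m₀ * (L + 1) by
        field_simp; ring, hIk]
      refine lt_of_eq_of_lt (show _ = 84 * m₀ * (L + 1) * I * (I ^ (k - 1) * I ^ (k - 1)) by ring)
        (lt_of_lt_of_eq (mul_lt_mul_of_pos_right
          (show 84 * (m₀ : ℝ) * (L + 1) * I < G ^ 2 / 4 from ?_)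
          (mul_pos (pow_pos (by linarith) _) (pow_pos (by linarith) _))) (by ring))
      have hLm : (2112 : ℝ) * m₀ + 1 = L := by rw [hL]; push_cast; ring
      refine lt_of_le_of_lt (mul_le_mul_of_nonneg_left hI2 (by positivity)) ?_
      rw [hG]
      nlinarith)
  exact ⟨k, L, ε, hk, hk2, h0, h1, hI ▸ (stepInt_quarter_four L) ▸ hM ▸ h2,
    hI ▸ (stepInt_quarter_four L) ▸ (stepInt_half L) ▸ hM ▸ hG ▸ h3,
    hI ▸ (stepInt_quarter_four L) ▸ (stepInt_half L) ▸ hM ▸ hG ▸ h4⟩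

variable [Shifts]

/-- **The mean away from `m` for the step weight.** -/
theorem avgAway_ge {k L D R : ℕ} {ε ℓ : ℝ} (hk : k = 2 ^ L) (hk2 : 2 ≤ k)
    (hkD : AdmissibleTuple k D)
    (h : LargeScale (4 * k) D ε ℓ) (hℓ : 0 < ℓ) (hR : 1 ≤ R)
    (hK : Real.log R = 4 * k * (L + 1) * ℓ) (hε : ε ≤ 1 / 2)
    (hb : 0 ≤ bracketConst k (stepInt (1 / 4) 2 L) (stepInt (1 / 4) 4 L) (2 * k * (L + 1))
      (4 * k * (L + 1)) ε)
    (hl : 0 ≤ lowConst k (stepInt (1 / 2) 2 L) (stepInt (1 / 4) 2 L) (stepInt (1 / 4) 4 L)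
      (2 * k * (L + 1)) (4 * k * (L + 1)) ε) (m : Fin k) :
    (density D * ℓ) ^ (k + 1) *
        lowConst k (stepInt (1 / 2) 2 L) (stepInt (1 / 4) 2 L) (stepInt (1 / 4) 4 L)
          (2 * k * (L + 1)) (4 * k * (L + 1)) ε ^ 2 /
          ((1 + ε) * stepInt (1 / 4) 2 L) ^ (k - 1) ≤
      avgAway D R m (fun c => sieveSum D R (stepFun (1 / 2) L ℓ) k c ^ 2) := by
  obtain ⟨g, hg⟩ : ∃ g, g = stepFun (1 / 2) L ℓ := ⟨_, rfl⟩
  obtain ⟨I, hI⟩ : ∃ I, I = stepInt (1 / 4) 2 L := ⟨_, rfl⟩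
  obtain ⟨G, hG⟩ : ∃ G, G = stepInt (1 / 2) 2 L := ⟨_, rfl⟩
  obtain ⟨M, hM⟩ : ∃ M, M = stepInt (1 / 4) 4 L := ⟨_, rfl⟩
  obtain ⟨K, hKdef⟩ : ∃ K : ℝ, K = 4 * k * (L + 1) := ⟨_, rfl⟩
  obtain ⟨T, hT⟩ : ∃ T : ℝ, T = 2 * k * (L + 1) := ⟨_, rfl⟩
  obtain ⟨X, hX⟩ : ∃ X, X = density D * ℓ := ⟨_, rfl⟩
  rw [← hI, ← hG, ← hM, ← hKdef, ← hT] at hl ⊢
  rw [← hI, ← hM, ← hKdef, ← hT] at hb
  rw [← hKdef] at hK
  rw [← hg, ← hX]
  have hkr : (2 : ℝ) ≤ k := by exact_mod_cast hk2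
  have hL1 : (1 : ℝ) ≤ (L : ℝ) + 1 := le_add_of_nonneg_left (Nat.cast_nonneg L)
  have hX0 : 0 < X := hX ▸ mul_pos (density_pos D) hℓ
  have hT0 : 0 < T := hT ▸ mul_pos (by linarith) (by linarith)
  have hKT : (k : ℝ) + T ≤ K := by
    rw [hT, hKdef]
    have := mul_le_mul_of_nonneg_left hL1 (show (0 : ℝ) ≤ k by linarith)
    linarith
  have hkK : (k : ℝ) ≤ K := by linarith
  have hℓR : ℓ ≤ Real.log R := hK ▸ le_mul_of_one_le_left hℓ.le (by linarith)
  have hexpR : Real.exp (2 ^ L * ℓ) ≤ R := by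
    rw [← Real.le_log_iff_exp_le (Nat.cast_pos.2 hR), hK]
    refine mul_le_mul_of_nonneg_right (le_trans (le_of_eq ?_) hkK) hℓ.le
    rw [hk]
    norm_num
  have hsq : ∀ a, g a ^ 2 = stepFun (1 / 4) L ℓ a := fun a => by
    rw [hg, stepFun_sq hℓ.le]
    norm_num
  have hq0 : (0 : ℝ) ≤ 1 / 4 := by norm_num
  have hq1 : (1 / 4 : ℝ) ≤ 1 := by norm_num
  have hGc : oneSum D R (fun a => g a ^ 2 * (cw (4 * k) a / a)) ≤ (1 + ε) * I * X := by
    simp only [hsq]
    refine (h.step_upper (by positivity) hq0 hq1 L).trans (le_of_eq ?_)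
    rw [hI, hX]
    ring
  have hG2 : (1 - ε) * I * X ≤ oneSum D R (fun a => g a ^ 2 / a) := by
    simp only [hsq]
    refine (le_of_eq ?_).trans (h.step_lower hq0 hq1 L hexpR)
    rw [hI, hX]
    ring
  have hG2' : oneSum D R (fun a => g a ^ 2 / a) ≤ (1 + ε) * I * X := by
    refine le_trans (sum_le_sum fun a _ => ?_) hGc
    rw [← mul_div_assoc]
    exact div_le_div_of_nonneg_right
      (le_mul_of_one_le_right (sq_nonneg _) (one_le_cw (by positivity) a)) (Nat.cast_nonneg a)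
  have hMg : oneSum D R (fun a => Real.log a * (g a ^ 2 / a)) ≤ (1 + ε) * M * X * ℓ := by
    simp only [hsq]
    refine (h.step_log_upper (by positivity) hq0 hq1 L).trans (le_of_eq ?_)
    rw [hM, hX]
    ring
  have hG1 : (1 - ε) * G * X ≤ oneSum D R (fun a => g a / a) := by
    rw [hg]
    refine (le_of_eq ?_).trans (h.step_lower (by norm_num) (by norm_num) L hexpR)
    rw [hG, hX]
    ring
  have hAc : oneSum D R (fun a => cw (4 * k) a / a) ≤ (1 + ε) * K * X := by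
    refine (h.all_upper (by positivity) hℓR).trans (le_of_eq ?_)
    rw [hK, hX]
    ring
  have hA1 : (1 - ε) * K * X ≤ oneSum D R (fun a => (a : ℝ)⁻¹) := by
    refine (le_of_eq ?_).trans (h.all_lower hR hℓR)
    rw [hK, hX]
    ring
  have hA1' : oneSum D R (fun a => (a : ℝ)⁻¹) ≤ (1 + ε) * K * X := by
    refine le_trans (sum_le_sum fun a _ => ?_) hAc
    rw [← one_div]
    exact div_le_div_of_nonneg_right (one_le_cw (by positivity) a) (Nat.cast_nonneg a)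
  have hexc : excess k D R ≤ 1 + ε := by
    refine (excess_le h.five_le (by omega)).trans (h.exp_le.trans ?_)
    linarith [h.eps_pos]
  have hgmem : ∀ a, 0 ≤ g a ∧ g a ≤ 1 := fun a =>
    hg ▸ stepFun_mem (by norm_num) (by norm_num) hℓ.le a
  have hk1 : (0 : ℝ) ≤ (k : ℝ) - 1 := by linarith
  have hDinv : (k : ℝ) ^ 2 / D ≤ ε * (k : ℝ) ^ 2 := by
    rw [div_eq_inv_mul]
    exact mul_le_mul_of_nonneg_right (h.inv_le.trans (by linarith [h.eps_pos])) (sq_nonneg _)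
  have hlow : lowConst k G I M T K ε * X ^ k ≤ lowBound k D R g (T * ℓ) := by
    rw [lowBound]
    obtain ⟨n, hn⟩ : ∃ n, k = n + 2 := ⟨k - 2, by omega⟩
    have e1 : X ^ k = X * X ^ (k - 1) := by
      rw [← pow_succ', show k - 1 + 1 = k by omega]
    have e2 : X ^ (k - 1) = X * X ^ (k - 2) := by
      rw [← pow_succ', show k - 2 + 1 = k - 1 by omega]
    have hε0 := h.eps_pos
    have hXn : ∀ n, 0 ≤ X ^ n := fun n => pow_nonneg hX0.le n
    have hI0 : 0 ≤ I := zero_le_one.trans (hI ▸ (stepInt_quarter_two L).1)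
    have hK0 : 0 ≤ K := by linarith
    have hbr : bracketConst k I M T K ε * X ^ (k - 1) ≤
        oneSum D R (fun a => g a ^ 2 / a) ^ (k - 1) -
          ((k : ℝ) - 1) * oneSum D R (fun a => Real.log a * (g a ^ 2 / a)) *
            oneSum D R (fun a => g a ^ 2 / a) ^ (k - 2) / (T * ℓ) -
          (k : ℝ) ^ 2 / D * oneSum D R (fun a => (a : ℝ)⁻¹) ^ (k - 1) := by
      have b1 := pow_le_pow_left₀ (mul_nonneg (mul_nonneg (by linarith) hI0) hX0.le) hG2 (k - 1)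
      have b2 : ((k : ℝ) - 1) * oneSum D R (fun a => Real.log a * (g a ^ 2 / a)) *
            oneSum D R (fun a => g a ^ 2 / a) ^ (k - 2) / (T * ℓ) ≤
          ((k : ℝ) - 1) * ((1 + ε) * M * X * ℓ) * ((1 + ε) * I * X) ^ (k - 2) / (T * ℓ) := by
        refine div_le_div_of_nonneg_right (mul_le_mul (mul_le_mul_of_nonneg_left hMg hk1)
          (pow_le_pow_left₀ (sum_nonneg fun a _ => div_nonneg (sq_nonneg _) (Nat.cast_nonneg a))
            hG2' _) (pow_nonneg (sum_nonneg fun a _ =>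
              div_nonneg (sq_nonneg _) (Nat.cast_nonneg a)) _) ?_) (mul_pos hT0 hℓ).le
        refine mul_nonneg hk1 (le_trans ?_ hMg)
        exact sum_nonneg fun a _ => mul_nonneg (Real.log_natCast_nonneg a)
          (div_nonneg (sq_nonneg _) (Nat.cast_nonneg a))
      have b3 : (k : ℝ) ^ 2 / D * oneSum D R (fun a => (a : ℝ)⁻¹) ^ (k - 1) ≤
          ε * (k : ℝ) ^ 2 * ((1 + ε) * K * X) ^ (k - 1) :=
        mul_le_mul hDinv (pow_le_pow_left₀ (sum_nonneg fun a _ => by positivity) hA1' _)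
          (pow_nonneg (sum_nonneg fun a _ => by positivity) _) (by positivity)
      rw [bracketConst]
      refine le_trans (le_of_eq ?_) (sub_le_sub (sub_le_sub b1 b2) b3)
      rw [mul_pow ((1 - ε) * I), mul_pow ((1 + ε) * K), mul_pow ((1 + ε) * I), e2]
      field_simp
    have hE : excess k D R * oneSum D R (fun a => cw (4 * k) a / a) ^ (k - 1) -
        oneSum D R (fun a => (a : ℝ)⁻¹) ^ (k - 1) ≤
        ((1 + ε) * ((1 + ε) * K) ^ (k - 1) - ((1 - ε) * K) ^ (k - 1)) * X ^ (k - 1) := by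
      rw [sub_mul, mul_assoc (1 + ε), ← mul_pow, ← mul_pow]
      refine sub_le_sub (mul_le_mul hexc (pow_le_pow_left₀ (sum_nonneg fun a _ => div_nonneg
        (zero_le_one.trans (one_le_cw (by positivity) a)) (Nat.cast_nonneg a)) hAc _)
        (pow_nonneg (sum_nonneg fun a _ => div_nonneg
          (zero_le_one.trans (one_le_cw (by positivity) a)) (Nat.cast_nonneg a)) _) (by linarith))
        (pow_le_pow_left₀ (mul_nonneg (mul_nonneg (by linarith) hK0) hX0.le) hA1 _)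
    have hE0 : 0 ≤ excess k D R * oneSum D R (fun a => cw (4 * k) a / a) ^ (k - 1) -
        oneSum D R (fun a => (a : ℝ)⁻¹) ^ (k - 1) := by
      refine sub_nonneg.2 ((pow_le_pow_left₀ (sum_nonneg fun a _ => by positivity)
        (sum_le_sum fun a _ => ?_) _).trans
          (le_mul_of_one_le_left (pow_nonneg (sum_nonneg fun a _ => div_nonneg
            (zero_le_one.trans (one_le_cw (by positivity) a)) (Nat.cast_nonneg a)) _)
            (one_le_excess (by omega))))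
      rw [← one_div]
      exact div_le_div_of_nonneg_right (one_le_cw (by positivity) a) (Nat.cast_nonneg a)
    have t1 := mul_le_mul hG1 hbr (mul_nonneg hb (hXn _))
      (sum_nonneg fun a _ => div_nonneg (hgmem a).1 (Nat.cast_nonneg a))
    have t2 := mul_le_mul (mul_le_mul_of_nonneg_left hAc two_pos.le) hE hE0
      (mul_nonneg two_pos.le (mul_nonneg (mul_nonneg (by linarith) hK0) hX0.le))
    refine le_trans (le_of_eq ?_) (sub_le_sub t1 t2)
    rw [lowConst, bracketConst, e1]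
    ring
  have hlow0 : 0 ≤ lowBound k D R g (T * ℓ) :=
    (mul_nonneg hl (pow_nonneg hX0.le k)).trans hlow
  have hmain := lowBound_sq_le hkD h.five_le m hgmem (hg ▸ stepFun_one hℓ.le) hR
    (mul_pos hT0 hℓ) (hK ▸ mul_le_mul_of_nonneg_right (by linarith) hℓ.le) (fun a _ ha => by
      have ha2 : Real.log a ≤ 2 ^ L * ℓ := by
        by_contra hn
        exact ha (hg ▸ stepFun_eq_zero hℓ.le hn)
      have hkc : (2 : ℝ) ^ L = k := by rw [hk]; norm_num
      rw [hkc] at ha2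
      rw [hK]
      have := mul_le_mul_of_nonneg_right hKT hℓ.le
      linarith) hlow0
  have hden : 0 < ((1 + ε) * I) ^ (k - 1) := pow_pos (mul_pos (by linarith [h.eps_pos])
    (zero_lt_one.trans_le (hI ▸ (stepInt_quarter_two L).1))) _
  have havg : 0 ≤ avgAway D R m (fun c => sieveSum D R g k c ^ 2) :=
    div_nonneg (sum_nonneg fun c _ => mul_nonneg (awayAll_nonneg m c) (sq_nonneg _))
      prod_sub_one_pos.le
  have h5 := (pow_le_pow_left₀ (mul_nonneg hl (pow_nonneg hX0.le k)) hlow 2).trans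
    (hmain.trans (mul_le_mul_of_nonneg_left (pow_le_pow_left₀ (sum_nonneg fun a _ =>
      mul_nonneg (sq_nonneg _) (div_nonneg (zero_le_one.trans (one_le_cw (by positivity) a))
        (Nat.cast_nonneg a))) hGc _) havg))
  rw [div_le_iff₀ hden]
  refine le_of_mul_le_mul_right ?_ (pow_pos hX0 (k - 1))
  refine le_trans (le_of_eq ?_) (h5.trans (le_of_eq ?_))
  · rw [mul_right_comm, ← pow_add, show k + 1 + (k - 1) = k + k by omega]
    ring
  · rw [mul_pow]
    ring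

omit [Shifts] in
/-- **More than `m₀` forms are prime**, for every admissible tuple of `k` of them. -/
theorem exists_prime_forms (m₀ : ℕ) : ∃ k D₀ : ℕ, 0 < k ∧ ∀ D, D₀ ≤ D → ∀ [Shifts],
    AdmissibleTuple k D → ∀ N₀ : ℕ, ∃ j, N₀ ≤ j ∧
      m₀ < (univ.filter fun m : Fin k => (form D m j).Prime).card := by
  obtain ⟨k, L, ε, hk, hk2, hε0, hε, hb, hl, hgap⟩ := exists_params m₀
  obtain ⟨Φ, hΦ⟩ : ∃ Φ, Φ = lowConst k (stepInt (1 / 2) 2 L) (stepInt (1 / 4) 2 L)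
    (stepInt (1 / 4) 4 L) (2 * k * (L + 1)) (4 * k * (L + 1)) ε := ⟨_, rfl⟩
  obtain ⟨P, hP⟩ : ∃ P, P = (1 + ε) * stepInt (1 / 4) 2 L := ⟨_, rfl⟩
  rw [← hΦ, ← hP] at hgap
  have hP0 : 0 < P := hP ▸ mul_pos (by linarith) (zero_lt_one.trans_le (stepInt_quarter_two L).1)
  have hkr : (2 : ℝ) ≤ k := by exact_mod_cast hk2
  obtain ⟨K, hK⟩ : ∃ K : ℝ, K = 4 * k * (L + 1) := ⟨_, rfl⟩
  rw [← hK] at hgap
  have hK1 : 1 ≤ K := by
    have := mul_le_mul_of_nonneg_left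
      (le_add_of_nonneg_left (Nat.cast_nonneg L) : (1 : ℝ) ≤ (L : ℝ) + 1)
      (show (0 : ℝ) ≤ 4 * k by linarith)
    rw [hK]
    linarith
  obtain ⟨gap, hgapdef⟩ : ∃ x, x = (k : ℝ) * (Φ ^ 2 / P ^ (k - 1)) - 21 * m₀ * K * P ^ k :=
    ⟨_, rfl⟩
  have hgap0 : 0 < gap := by
    rw [hgapdef, sub_pos, ← mul_div_assoc, lt_div_iff₀ (pow_pos hP0 _)]
    refine lt_of_eq_of_lt ?_ (mul_lt_mul_of_pos_left hgap (show (0 : ℝ) < k by linarith))
    field_simp
  obtain ⟨D₀, hD₀⟩ : ∃ D₀ : ℕ, ∀ D ≥ D₀, 5 ≤ D ∧ k ≤ D ∧ (D : ℝ)⁻¹ ≤ ε / 2 ∧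
      Real.exp (4 * (k : ℝ) / D) ≤ 1 + ε / 4 := by
    have t1 : Tendsto (fun D : ℕ => (D : ℝ)⁻¹) atTop (𝓝 0) := tendsto_inv_atTop_nhds_zero_nat
    have t2 : Tendsto (fun D : ℕ => Real.exp (4 * (k : ℝ) / D)) atTop (𝓝 (Real.exp 0)) :=
      (Real.continuous_exp.tendsto 0).comp (tendsto_const_div_atTop_nhds_zero_nat _)
    rw [Real.exp_zero] at t2
    exact ((eventually_ge_atTop 5).and ((eventually_ge_atTop k).and ((t1.eventually
      (eventually_le_nhds (by linarith : (0 : ℝ) < ε / 2))).and (t2.eventually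
        (eventually_le_nhds (by linarith : (1 : ℝ) < 1 + ε / 4)))))).exists_forall_of_atTop
  refine ⟨k, D₀, by omega, fun D hD => ?_⟩
  intro _ hDk N₀
  obtain ⟨hD5, -, hDinv, hDexp⟩ := hD₀ D hD
  have hδ := density_pos D
  obtain ⟨B, hB⟩ : ∃ B : ℝ, B = max 1 (max ((3 * (D ! : ℕ) + 2) / (ε / 4))
      ((k + 21 * m₀ * K) / gap + 1)) := ⟨_, rfl⟩
  obtain ⟨N, ⟨⟨⟨hR1, hlog⟩, hsums⟩, hNbig⟩, hN₀⟩ := (((eventually_sums hDk hD5).and
    (eventually_log_ge (21 * K * (B / density D + 1)))).and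
      (eventually_ge_atTop (N₀ + k + 1 + (univ : Finset (Fin k)).sup fun i => shift i))).exists
  obtain ⟨R, hR⟩ : ∃ R, R = level N := ⟨_, rfl⟩
  rw [← hR] at hR1 hlog hsums
  obtain ⟨ℓ, hℓ⟩ : ∃ ℓ, ℓ = Real.log R / K := ⟨_, rfl⟩
  have hlogR : Real.log R = K * ℓ := by rw [hℓ]; field_simp
  have hN1 : (1 : ℝ) ≤ N := Nat.one_le_cast.2 (by omega)
  have hW1 : (1 : ℝ) ≤ (D ! : ℕ) := Nat.one_le_cast.2 (Nat.factorial_pos D)
  have hℓB : B / density D + 1 ≤ ℓ := by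
    have h1 : Real.log N ≤ Real.log (3 * (D ! : ℕ) * N) :=
      Real.log_le_log (by linarith) (le_mul_of_one_le_left (by linarith) (by linarith))
    rw [hℓ, le_div_iff₀ (by linarith)]
    linarith
  have hB1 : 1 ≤ B := hB ▸ le_max_left _ _
  have hBd : 0 ≤ B / density D := div_nonneg (by linarith) hδ.le
  have hX : B ≤ density D * ℓ := by
    have := mul_le_mul_of_nonneg_left hℓB hδ.le
    rw [mul_add, mul_div_cancel₀ _ hδ.ne'] at this
    linarith
  have hscale : LargeScale (4 * k) D ε ℓ := by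
    refine ⟨hε0, by linarith, hD5, hDinv, hDexp, ?_⟩
    have := mul_le_mul_of_nonneg_left (((le_max_left _ _).trans ((le_max_right _ _).trans
      (le_of_eq hB.symm))).trans hX) (show 0 ≤ ε / 4 by linarith)
    rwa [mul_div_cancel₀ _ (show ε / 4 ≠ 0 by linarith)] at this
  obtain ⟨g, hg⟩ : ∃ g, g = stepFun (1 / 2) L ℓ := ⟨_, rfl⟩
  have hgabs : ∀ a, |g a| ≤ 1 := fun a => by
    obtain ⟨h1, h2⟩ := hg ▸ stepFun_mem (r := 1 / 2) (L := L) (ℓ := ℓ)
      (by norm_num) (by norm_num) (by linarith) a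
    exact abs_le.2 ⟨by linarith, h2⟩
  obtain ⟨hS1, hS2⟩ := hsums g hgabs
  obtain ⟨X, hXdef⟩ : ∃ X, X = density D * ℓ := ⟨_, rfl⟩
  have hX0 : 0 < X := by linarith
  have hQ1 : avgAll D R (fun c => sieveSum D R g k c ^ 2) ≤ P ^ k * X ^ k := by
    refine (avgAll_sq_le hDk hD5).trans ?_
    rw [← mul_pow]
    refine pow_le_pow_left₀ (sum_nonneg fun a _ => mul_nonneg (sq_nonneg _)
      (div_nonneg (zero_le_one.trans (one_le_cw (by positivity) a)) (Nat.cast_nonneg a))) ?_ k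
    simp only [hg, stepFun_sq (show 0 ≤ ℓ by linarith)]
    refine (le_of_eq ?_).trans ((hscale.step_upper (r := 1 / 4) (R := R) (by positivity)
      (by norm_num) (by norm_num) L).trans (le_of_eq ?_))
    · norm_num [oneSum]
    · rw [hP, hXdef]
      ring
  by_contra hcon
  push Not at hcon
  have hupper : ∑ m : Fin k, ∑ j ∈ Ioc N (2 * N), primeWeight D m j * sieveSum D R g k j ^ 2 ≤
      m₀ * Real.log (3 * (D ! : ℕ) * N) * ∑ j ∈ Ioc N (2 * N), sieveSum D R g k j ^ 2 := by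
    rw [sum_comm, mul_sum]
    refine sum_le_sum fun j hj => ?_
    rw [mem_Ioc] at hj
    rw [← sum_mul]
    refine mul_le_mul_of_nonneg_right ?_ (sq_nonneg _)
    simp only [primeWeight]
    rw [← sum_filter]
    refine (sum_le_card_nsmul _ _ (Real.log (3 * (D ! : ℕ) * N)) fun m hm => ?_).trans ?_
    · refine Real.log_le_log (Nat.cast_pos.2 (mem_filter.1 hm).2.pos) ?_
      rw [form]
      exact_mod_cast (show D ! * j + shift m ≤ 3 * D ! * N by
        have h1 : shift m ≤ D ! * N := le_trans (by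
          have := le_sup (f := fun i : Fin k => shift i) (mem_univ m)
          omega) (Nat.le_mul_of_pos_left N (Nat.factorial_pos D))
        have h2 : D ! * j ≤ D ! * (2 * N) := Nat.mul_le_mul_left _ hj.2
        rw [mul_left_comm] at h2
        rw [mul_assoc 3]
        omega)
    · rw [nsmul_eq_mul]
      exact mul_le_mul_of_nonneg_right (Nat.cast_le.2 (hcon j (by omega)))
        (Real.log_nonneg (one_le_mul_of_one_le_of_one_le (by linarith) hN1))
  have hlower : (k : ℝ) * ((N : ℝ) * ℓ * X ^ k * (Φ ^ 2 / P ^ (k - 1)) - N) ≤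
      ∑ m : Fin k, ∑ j ∈ Ioc N (2 * N), primeWeight D m j * sieveSum D R g k j ^ 2 := by
    refine le_trans (le_of_eq ?_) (sum_le_sum (f := fun _ =>
      (N : ℝ) * ℓ * X ^ k * (Φ ^ 2 / P ^ (k - 1)) - N) fun m _ => le_trans ?_ (hS2 m))
    · rw [sum_const, card_univ, Fintype.card_fin, nsmul_eq_mul]
    · refine sub_le_sub_right ?_ _
      have h1 := avgAway_ge (R := R) hk hk2 hDk hscale (by linarith) hR1 (by rw [hlogR, hK]) hε
        hb hl m
      rw [← hΦ, ← hg, ← hXdef, ← hP] at h1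
      refine le_trans (le_of_eq ?_) (mul_le_mul_of_nonneg_left h1
        (div_nonneg (mul_nonneg (Nat.cast_nonneg _) (Nat.cast_nonneg _)) (Nat.cast_nonneg _)))
      have e : (density D)⁻¹ * X = ℓ := by rw [hXdef, ← mul_assoc, inv_mul_cancel₀ hδ.ne', one_mul]
      rw [← e, density, inv_div]
      ring
  have hup2 : (m₀ : ℝ) * Real.log (3 * (D ! : ℕ) * N) *
      ∑ j ∈ Ioc N (2 * N), sieveSum D R g k j ^ 2 ≤
        m₀ * (21 * (K * ℓ)) * ((N : ℝ) * (P ^ k * X ^ k) + N) :=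
    mul_le_mul (mul_le_mul_of_nonneg_left (hlogR ▸ hlog) (Nat.cast_nonneg _))
      (hS1.trans (add_le_add (mul_le_mul_of_nonneg_left hQ1 (Nat.cast_nonneg _)) le_rfl))
      (sum_nonneg fun j _ => sq_nonneg _)
      (mul_nonneg (Nat.cast_nonneg _) (mul_nonneg (by norm_num) (mul_nonneg (by linarith)
        (by linarith))))
  have key := (hlower.trans hupper).trans hup2
  -- the contradiction
  have hℓ1 : 1 ≤ ℓ := by linarith
  have h6 : (N : ℝ) * ℓ * (X ^ k * gap) ≤ (N : ℝ) * ℓ * (k + 21 * m₀ * K) := by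
    have h7 : (k : ℝ) * N ≤ N * ℓ * k := by
      have := mul_le_mul_of_nonneg_left hℓ1 (show (0 : ℝ) ≤ N * k by positivity)
      linarith
    rw [hgapdef]
    linarith
  have h8 : X * gap ≤ X ^ k * gap :=
    mul_le_mul_of_nonneg_right (le_self_pow₀ (by linarith) (by omega)) hgap0.le
  have h9 := le_of_mul_le_mul_left h6 (mul_pos (by linarith) (by linarith))
  have h10 : (k + 21 * m₀ * K) / gap + 1 ≤ X :=
    (((le_max_right _ _).trans (le_max_right _ _)).trans (le_of_eq hB.symm)).trans (hXdef ▸ hX)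
  have h11 := mul_le_mul_of_nonneg_right h10 hgap0.le
  rw [add_mul, div_mul_cancel₀ _ hgap0.ne'] at h11
  linarith

end FA.BoundedGaps
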