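import Fermat.Agent.BoundedGaps.Local
import Mathlib.NumberTheory.ArithmeticFunction.Moebius

/-!
# The sieve weights

`f c = ∑_r y r / φ (∏ r) ∏_{p ∣ r i} (1 - p 1[p ∣ L i c])` over tuples of squarefree numbers free of
small primes with product squarefree and `≤ R`, and its expansion `∑_d λ d 1[d i ∣ L i c]`.
-/

set_option autoImplicit false
set_option linter.unusedSectionVars false

noncomputable section

namespace FA.BoundedGaps

open Finset
open scoped Nat ArithmeticFunction.Moebius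

variable [Shifts]

variable {k D R : ℕ}

/-- All tuples. -/
def box (k D R : ℕ) : Finset (Fin k → ℕ) := Fintype.piFinset fun _ => rough D R

/-- The tuples with `r m = 1`. -/
def boxAt (D R : ℕ) (m : Fin k) : Finset (Fin k → ℕ) :=
  Fintype.piFinset fun i => if i = m then {1} else rough D R

/-- The support of the weights. -/
def supp (k D R : ℕ) : Finset (Fin k → ℕ) :=
  (box k D R).filter fun r => Squarefree (∏ i, r i) ∧ ∏ i, r i ≤ R

theorem mem_box {r : Fin k → ℕ} : r ∈ box k D R ↔ ∀ i, r i ∈ rough D R := Fintype.mem_piFinset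

theorem mem_supp {r : Fin k → ℕ} : r ∈ supp k D R ↔
    (∀ i, r i ∈ rough D R) ∧ Squarefree (∏ i, r i) ∧ ∏ i, r i ≤ R := by
  rw [supp, mem_filter, mem_box]

theorem mem_boxAt {m : Fin k} {r : Fin k → ℕ} (hR : 1 ≤ R) :
    r ∈ boxAt D R m ↔ (∀ i, r i ∈ rough D R) ∧ r m = 1 := by
  rw [boxAt, Fintype.mem_piFinset]
  constructor
  · intro h
    have hm := h m
    rw [if_pos rfl, mem_singleton] at hm
    refine ⟨fun i => ?_, hm⟩
    rcases eq_or_ne i m with rfl | hi
    · rw [hm]
      exact one_mem_rough hR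
    · simpa [hi] using h i
  · rintro ⟨h, hm⟩ i
    split_ifs with hi
    · rw [hi, hm, mem_singleton]
    · exact h i

theorem sum_box_prod (f : ℕ → ℝ) :
    ∑ r ∈ box k D R, ∏ i, f (r i) = (∑ a ∈ rough D R, f a) ^ k := by
  rw [box, ← prod_univ_sum (fun _ : Fin k => rough D R) fun _ a => f a, prod_const, card_univ,
    Fintype.card_fin]

theorem sum_boxAt_prod (m : Fin k) {f : ℕ → ℝ} (hf : f 1 = 1) :
    ∑ r ∈ boxAt D R m, ∏ i, f (r i) = (∑ a ∈ rough D R, f a) ^ (k - 1) := by
  rw [boxAt, ← prod_univ_sum (fun i : Fin k => if i = m then {1} else rough D R) fun _ a => f a,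
    ← mul_prod_erase univ _ (mem_univ m), if_pos rfl, sum_singleton, hf, one_mul,
    prod_congr rfl fun i hi => by rw [if_neg (mem_erase.1 hi).1], prod_const,
    card_erase_of_mem (mem_univ m), card_univ, Fintype.card_fin]

/-- One coordinate singled out. -/
theorem sum_boxAt_single (m i : Fin k) (hi : i ≠ m) {f : ℕ → ℝ} (hf : f 1 = 1) (h : ℕ → ℝ) :
    ∑ r ∈ boxAt D R m, h (r i) * ∏ j ∈ univ.erase i, f (r j) =
      (∑ a ∈ rough D R, h a) * (∑ a ∈ rough D R, f a) ^ (k - 2) := by
  have e : ∀ r : Fin k → ℕ, h (r i) * ∏ j ∈ univ.erase i, f (r j) =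
      ∏ j, if j = i then h (r j) else f (r j) := fun r => by
    rw [← mul_prod_erase univ _ (mem_univ i), if_pos rfl]
    congr 1
    exact prod_congr rfl fun j hj => by rw [if_neg (mem_erase.1 hj).1]
  simp only [e]
  rw [boxAt, ← prod_univ_sum (fun j : Fin k => if j = m then {1} else rough D R)
    fun j a => if j = i then h a else f a, ← mul_prod_erase univ _ (mem_univ i)]
  simp only [if_neg hi, if_true]
  congr 1
  rw [← mul_prod_erase (univ.erase i) _ (mem_erase.2 ⟨hi.symm, mem_univ m⟩)]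
  simp only [if_true, sum_singleton, if_neg hi.symm, hf, one_mul]
  rw [prod_congr rfl fun j hj => show _ = ∑ a ∈ rough D R, f a by
      rw [if_neg (mem_erase.1 hj).1]
      exact sum_congr rfl fun a _ => if_neg (mem_erase.1 (mem_erase.1 hj).2).1,
    prod_const, card_erase_of_mem (mem_erase.2 ⟨hi.symm, mem_univ m⟩),
    card_erase_of_mem (mem_univ i), card_univ, Fintype.card_fin, Nat.sub_sub]

theorem squarefree_prod_iff {r : Fin k → ℕ} (hr : ∀ i, Squarefree (r i)) :
    Squarefree (∏ i, r i) ↔ ∀ i j, i ≠ j → (r i).Coprime (r j) := by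
  constructor
  · intro h i j hij
    refine Nat.coprime_of_squarefree_mul (h.squarefree_of_dvd ?_)
    rw [← prod_pair hij]
    exact prod_dvd_prod_of_subset _ _ _ (subset_univ _)
  · intro h
    exact squarefree_prod_of_pairwise_isCoprime
      (fun i _ j _ hij => Nat.coprime_iff_isRelPrime.1 (h i j hij)) fun i _ => hr i

theorem coprime_of_supp {r : Fin k → ℕ} (hr : r ∈ supp k D R) {i j : Fin k} (hij : i ≠ j) :
    (r i).Coprime (r j) := by
  rw [mem_supp] at hr
  exact (squarefree_prod_iff fun l => (mem_rough.1 (hr.1 l)).2.1).1 hr.2.1 i j hij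

theorem prod_pos_of_supp {r : Fin k → ℕ} (hr : r ∈ supp k D R) : 0 < ∏ i, r i :=
  prod_pos fun i _ => (mem_rough.1 ((mem_supp.1 hr).1 i)).1.1

open scoped Classical in
/-- The coordinate divisible by `p`. -/
def lab (r : Fin k → ℕ) (p : ℕ) : Option (Fin k) :=
  if h : ∃ i, p ∣ r i then some h.choose else none

theorem lab_eq_none {r : Fin k → ℕ} {p : ℕ} : lab r p = none ↔ ∀ i, ¬ p ∣ r i := by
  unfold lab
  split_ifs with h
  · simp only [false_iff, not_forall, not_not]
    exact h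
  · simp only [true_iff]
    push Not at h
    exact h

theorem lab_eq_some {r : Fin k → ℕ} (hr : r ∈ supp k D R) {p : ℕ} (hp : p.Prime) (i : Fin k) :
    lab r p = some i ↔ p ∣ r i := by
  unfold lab
  split_ifs with h
  · rw [Option.some_inj]
    refine ⟨fun e => e ▸ h.choose_spec, fun hi => ?_⟩
    by_contra hne
    exact hp.one_lt.ne'
      (Nat.eq_one_of_dvd_coprimes (coprime_of_supp hr hne) h.choose_spec hi)
  · simp only [false_iff]
    exact fun hi => h ⟨i, hi⟩

theorem lab_injective {r r' : Fin k → ℕ} (hr : r ∈ supp k D R) (hr' : r' ∈ supp k D R)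
    (h : ∀ p ∈ midPrimes D R, lab r p = lab r' p) : r = r' := by
  have key : ∀ {s t : Fin k → ℕ}, s ∈ supp k D R → t ∈ supp k D R →
      (∀ p ∈ midPrimes D R, lab s p = lab t p) → ∀ i, (s i).primeFactors ⊆ (t i).primeFactors := by
    intro s t hs ht h i p hp
    have hpm := primeFactors_subset ((mem_supp.1 hs).1 i) hp
    rw [Nat.mem_primeFactors] at hp ⊢
    refine ⟨hp.1, (lab_eq_some ht hp.1 i).1 ?_,
      (Nat.one_le_iff_ne_zero.1 (mem_rough.1 ((mem_supp.1 ht).1 i)).1.1)⟩
    rw [← h p hpm]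
    exact (lab_eq_some hs hp.1 i).2 hp.2.1
  funext i
  have e : (r i).primeFactors = (r' i).primeFactors :=
    Subset.antisymm (key hr hr' h i) (key hr' hr (fun p hp => (h p hp).symm) i)
  rw [← Nat.prod_primeFactors_of_squarefree (mem_rough.1 ((mem_supp.1 hr).1 i)).2.1, e,
    Nat.prod_primeFactors_of_squarefree (mem_rough.1 ((mem_supp.1 hr').1 i)).2.1]

/-- The primes labelled by `r` are the prime factors of the coordinates. -/
theorem prod_lab {M : Type*} [CommMonoid M] {r : Fin k → ℕ} (hr : r ∈ supp k D R)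
    (F : ℕ → Option (Fin k) → M) (hF : ∀ p, F p none = 1) :
    ∏ p ∈ midPrimes D R, F p (lab r p) = ∏ i, ∏ p ∈ (r i).primeFactors, F p (some i) := by
  have e : ∀ p ∈ midPrimes D R, F p (lab r p) =
      ∏ i, if p ∣ r i then F p (some i) else 1 := by
    intro p hp
    have hpp := (mem_filter.1 hp).2
    cases hl : lab r p with
    | none =>
      rw [hF, prod_eq_one]
      intro i _
      rw [if_neg (lab_eq_none.1 hl i)]
    | some j =>
      rw [prod_eq_single j, if_pos ((lab_eq_some hr hpp j).1 hl)]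
      · intro i _ hij
        rw [if_neg]
        intro hd
        rw [(lab_eq_some hr hpp i).2 hd, Option.some_inj] at hl
        exact hij hl
      · simp
  rw [prod_congr rfl e, prod_comm]
  refine prod_congr rfl fun i _ => ?_
  rw [← prod_filter]
  refine prod_congr ?_ fun p _ => rfl
  ext p
  simp only [mem_filter, Nat.mem_primeFactors]
  constructor
  · rintro ⟨hp, hd⟩
    exact ⟨(mem_filter.1 hp).2, hd,
      (Nat.one_le_iff_ne_zero.1 (mem_rough.1 ((mem_supp.1 hr).1 i)).1.1)⟩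
  · intro hp
    exact ⟨primeFactors_subset ((mem_supp.1 hr).1 i) (Nat.mem_primeFactors.2 hp), hp.2.1⟩

theorem totient_prod {r : Fin k → ℕ} (hr : r ∈ supp k D R) :
    ((∏ i, r i).totient : ℝ) =
      ∏ p ∈ midPrimes D R, (if lab r p = none then 1 else (p : ℝ) - 1) := by
  rw [prod_lab hr (fun p o => if o = none then (1 : ℝ) else (p : ℝ) - 1) fun p => if_pos rfl]
  have h1 : ∀ (s : Finset (Fin k)), (∏ i ∈ s, r i).totient = ∏ i ∈ s, (r i).totient := by
    intro s
    induction s using Finset.induction_on with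
    | empty => simp
    | insert i s hi ih =>
      rw [prod_insert hi, prod_insert hi, Nat.totient_mul, ih]
      exact Nat.Coprime.prod_right fun j hj => coprime_of_supp hr fun h => hi (h ▸ hj)
  rw [h1 univ, Nat.cast_prod]
  refine prod_congr rfl fun i _ => ?_
  have hsq := (mem_rough.1 ((mem_supp.1 hr).1 i)).2.1
  have h2 := Nat.totient_eq_div_primeFactors_mul (r i)
  rw [Nat.prod_primeFactors_of_squarefree hsq,
    Nat.div_self (mem_rough.1 ((mem_supp.1 hr).1 i)).1.1, one_mul] at h2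
  rw [h2, Nat.cast_prod]
  refine prod_congr rfl fun p hp => ?_
  rw [if_neg (by simp), Nat.cast_sub (Nat.prime_of_mem_primeFactors hp).one_lt.le, Nat.cast_one]

/-- `∏_p (1 - p 1[p ∣ L i])`. -/
def tupleX (D R : ℕ) (r : Fin k → ℕ) (c : ℕ) : ℝ :=
  ∏ p ∈ midPrimes D R, basicX D p (lab r p) c

/-- The sieve weight, before squaring. -/
def sieveSum (D R : ℕ) (g : ℕ → ℝ) (k : ℕ) (c : ℕ) : ℝ :=
  ∑ r ∈ supp k D R, (∏ i, g (r i)) / ((∏ i, r i).totient : ℝ) * tupleX D R r c

/-- `∏ μ (d i) d i`. -/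
def signedProd (d : Fin k → ℕ) : ℝ := ∏ i, (μ (d i) : ℝ) * (d i : ℝ)

/-- The indicator of `d i ∣ L i c` for all `i`. -/
def dvdInd (D : ℕ) (d : Fin k → ℕ) (c : ℕ) : ℝ :=
  if ∀ i : Fin k, d i ∣ form D i c then 1 else 0

/-- `a ↦ μ a a 1[a ∣ L]`. -/
def cutFun (L : ℕ) : ArithmeticFunction ℝ :=
  ⟨fun a => (μ a : ℝ) * (a : ℝ) * if a ∣ L then 1 else 0, by simp⟩

theorem cutFun_apply (L a : ℕ) :
    cutFun L a = (μ a : ℝ) * (a : ℝ) * if a ∣ L then 1 else 0 := rfl

theorem cutFun_isMultiplicative (L : ℕ) : (cutFun L).IsMultiplicative := by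
  refine ⟨by simp [cutFun_apply], fun {a b} h => ?_⟩
  simp only [cutFun_apply]
  rw [ArithmeticFunction.isMultiplicative_moebius.map_mul_of_coprime h]
  have e : (if a * b ∣ L then (1 : ℝ) else 0) =
      (if a ∣ L then 1 else 0) * (if b ∣ L then 1 else 0) := by
    by_cases h1 : a * b ∣ L
    · rw [if_pos h1, if_pos (dvd_trans (dvd_mul_right a b) h1),
        if_pos (dvd_trans (dvd_mul_left b a) h1), mul_one]
    · rw [if_neg h1]
      split_ifs with h2 h3
      · exact absurd (h.mul_dvd_of_dvd_of_dvd h2 h3) h1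
      all_goals simp
  rw [e]
  push_cast
  ring

theorem tupleX_eq {r : Fin k → ℕ} (hr : r ∈ supp k D R) (c : ℕ) :
    tupleX D R r c =
      ∑ d ∈ Fintype.piFinset (fun i => (r i).divisors), signedProd d * dvdInd D d c := by
  rw [tupleX, prod_lab hr (fun p o => basicX D p o c) fun p => rfl]
  have e : ∀ i : Fin k, ∏ p ∈ (r i).primeFactors, basicX D p (some i) c =
      ∑ d ∈ (r i).divisors, cutFun (form D i c) d := by
    intro i
    rw [← (cutFun_isMultiplicative _).prodPrimeFactors_one_add_of_squarefree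
      (mem_rough.1 ((mem_supp.1 hr).1 i)).2.1]
    refine prod_congr rfl fun p hp => ?_
    rw [cutFun_apply, ArithmeticFunction.moebius_apply_prime (Nat.prime_of_mem_primeFactors hp)]
    simp [basicX, hit]
    split_ifs <;> ring
  rw [prod_congr rfl fun i _ => e i, prod_univ_sum]
  refine sum_congr rfl fun d _ => ?_
  simp only [cutFun_apply, prod_mul_distrib, signedProd, dvdInd]
  congr 1
  by_cases h : ∀ i : Fin k, d i ∣ form D i c
  · rw [if_pos h, prod_eq_one fun i _ => by rw [if_pos (h i)]]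
  · rw [if_neg h]
    push Not at h
    obtain ⟨i, hi⟩ := h
    exact prod_eq_zero (mem_univ i) (if_neg hi)

theorem mem_supp_of_dvd {r d : Fin k → ℕ} (hr : r ∈ supp k D R) (hd : ∀ i, d i ∣ r i) :
    d ∈ supp k D R := by
  have hr0 := prod_pos_of_supp hr
  rw [mem_supp] at hr ⊢
  have hdvd : ∏ i, d i ∣ ∏ i, r i := prod_dvd_prod_of_dvd _ _ fun i _ => hd i
  refine ⟨fun i => ?_, hr.2.1.squarefree_of_dvd hdvd, (Nat.le_of_dvd hr0 hdvd).trans hr.2.2⟩
  obtain ⟨⟨h1, h2⟩, h3, h4⟩ := mem_rough.1 (hr.1 i)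
  exact mem_rough.2 ⟨⟨Nat.pos_of_dvd_of_pos (hd i) h1, (Nat.le_of_dvd h1 (hd i)).trans h2⟩,
    h3.squarefree_of_dvd (hd i), h4.coprime_dvd_left (hd i)⟩

/-- The coefficient of `1[d ∣ L]`. -/
def sieveCoeff (D R : ℕ) (g : ℕ → ℝ) (d : Fin k → ℕ) : ℝ :=
  ∑ r ∈ (supp k D R).filter (fun r => ∀ i, d i ∣ r i),
    (∏ i, g (r i)) / ((∏ i, r i).totient : ℝ) * signedProd d

/-- **The expansion.** -/
theorem sieveSum_eq (g : ℕ → ℝ) (c : ℕ) :
    sieveSum D R g k c = ∑ d ∈ supp k D R, sieveCoeff D R g d * dvdInd D d c := by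
  simp only [sieveCoeff, sum_mul, sum_filter]
  rw [sum_comm, sieveSum]
  refine sum_congr rfl fun r hr => ?_
  rw [tupleX_eq hr, mul_sum]
  simp only [ite_mul, zero_mul]
  rw [← sum_filter]
  refine sum_congr ?_ fun d _ => by ring
  ext d
  simp only [Fintype.mem_piFinset, Nat.mem_divisors, mem_filter]
  exact ⟨fun h => ⟨mem_supp_of_dvd hr fun i => (h i).1, fun i => (h i).1⟩, fun h i =>
    ⟨h.2 i, Nat.one_le_iff_ne_zero.1 (mem_rough.1 ((mem_supp.1 hr).1 i)).1.1⟩⟩

theorem abs_signedProd_le (d : Fin k → ℕ) : |signedProd d| ≤ ((∏ i, d i : ℕ) : ℝ) := by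
  rw [signedProd, abs_prod, Nat.cast_prod]
  refine prod_le_prod (fun i _ => abs_nonneg _) fun i _ => ?_
  rw [abs_mul, Nat.abs_cast, ← Int.cast_abs]
  exact mul_le_of_le_one_left (Nat.cast_nonneg _)
    (by exact_mod_cast ArithmeticFunction.abs_moebius_le_one)

theorem totient_prod_coprime {a : Fin k → ℕ} (h : ∀ i j, i ≠ j → (a i).Coprime (a j)) :
    (∏ i, a i).totient = ∏ i, (a i).totient := by
  have h1 : ∀ (s : Finset (Fin k)), (∏ i ∈ s, a i).totient = ∏ i ∈ s, (a i).totient := by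
    intro s
    induction s using Finset.induction_on with
    | empty => simp
    | insert i s hi ih =>
      rw [prod_insert hi, prod_insert hi, Nat.totient_mul, ih]
      exact Nat.Coprime.prod_right fun j hj => h i j fun e => hi (e ▸ hj)
  exact h1 univ

/-- **The size of the coefficients.** -/
theorem abs_sieveCoeff_le {g : ℕ → ℝ} (hg : ∀ a, |g a| ≤ 1) {d : Fin k → ℕ}
    (hd : d ∈ supp k D R) :
    |sieveCoeff D R g d| ≤ ((∏ i, d i : ℕ) : ℝ) / ((∏ i, d i).totient : ℝ) *
      (∑ a ∈ rough D R, 1 / (a.totient : ℝ)) ^ k := by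
  rw [← sum_box_prod]
  refine (abs_sum_le_sum_abs _ _).trans ?_
  rw [mul_sum]
  refine le_trans (sum_le_sum (g := fun r : Fin k → ℕ => ((∏ i, d i : ℕ) : ℝ) /
    ((∏ i, d i).totient : ℝ) * ∏ i, 1 / ((r i / d i).totient : ℝ)) fun r hr => ?_) ?_
  · rw [mem_filter] at hr
    have e : (∏ i, r i).totient = (∏ i, d i).totient * ∏ i, (r i / d i).totient := by
      rw [totient_prod_coprime fun i j h => coprime_of_supp hr.1 h,
        totient_prod_coprime fun i j h => coprime_of_supp hd h, ← prod_mul_distrib]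
      refine prod_congr rfl fun i _ => ?_
      obtain ⟨t, ht⟩ := hr.2 i
      rw [ht, Nat.mul_div_cancel_left _ (mem_rough.1 ((mem_supp.1 hd).1 i)).1.1, Nat.totient_mul]
      exact Nat.coprime_of_squarefree_mul (ht ▸ (mem_rough.1 ((mem_supp.1 hr.1).1 i)).2.1)
    rw [e, abs_mul, abs_div, Nat.abs_cast, abs_prod, Nat.cast_mul, Nat.cast_prod, prod_div_distrib,
      prod_const_one, div_mul_div_comm, mul_one, div_mul_eq_mul_div]
    refine div_le_div_of_nonneg_right ?_ (by positivity)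
    exact (mul_le_of_le_one_left (abs_nonneg _)
      (prod_le_one (fun i _ => abs_nonneg _) fun i _ => hg _)).trans
        (abs_signedProd_le d)
  · rw [← sum_image (g := fun r : Fin k → ℕ => fun i => r i / d i)
      (f := fun t : Fin k → ℕ => ((∏ i, d i : ℕ) : ℝ) / ((∏ i, d i).totient : ℝ) *
        ∏ i, 1 / ((t i).totient : ℝ))]
    · refine sum_le_sum_of_subset_of_nonneg (fun t ht => ?_) fun t _ _ =>
        mul_nonneg (by positivity) (prod_nonneg fun i _ => by positivity)
      obtain ⟨r, hr, rfl⟩ := mem_image.1 ht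
      rw [mem_filter] at hr
      exact mem_box.2 ((mem_supp.1
        (mem_supp_of_dvd hr.1 fun i => Nat.div_dvd_of_dvd (hr.2 i))).1)
    · intro r hr r' hr' h
      rw [coe_filter, Set.mem_ofPred_eq] at hr hr'
      funext i
      rw [← Nat.mul_div_cancel' (hr.2 i), ← Nat.mul_div_cancel' (hr'.2 i)]
      exact congrArg (d i * ·) (congrFun h i)

/-- The number of tuples. -/
theorem card_supp_le : ((supp k D R).card : ℝ) ≤ (R : ℝ) ^ 2 * 2 ^ k := by
  have h2 : ∑ a ∈ rough D R, ((a : ℝ) ^ 2)⁻¹ ≤ 2 := by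
    refine (sum_le_sum_of_subset_of_nonneg (t := {1} ∪ Ioc 1 R) (fun a ha => ?_)
      fun a _ _ => by positivity).trans ?_
    · rw [mem_rough] at ha
      rw [mem_union, mem_singleton, mem_Ioc]
      omega
    · rw [sum_union (disjoint_left.2 fun a h1 h2 => by
        rw [mem_singleton] at h1
        rw [mem_Ioc] at h2
        omega), sum_singleton, Nat.cast_one, one_pow, inv_one]
      rcases Nat.eq_zero_or_pos R with rfl | hR
      · simp
      · have := sum_Ioc_inv_sq_le_sub (α := ℝ) (k := 1) one_ne_zero hR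
        have : (0 : ℝ) ≤ (R : ℝ)⁻¹ := by positivity
        push_cast at *
        linarith
  calc ((supp k D R).card : ℝ) = ∑ _r ∈ supp k D R, (1 : ℝ) := by simp
    _ ≤ ∑ r ∈ supp k D R, (R : ℝ) ^ 2 * ∏ i, (((r i : ℕ) : ℝ) ^ 2)⁻¹ := by
        refine sum_le_sum fun r hr => ?_
        rw [prod_inv_distrib, prod_pow, ← Nat.cast_prod, ← div_eq_mul_inv,
          one_le_div (by positivity [prod_pos_of_supp hr])]
        exact pow_le_pow_left₀ (Nat.cast_nonneg _) (Nat.cast_le.2 (mem_supp.1 hr).2.2) 2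
    _ ≤ ∑ r ∈ box k D R, (R : ℝ) ^ 2 * ∏ i, (((r i : ℕ) : ℝ) ^ 2)⁻¹ :=
        sum_le_sum_of_subset_of_nonneg (filter_subset _ _) fun r _ _ =>
          mul_nonneg (sq_nonneg _) (prod_nonneg fun i _ => by positivity)
    _ ≤ _ := by
        rw [← mul_sum, sum_box_prod fun a => ((a : ℝ) ^ 2)⁻¹]
        exact mul_le_mul_of_nonneg_left
          (pow_le_pow_left₀ (sum_nonneg fun a _ => by positivity) h2 k) (sq_nonneg _)

end FA.BoundedGaps
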