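import Fermat.Agent.BoundedGaps.Classes
import Fermat.Agent.BoundedGaps.Weights
import Fermat.Agent.Root.SummaryBombieriVinogradov

/-!
# The sums of `f²` and of `θ · f²` over `(N, 2N]`

`∑ f²` is `N E[f²]` up to `(∑ |λ|)²`, and `∑ θ_m f²` is `(W N / φ W) E_m[f²]` up to a weighted sum
of the errors in the prime number theorem for progressions to moduli `≤ W R²`.
-/

set_option autoImplicit false
set_option linter.unusedSectionVars false

noncomputable section

namespace FA.BoundedGaps

open Finset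
open scoped Nat

variable [Shifts]

variable {k D R : ℕ}

/-- `log L` at primes, else `0`. -/
def primeWeight (D i j : ℕ) : ℝ :=
  if (form D i j).Prime then Real.log (form D i j : ℕ) else 0

/-- The error in the prime number theorem for a progression. -/
def errAP (y q a : ℕ) : ℝ :=
  (∑ p ∈ (Icc 1 y).filter (fun p : ℕ => p.Prime ∧ p ≡ a [MOD q]), Real.log (p : ℕ)) -
    (y : ℝ) / (q.totient : ℕ)

theorem exists_worst (y q : ℕ) :
    ∃ a : ℕ, a.Coprime q ∧ ∀ b : ℕ, b.Coprime q → |errAP y q b| ≤ |errAP y q a| := by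
  rcases Nat.eq_zero_or_pos q with rfl | hq
  · exact ⟨1, Nat.coprime_one_left 0, fun b hb => by rw [(Nat.coprime_zero_right b).1 hb]⟩
  have hne : ((range q).filter fun a => a.Coprime q).Nonempty := by
    refine ⟨1 % q, mem_filter.2 ⟨mem_range.2 (Nat.mod_lt _ hq), ?_⟩⟩
    rw [Nat.coprime_iff_gcd_eq_one, ← Nat.gcd_rec, Nat.gcd_one_right]
  obtain ⟨a, ha, hmax⟩ := exists_max_image _ (fun a => |errAP y q a|) hne
  refine ⟨a, (mem_filter.1 ha).2, fun b hb => ?_⟩
  have e : errAP y q b = errAP y q (b % q) := by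
    simp only [errAP, Nat.ModEq, Nat.mod_mod]
  rw [e]
  refine hmax _ (mem_filter.2 ⟨mem_range.2 (Nat.mod_lt _ hq), ?_⟩)
  rwa [Nat.coprime_iff_gcd_eq_one, ← Nat.gcd_rec, Nat.gcd_comm, ← Nat.coprime_iff_gcd_eq_one]

/-- The worst error modulo `q`. -/
def apErr (y q : ℕ) : ℝ := |errAP y q (exists_worst y q).choose|

theorem abs_errAP_le {y q b : ℕ} (hb : b.Coprime q) : |errAP y q b| ≤ apErr y q :=
  (exists_worst y q).choose_spec.2 b hb

theorem apErr_nonneg (y q : ℕ) : 0 ≤ apErr y q := abs_nonneg _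

theorem card_filter_modEq_le {y q : ℕ} (a : ℕ) :
    ((Icc 1 y).filter fun n => n ≡ a [MOD q]).card ≤ y / q + 1 := by
  rw [← card_range (y / q + 1)]
  refine card_le_card_of_injOn (fun n => n / q) (fun n hn => ?_) fun n hn n' hn' h => ?_
  · rw [mem_coe, mem_filter, mem_Icc] at hn
    rw [mem_coe, mem_range]
    exact Nat.lt_succ_of_le (Nat.div_le_div_right hn.1.2)
  · rw [mem_coe, mem_filter] at hn hn'
    rw [← Nat.div_add_mod n q, ← Nat.div_add_mod n' q]
    exact congrArg₂ (fun u v => q * u + v) h (hn.2.trans hn'.2.symm)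

theorem apErr_le {y q : ℕ} (hq : 0 < q) (hqy : q ≤ y) :
    apErr y q ≤ (2 * Real.log y + 2 ^ q.primeFactors.card) * ((y : ℝ) / q) := by
  have hq0 : (0 : ℝ) < q := Nat.cast_pos.2 hq
  have h1 : (1 : ℝ) ≤ (y : ℝ) / q := (one_le_div hq0).2 (Nat.cast_le.2 hqy)
  have hlog := Real.log_natCast_nonneg y
  rw [apErr, errAP]
  refine (abs_sub _ _).trans ?_
  rw [add_mul]
  refine add_le_add ?_ ?_
  · rw [abs_of_nonneg (sum_nonneg fun p _ => Real.log_natCast_nonneg p)]
    refine (sum_le_card_nsmul _ _ (Real.log y) fun p hp => ?_).trans ?_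
    · rw [mem_filter, mem_Icc] at hp
      exact Real.log_le_log (Nat.cast_pos.2 hp.1.1) (Nat.cast_le.2 hp.1.2)
    · rw [nsmul_eq_mul]
      have hcard := (card_le_card
        (t := (Icc 1 y).filter fun n => n ≡ (exists_worst y q).choose [MOD q])
        fun p (hp : p ∈ (Icc 1 y).filter fun p : ℕ =>
          p.Prime ∧ p ≡ (exists_worst y q).choose [MOD q]) =>
          mem_filter.2 ⟨(mem_filter.1 hp).1, (mem_filter.1 hp).2.2⟩).trans
          (card_filter_modEq_le _)
      refine le_trans (mul_le_mul_of_nonneg_right ((Nat.cast_le.2 hcard).trans ?_) hlog)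
        (le_of_eq (by ring : (2 * ((y : ℝ) / q)) * Real.log y = _))
      push_cast
      have : ((y / q : ℕ) : ℝ) ≤ (y : ℝ) / q := Nat.cast_div_le
      linarith
  · rw [abs_of_nonneg (by positivity)]
    refine le_trans (le_of_eq ?_) (mul_le_mul_of_nonneg_right (div_totient_le_two_pow hq)
      (by positivity))
    have : ((q.totient : ℕ) : ℝ) ≠ 0 := Nat.cast_ne_zero.2 (Nat.totient_pos.2 hq).ne'
    field_simp

theorem sq_sum_pairs {ι : Type*} (S : Finset ι) (θ : ℕ → ℝ) (T : Finset ℕ) (l : ι → ℝ)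
    (u : ι → ℕ → ℝ) :
    ∑ j ∈ T, θ j * (∑ d ∈ S, l d * u d j) ^ 2 =
      ∑ d ∈ S, ∑ e ∈ S, l d * l e * ∑ j ∈ T, θ j * (u d j * u e j) := by
  simp only [sq, sum_mul_sum]
  simp only [mul_sum]
  rw [sum_comm]
  refine sum_congr rfl fun d _ => ?_
  rw [sum_comm]
  exact sum_congr rfl fun e _ => sum_congr rfl fun j _ => by ring

theorem abs_sum_pairInd_sub_le {d e : Fin k → ℕ} (hd : d ∈ supp k D R) (he : e ∈ supp k D R)
    (N : ℕ) :
    |∑ j ∈ Ioc N (2 * N), pairInd D d e j - N * avgAll D R (pairInd D d e)| ≤ 1 := by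
  by_cases h : ∃ c₀, pairInd D d e c₀ ≠ 0
  · obtain ⟨c₀, h0⟩ := h
    rw [show pairInd D d e = fun c => if c ≡ c₀ [MOD pairMod d e] then (1 : ℝ) else 0 from
      funext (pairInd_eq hd he h0), avgAll_class (pairMod_dvd hd he), sum_boole, ← div_eq_mul_inv]
    exact abs_card_class_sub_le (Nat.pos_of_dvd_of_pos (pairMod_dvd hd he) modulus_pos) N c₀
  · push Not at h
    simp [avgAll, h]

/-- The bound for the coefficients, up to `2 ^ ω`. -/
def coeffBound (k D R : ℕ) : ℝ := (∑ a ∈ rough D R, 1 / (a.totient : ℝ)) ^ k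

theorem coeffBound_nonneg : 0 ≤ coeffBound k D R :=
  pow_nonneg (sum_nonneg fun a _ => by positivity) _

theorem abs_sieveCoeff_le_two_pow {g : ℕ → ℝ} (hg : ∀ a, |g a| ≤ 1) {d : Fin k → ℕ}
    (hd : d ∈ supp k D R) :
    |sieveCoeff D R g d| ≤ 2 ^ (∏ i, d i).primeFactors.card * coeffBound k D R :=
  (abs_sieveCoeff_le hg hd).trans (mul_le_mul_of_nonneg_right
    (div_totient_le_two_pow (prod_pos_of_supp hd)) coeffBound_nonneg)

/-- **The sum of `f²`.** -/
theorem sum_sq_le {g : ℕ → ℝ} (hg : ∀ a, |g a| ≤ 1) (N : ℕ) :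
    ∑ j ∈ Ioc N (2 * N), sieveSum D R g k j ^ 2 ≤
      N * avgAll D R (fun c => sieveSum D R g k c ^ 2) +
        ((R : ℝ) ^ 3 * (2 ^ k * coeffBound k D R)) ^ 2 := by
  obtain ⟨l, hl⟩ : ∃ l : (Fin k → ℕ) → ℝ, l = sieveCoeff D R g := ⟨_, rfl⟩
  have hsum : ∑ j ∈ Ioc N (2 * N), sieveSum D R g k j ^ 2 =
      ∑ d ∈ supp k D R, ∑ e ∈ supp k D R,
        l d * l e * ∑ j ∈ Ioc N (2 * N), pairInd D d e j := by
    have := sq_sum_pairs (supp k D R) (fun _ => 1) (Ioc N (2 * N)) l (dvdInd D)
    simp only [one_mul] at this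
    simp only [sieveSum_eq, hl, pairInd] at *
    exact this
  have havg : avgAll D R (fun c => sieveSum D R g k c ^ 2) =
      ∑ d ∈ supp k D R, ∑ e ∈ supp k D R, l d * l e * avgAll D R (pairInd D d e) := by
    have := sq_sum_pairs (supp k D R) (fun _ => 1) (range (modulus D R)) l (dvdInd D)
    simp only [one_mul] at this
    simp only [avgAll, sieveSum_eq, ← hl, this, sum_div, mul_div_assoc]
    simp only [pairInd, mul_div_assoc]
  rw [hsum, havg, mul_sum, ← sub_le_iff_le_add', ← sum_sub_distrib]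
  refine (sum_le_sum (g := fun d => ∑ e ∈ supp k D R, |l d| * |l e|) fun d hd => ?_).trans ?_
  · rw [mul_sum, ← sum_sub_distrib]
    refine sum_le_sum fun e he => ?_
    rw [mul_left_comm, ← mul_sub]
    refine (le_abs_self _).trans ?_
    rw [abs_mul, abs_mul]
    exact mul_le_of_le_one_right (mul_nonneg (abs_nonneg _) (abs_nonneg _))
      (abs_sum_pairInd_sub_le hd he N)
  rw [← sum_mul_sum, ← sq]
  refine pow_le_pow_left₀ (sum_nonneg fun d _ => abs_nonneg _) ?_ 2
  refine (sum_le_card_nsmul _ _ ((R : ℝ) * coeffBound k D R) fun d hd => ?_).trans ?_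
  · rw [hl]
    refine (abs_sieveCoeff_le hg hd).trans (mul_le_mul_of_nonneg_right ?_ coeffBound_nonneg)
    refine (div_le_self (Nat.cast_nonneg _) ?_).trans (Nat.cast_le.2 (mem_supp.1 hd).2.2)
    exact_mod_cast Nat.totient_pos.2 (prod_pos_of_supp hd)
  · rw [nsmul_eq_mul]
    refine (mul_le_mul_of_nonneg_right card_supp_le
      (mul_nonneg (Nat.cast_nonneg _) coeffBound_nonneg)).trans (le_of_eq ?_)
    ring

/-- **One pair against the primes.** -/
theorem abs_primeSum_sub_le (hk : AdmissibleTuple k D) {m : Fin k} {d e : Fin k → ℕ}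
    (hd : d ∈ supp k D R)
    (he : e ∈ supp k D R) {N : ℕ} (hRN : R ≤ N) :
    |∑ j ∈ Ioc N (2 * N), primeWeight D m j * pairInd D d e j -
        (D ! : ℕ) * N / ((D !).totient : ℕ) * avgAway D R m (pairInd D d e)| ≤
      apErr (form D m N) (D ! * pairMod d e) + apErr (form D m (2 * N)) (D ! * pairMod d e) := by
  classical
  obtain ⟨E, hE⟩ : ∃ E, E = apErr (form D m N) (D ! * pairMod d e) +
      apErr (form D m (2 * N)) (D ! * pairMod d e) := ⟨_, rfl⟩
  have hE0 : 0 ≤ E := hE ▸ add_nonneg (apErr_nonneg _ _) (apErr_nonneg _ _)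
  rw [← hE]
  have hW0 := Nat.factorial_pos D
  by_cases h : d m = 1 ∧ e m = 1 ∧ ∃ c₀, pairInd D d e c₀ ≠ 0
  · obtain ⟨hdm, hem, c₀, h0⟩ := h
    have hqdvd := pairMod_dvd hd he
    have hq0 : 0 < pairMod d e := Nat.pos_of_dvd_of_pos hqdvd modulus_pos
    have hdiv : (∀ i : Fin k, d i ∣ form D i c₀) ∧ ∀ i : Fin k, e i ∣ form D i c₀ := by
      simp only [pairInd, dvdInd, ne_eq, mul_eq_zero, not_or] at h0
      exact ⟨by by_contra h; exact h0.1 (if_neg h), by by_contra h; exact h0.2 (if_neg h)⟩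
    have hc : ∀ p ∈ (pairMod d e).primeFactors, ¬ p ∣ form D m c₀ := by
      intro p hp hpm
      have hmem : p ∈ midPrimes D R := by
        rw [← primeFactors_filter_mid hqdvd, mem_filter] at hp
        exact hp.1
      rw [Nat.mem_primeFactors] at hp
      have h2 : p ∣ ∏ i, d i ∨ p ∣ ∏ i, e i :=
        hp.1.dvd_mul.1 (hp.2.1.trans (Nat.lcm_dvd_mul _ _))
      rcases h2 with h2 | h2 <;> obtain ⟨i, -, hi⟩ := hp.1.prime.exists_mem_finset_dvd h2
      · refine not_two_hits (goodPrime hk hmem) (fun e => ?_) (hi.trans (hdiv.1 i)) hpm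
        exact hp.1.not_dvd_one (hdm ▸ e ▸ hi)
      · refine not_two_hits (goodPrime hk hmem) (fun e => ?_) (hi.trans (hdiv.2 i)) hpm
        exact hp.1.not_dvd_one (hem ▸ e ▸ hi)
    obtain ⟨a, ha⟩ : ∃ a, a = form D m c₀ := ⟨_, rfl⟩
    have hco : a.Coprime (D ! * pairMod d e) := by
      rw [ha]
      refine Nat.Coprime.mul_right ?_ ?_
      · exact form_coprime hk m c₀
      · refine Nat.coprime_of_dvd fun p hp h1 h2 => ?_
        exact hc p (Nat.mem_primeFactors.2 ⟨hp, h2, hq0.ne'⟩) h1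
    obtain ⟨Th, hTh⟩ : ∃ Th : ℕ → ℝ, Th = fun y => ∑ p ∈ (Icc 1 y).filter
        (fun p : ℕ => p.Prime ∧ p ≡ a [MOD D ! * pairMod d e]), Real.log (p : ℕ) := ⟨_, rfl⟩
    have hmono : form D m N ≤ form D m (2 * N) :=
      Nat.add_le_add_right (Nat.mul_le_mul_left _ (by omega)) _
    have hsum : ∑ j ∈ Ioc N (2 * N), primeWeight D m j * pairInd D d e j =
        Th (form D m (2 * N)) - Th (form D m N) := by
      have hIcc : Icc 1 (form D m (2 * N)) =
          Icc 1 (form D m N) ∪ Ioc (form D m N) (form D m (2 * N)) := by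
        ext n
        simp only [mem_Icc, mem_union, mem_Ioc]
        omega
      simp only [hTh]
      rw [hIcc, filter_union, sum_union (disjoint_filter_filter (disjoint_left.2 fun n h1 h2 => by
        rw [mem_Icc] at h1
        rw [mem_Ioc] at h2
        omega)), add_sub_cancel_left]
      simp only [primeWeight, pairInd_eq hd he h0, mul_ite, mul_one, mul_zero]
      rw [sum_congr rfl (g := fun j => if (form D m j).Prime ∧ j ≡ c₀ [MOD pairMod d e] then
        Real.log (form D m j : ℕ) else 0) fun j _ => by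
          by_cases h1 : (form D m j).Prime <;> by_cases h2 : j ≡ c₀ [MOD pairMod d e] <;>
            simp [h1, h2], ← sum_filter]
      refine sum_nbij (fun j => form D m j) (fun j hj => ?_) (fun j _ j' _ h => ?_) (fun n hn => ?_)
        fun j _ => rfl
      · simp only [mem_filter, mem_Ioc] at hj
        simp only [mem_filter, mem_Ioc, ha]
        refine ⟨⟨?_, ?_⟩, hj.2.1, (hj.2.2.mul_left' _).add_right _⟩
        · exact Nat.add_lt_add_right (Nat.mul_lt_mul_of_pos_left (by omega) hW0) _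
        · exact Nat.add_le_add_right (Nat.mul_le_mul_left _ (by omega)) _
      · simpa [form, hW0.ne'] using h
      · simp only [mem_coe, mem_filter, mem_Ioc] at hn
        obtain ⟨⟨hn1, hn2⟩, hnp, hna⟩ := hn
        have hnW : n ≡ shift m [MOD D !] := by
          refine (hna.of_dvd (dvd_mul_right _ _)).trans ?_
          rw [ha, form]
          exact Nat.modEq_iff_dvd.2 ⟨-((c₀ : ℕ) : ℤ), by push_cast; ring⟩
        have hge : shift m ≤ n := (Nat.le_add_left _ _).trans hn1.le
        obtain ⟨t, ht⟩ := (Nat.modEq_iff_dvd' hge).1 hnW.symm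
        have hn' : n = D ! * t + shift m := by omega
        rw [hn', form] at hn1 hn2
        have ht1 : N < t := Nat.lt_of_mul_lt_mul_left (Nat.lt_of_add_lt_add_right hn1)
        have ht2 : t ≤ 2 * N := Nat.le_of_mul_le_mul_left (Nat.le_of_add_le_add_right hn2) hW0
        refine ⟨t, ?_, ?_⟩
        · simp only [mem_coe, mem_filter, mem_Ioc]
          rw [form, ← hn']
          refine ⟨⟨ht1, ht2⟩, hnp, ?_⟩
          rw [hn', ha, form] at hna
          exact (Nat.ModEq.add_right_cancel' _ hna).mul_left_cancel' hW0.ne'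
        · simp only [form]
          exact hn'.symm
    have havg : avgAway D R m (pairInd D d e) = ((pairMod d e).totient : ℝ)⁻¹ := by
      rw [show pairInd D d e = fun c => if c ≡ c₀ [MOD pairMod d e] then (1 : ℝ) else 0 from
        funext (pairInd_eq hd he h0), avgAway_class hk hqdvd hc]
    have htot : ((D ! * pairMod d e).totient : ℝ) =
        ((D !).totient : ℝ) * ((pairMod d e).totient : ℝ) := by
      rw [Nat.totient_mul, Nat.cast_mul]
      refine Nat.Coprime.coprime_dvd_right hqdvd (Nat.Coprime.prod_right fun p hp => ?_)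
      have h1 := (mem_Ioc.1 (mem_filter.1 hp).1).1
      refine ((prime_of_mid p hp).coprime_iff_not_dvd.2 fun h => ?_).symm
      exact absurd ((prime_of_mid p hp).dvd_factorial.1 h) (not_le.2 h1)
    rw [hsum, havg, show (D ! : ℕ) * (N : ℝ) / ((D !).totient : ℕ) *
        ((pairMod d e).totient : ℝ)⁻¹ =
        ((form D m (2 * N) : ℕ) : ℝ) / ((D ! * pairMod d e).totient : ℕ) -
          ((form D m N : ℕ) : ℝ) / ((D ! * pairMod d e).totient : ℕ) by
      rw [htot, ← sub_div, form, form]
      push_cast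
      rw [← div_eq_mul_inv, div_div]
      congr 1
      ring]
    rw [hE, add_comm (apErr _ _)]
    refine le_trans (le_of_eq (congrArg abs ?_)) ((abs_sub _ _).trans
      (add_le_add (abs_errAP_le hco) (abs_errAP_le hco)))
    rw [errAP, errAP, hTh]
    ring
  · have h1 : ∀ j ∈ Ioc N (2 * N), primeWeight D m j * pairInd D d e j = 0 := by
      intro j hj
      by_cases hj0 : pairInd D d e j = 0
      · rw [hj0, mul_zero]
      rw [primeWeight, if_neg, zero_mul]
      intro hp
      have hbig : R < form D m j := by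
        rw [mem_Ioc] at hj
        rw [form]
        have := Nat.le_mul_of_pos_left j hW0
        omega
      have key : ∀ x : Fin k → ℕ, x ∈ supp k D R → (∀ i : Fin k, x i ∣ form D i j) → x m = 1 := by
        intro x hx hdv
        rcases hp.eq_one_or_self_of_dvd _ (hdv m) with h2 | h2
        · exact h2
        · have := (mem_rough.1 ((mem_supp.1 hx).1 m)).1.2
          omega
      simp only [pairInd, dvdInd, mul_eq_zero, not_or] at hj0
      exact h ⟨key d hd (by by_contra hh; exact hj0.1 (if_neg hh)),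
        key e he (by by_contra hh; exact hj0.2 (if_neg hh)), j, by
          simp only [pairInd, dvdInd, ne_eq, mul_eq_zero, not_or]
          exact hj0⟩
    have h2 : ∀ c, awayAll D R m c * pairInd D d e c = 0 := by
      intro c
      by_cases hc0 : pairInd D d e c = 0
      · rw [hc0, mul_zero]
      have key : ∀ x : Fin k → ℕ, x ∈ supp k D R → (∀ i : Fin k, x i ∣ form D i c) → x m ≠ 1 →
          awayAll D R m c = 0 := by
        intro x hx hdv hne
        obtain ⟨p, hp, hpd⟩ := Nat.exists_prime_and_dvd hne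
        refine prod_eq_zero (primeFactors_subset ((mem_supp.1 hx).1 m) (Nat.mem_primeFactors.2
          ⟨hp, hpd, Nat.one_le_iff_ne_zero.1 (mem_rough.1 ((mem_supp.1 hx).1 m)).1.1⟩)) ?_
        rw [away, hit, if_pos (hpd.trans (hdv m)), sub_self]
      have hor : d m ≠ 1 ∨ e m ≠ 1 := by
        by_contra hh
        push Not at hh
        exact h ⟨hh.1, hh.2, c, hc0⟩
      simp only [pairInd, dvdInd, mul_eq_zero, not_or] at hc0
      rcases hor with hne | hne
      · rw [key d hd (by by_contra hh; exact hc0.1 (if_neg hh)) hne, zero_mul]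
      · rw [key e he (by by_contra hh; exact hc0.2 (if_neg hh)) hne, zero_mul]
    simp only [avgAway, h2, sum_const_zero, zero_div, mul_zero, sum_eq_zero h1, sub_zero,
      abs_zero]
    exact hE0

theorem pairMod_mem_rough {d e : Fin k → ℕ} (hd : d ∈ supp k D R) (he : e ∈ supp k D R) :
    pairMod d e ∈ rough D (R ^ 2) := by
  refine mem_rough.2 ⟨⟨Nat.pos_of_dvd_of_pos (pairMod_dvd hd he) modulus_pos, pairMod_le hd he⟩,
    squarefree_modulus.squarefree_of_dvd (pairMod_dvd hd he), ?_⟩
  refine Nat.Coprime.coprime_dvd_left (pairMod_dvd hd he) (Nat.Coprime.prod_left fun p hp => ?_)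
  exact (prime_of_mid p hp).coprime_iff_not_dvd.2 fun h =>
    absurd ((prime_of_mid p hp).dvd_factorial.1 h) (not_le.2 (mem_Ioc.1 (mem_filter.1 hp).1).1)

theorem card_pairs_le {q : ℕ} (hq : Squarefree q) :
    ((supp k D R ×ˢ supp k D R).filter fun x => pairMod x.1 x.2 = q).card ≤
      ((2 ^ q.primeFactors.card) ^ k) ^ 2 := by
  have hdiv : q.divisors.card = 2 ^ q.primeFactors.card := by
    rw [Nat.card_divisors hq.ne_zero, prod_congr rfl fun p hp => by
      rw [Nat.factorization_eq_one_of_squarefree hq (Nat.prime_of_mem_primeFactors hp)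
        (Nat.dvd_of_mem_primeFactors hp)], prod_const]
  have hbox : (Fintype.piFinset fun _ : Fin k => q.divisors).card =
      (2 ^ q.primeFactors.card) ^ k := by
    rw [Fintype.card_piFinset, prod_const, card_univ, Fintype.card_fin, hdiv]
  rw [sq, ← hbox, ← card_product]
  refine card_le_card fun x hx => ?_
  rw [mem_filter, mem_product] at hx
  simp only [mem_product, Fintype.mem_piFinset, Nat.mem_divisors]
  exact ⟨fun i => ⟨hx.2 ▸ (dvd_prod_of_mem _ (mem_univ i)).trans (Nat.dvd_lcm_left _ _),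
    hq.ne_zero⟩, fun i => ⟨hx.2 ▸ (dvd_prod_of_mem _ (mem_univ i)).trans (Nat.dvd_lcm_right _ _),
      hq.ne_zero⟩⟩

theorem primeFactors_card_mul_le {a b : ℕ} (ha : a ≠ 0) (hb : b ≠ 0) :
    (a * b).primeFactors.card ≤ a.primeFactors.card + b.primeFactors.card := by
  rw [Nat.primeFactors_mul ha hb]
  exact card_union_le _ _

/-- **The sum of `θ f²`.** -/
theorem exists_sum_prime_sq_ge (hk : AdmissibleTuple k D) (m : Fin k) {g : ℕ → ℝ}
    (hg : ∀ a, |g a| ≤ 1)
    {N : ℕ} (hRN : R ≤ N) (hWR : D ! * R ^ 2 ≤ form D m N) :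
    ∃ E : ℝ, (D ! : ℕ) * N / ((D !).totient : ℕ) *
        avgAway D R m (fun c => sieveSum D R g k c ^ 2) - E ≤
          ∑ j ∈ Ioc N (2 * N), primeWeight D m j * sieveSum D R g k j ^ 2 ∧
      E ^ 2 ≤ coeffBound k D R ^ 4 *
        ((4 * Real.log (form D m (2 * N) : ℕ) + 2 * 2 ^ (D !).primeFactors.card) *
          (form D m (2 * N) : ℕ) *
          (∑ a ∈ Icc 1 (R ^ 2), ((a : ℕ) : ℝ)⁻¹) ^ (2 ^ (4 * k + 5))) *
        (∑ t ∈ Icc 1 (D ! * R ^ 2), apErr (form D m N) t +
          ∑ t ∈ Icc 1 (D ! * R ^ 2), apErr (form D m (2 * N)) t) := by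
  classical
  obtain ⟨l, hl⟩ : ∃ l : (Fin k → ℕ) → ℝ, l = sieveCoeff D R g := ⟨_, rfl⟩
  obtain ⟨F, hF⟩ : ∃ F : ℕ → ℝ, F = fun q => apErr (form D m N) (D ! * q) +
      apErr (form D m (2 * N)) (D ! * q) := ⟨_, rfl⟩
  obtain ⟨w, hw⟩ : ∃ w : ℕ → ℝ, w = fun q => coeffBound k D R ^ 2 *
      (2 : ℝ) ^ ((2 * k + 2) * q.primeFactors.card) := ⟨_, rfl⟩
  have hF0 : ∀ q, 0 ≤ F q := fun q => by
    rw [hF]; exact add_nonneg (apErr_nonneg _ _) (apErr_nonneg _ _)
  refine ⟨∑ q ∈ rough D (R ^ 2), w q * F q, ?_, ?_⟩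
  · have hsum : ∑ j ∈ Ioc N (2 * N), primeWeight D m j * sieveSum D R g k j ^ 2 =
        ∑ d ∈ supp k D R, ∑ e ∈ supp k D R,
          l d * l e * ∑ j ∈ Ioc N (2 * N), primeWeight D m j * pairInd D d e j := by
      simp only [sieveSum_eq, hl, pairInd]
      exact sq_sum_pairs _ _ _ _ _
    have havg : avgAway D R m (fun c => sieveSum D R g k c ^ 2) =
        ∑ d ∈ supp k D R, ∑ e ∈ supp k D R, l d * l e * avgAway D R m (pairInd D d e) := by
      simp only [avgAway, sieveSum_eq, hl, pairInd]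
      rw [sq_sum_pairs]
      simp only [sum_div, mul_div_assoc]
    rw [hsum, havg, mul_sum, sub_le_iff_le_add, ← sub_le_iff_le_add', ← sum_sub_distrib]
    refine (sum_le_sum (g := fun d => ∑ e ∈ supp k D R, |l d| * |l e| * F (pairMod d e))
      fun d hd => ?_).trans ?_
    · rw [mul_sum, ← sum_sub_distrib]
      refine sum_le_sum fun e he => ?_
      rw [mul_left_comm, ← mul_sub]
      refine (le_abs_self _).trans ?_
      rw [abs_mul, abs_mul, abs_sub_comm, hF]
      exact mul_le_mul_of_nonneg_left (abs_primeSum_sub_le hk hd he hRN)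
        (mul_nonneg (abs_nonneg _) (abs_nonneg _))
    rw [← sum_product' (f := fun d e => |l d| * |l e| * F (pairMod d e)),
      ← sum_fiberwise_of_maps_to (g := fun x : (Fin k → ℕ) × (Fin k → ℕ) => pairMod x.1 x.2)
        (t := rough D (R ^ 2)) fun x hx =>
          pairMod_mem_rough (mem_product.1 hx).1 (mem_product.1 hx).2]
    refine sum_le_sum fun q hq => ?_
    refine (sum_le_card_nsmul _ _
      ((coeffBound k D R * (2 : ℝ) ^ q.primeFactors.card) ^ 2 * F q) fun x hx => ?_).trans ?_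
    · rw [mem_filter, mem_product] at hx
      rw [hx.2, sq]
      refine mul_le_mul_of_nonneg_right (mul_le_mul ?_ ?_ (abs_nonneg _)
        (mul_nonneg coeffBound_nonneg (by positivity))) (hF0 q) <;>
      · rw [hl, mul_comm]
        refine (abs_sieveCoeff_le_two_pow hg (by first | exact hx.1.1 | exact hx.1.2)).trans
          (mul_le_mul_of_nonneg_right (pow_le_pow_right₀ one_le_two (card_le_card ?_))
            coeffBound_nonneg)
        refine Nat.primeFactors_mono ?_ (Nat.one_le_iff_ne_zero.1 (mem_rough.1 hq).1.1)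
        rw [← hx.2]
        first | exact Nat.dvd_lcm_left _ _ | exact Nat.dvd_lcm_right _ _
    · rw [nsmul_eq_mul, hw]
      refine le_trans (mul_le_mul_of_nonneg_right (Nat.cast_le.2
        (card_pairs_le (mem_rough.1 hq).2.1)) (mul_nonneg (sq_nonneg _) (hF0 q))) (le_of_eq ?_)
      push_cast
      ring
  · refine (sum_sq_le_sum_mul_sum_of_sq_le_mul (f := fun q => w q ^ 2 * F q) (g := F) _
      (fun q _ => mul_nonneg (sq_nonneg _) (hF0 q)) (fun q _ => hF0 q)
        fun q _ => le_of_eq (by ring)).trans ?_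
    have hnn : 0 ≤ ∑ a ∈ Icc 1 (R ^ 2), ((a : ℕ) : ℝ)⁻¹ := sum_nonneg fun a _ => by positivity
    refine mul_le_mul ?_ ?_ (sum_nonneg fun q _ => hF0 q) ?_
    · refine le_trans (sum_le_sum (g := fun q : ℕ => coeffBound k D R ^ 4 *
        ((4 * Real.log (form D m (2 * N) : ℕ) + 2 * 2 ^ (D !).primeFactors.card) *
          (form D m (2 * N) : ℕ)) *
        (((2 ^ (4 * k + 5) : ℕ) : ℝ) ^ q.primeFactors.card / (q : ℕ))) fun q hq => ?_) ?_
      · obtain ⟨⟨hq1, hq2⟩, -, -⟩ := mem_rough.1 hq
        have hWq : 0 < D ! * q := Nat.mul_pos (Nat.factorial_pos D) hq1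
        obtain ⟨x, hx⟩ : ∃ x, x = form D m (2 * N) := ⟨_, rfl⟩
        have hNx : form D m N ≤ x :=
          hx ▸ Nat.add_le_add_right (Nat.mul_le_mul_left _ (by omega)) _
        have hle : D ! * q ≤ form D m N := (Nat.mul_le_mul_left _ hq2).trans hWR
        obtain ⟨c, hc⟩ : ∃ c : ℝ, c = 2 * Real.log x + 2 ^ (D !).primeFactors.card := ⟨_, rfl⟩
        have hlogx := Real.log_natCast_nonneg x
        have hc0 : 0 ≤ c := hc ▸ by positivity
        have hy : ∀ y, D ! * q ≤ y → y ≤ x →
            apErr y (D ! * q) ≤ c * 2 ^ q.primeFactors.card * ((x : ℝ) / q) := by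
          intro y h1 h2
          refine (apErr_le hWq h1).trans (mul_le_mul ?_ ?_ (by positivity)
            (mul_nonneg hc0 (by positivity)))
          · rw [hc, add_mul, ← pow_add]
            refine add_le_add ?_ (pow_le_pow_right₀ one_le_two
              (primeFactors_card_mul_le (Nat.factorial_pos D).ne'
                (Nat.one_le_iff_ne_zero.1 hq1)))
            refine le_trans ?_ (le_mul_of_one_le_right (by positivity) (one_le_pow₀ one_le_two))
            exact mul_le_mul_of_nonneg_left (Real.log_le_log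
              (Nat.cast_pos.2 (hWq.trans_le h1)) (Nat.cast_le.2 h2)) two_pos.le
          · exact div_le_div₀ (Nat.cast_nonneg x) (Nat.cast_le.2 h2) (Nat.cast_pos.2 hq1)
              (Nat.cast_le.2 (Nat.le_mul_of_pos_left q (Nat.factorial_pos D)))
        have hF2 : F q ≤ 2 * (c * 2 ^ q.primeFactors.card * ((x : ℝ) / q)) := by
          simp only [hF, ← hx]
          linarith [hy _ hle hNx, hy _ (hle.trans hNx) le_rfl]
        rw [← hx]
        refine (mul_le_mul_of_nonneg_left hF2 (sq_nonneg _)).trans (le_of_eq ?_)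
        simp only [hw, hc]
        push_cast
        rw [← pow_mul]
        ring
      · rw [← mul_sum]
        refine (mul_le_mul_of_nonneg_left (sum_rough_omega_le _) ?_).trans (le_of_eq (by ring))
        have := Real.log_natCast_nonneg (form D m (2 * N))
        have := coeffBound_nonneg (k := k) (D := D) (R := R)
        positivity
    · rw [hF, sum_add_distrib]
      refine add_le_add ?_ ?_ <;>
      · refine le_trans (le_of_eq (sum_image fun q _ q' _ h =>
          Nat.eq_of_mul_eq_mul_left (Nat.factorial_pos D) h).symm)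
          (sum_le_sum_of_subset_of_nonneg (fun t ht => ?_) fun t _ _ => apErr_nonneg _ _)
        obtain ⟨q, hq, rfl⟩ := mem_image.1 ht
        exact mem_Icc.2 ⟨Nat.mul_pos (Nat.factorial_pos D) (mem_rough.1 hq).1.1,
          Nat.mul_le_mul_left _ (mem_rough.1 hq).1.2⟩
    · have := Real.log_natCast_nonneg (form D m (2 * N))
      exact mul_nonneg (pow_nonneg coeffBound_nonneg _) (by positivity)

end FA.BoundedGaps
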