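import Mathlib.NumberTheory.Harmonic.Bounds
import Mathlib.Analysis.Complex.Exponential
import Mathlib.Analysis.SpecialFunctions.Log.Basic
import Mathlib.Data.Nat.Squarefree
import Mathlib.Data.Nat.Totient
import Mathlib.Data.Nat.Prime.Factorial
import Mathlib.Analysis.PSeries
import Mathlib.Analysis.Complex.ExponentialBounds
import Mathlib.Tactic

/-!
# Sums over squarefree numbers free of small primes

With `W = D!` and `δ = φ W / W`, the sum of `1 / a` over squarefree `a ≤ exp t` prime to `W` is at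
least `(1 - 1 / D) δ t - O (1)`, and with a weight `∏ (1 + C / p)` it is at most
`exp (C / D) δ t + O (1)`.
-/

set_option autoImplicit false

noncomputable section

namespace FA.BoundedGaps

open Finset
open scoped Nat

/-- `φ (D!) / D!`. -/
def density (D : ℕ) : ℝ := (D !).totient / (D ! : ℕ)

theorem density_pos (D : ℕ) : 0 < density D :=
  div_pos (Nat.cast_pos.2 (Nat.totient_pos.2 (Nat.factorial_pos D)))
    (Nat.cast_pos.2 (Nat.factorial_pos D))

theorem density_le_one (D : ℕ) : density D ≤ 1 :=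
  div_le_one_of_le₀ (Nat.cast_le.2 (Nat.totient_le _)) (Nat.cast_nonneg _)

/-- The squarefree numbers `≤ R` without a prime factor `≤ D`. -/
def rough (D R : ℕ) : Finset ℕ :=
  (Icc 1 R).filter fun a => Squarefree a ∧ a.Coprime D !

/-- The primes in `(D, R]`. -/
def midPrimes (D R : ℕ) : Finset ℕ := (Ioc D R).filter Nat.Prime

theorem mem_rough {D R a : ℕ} :
    a ∈ rough D R ↔ (1 ≤ a ∧ a ≤ R) ∧ Squarefree a ∧ a.Coprime D ! := by
  simp [rough]

theorem one_mem_rough {D R : ℕ} (hR : 1 ≤ R) : 1 ∈ rough D R :=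
  mem_rough.2 ⟨⟨le_rfl, hR⟩, squarefree_one, Nat.coprime_one_left _⟩

theorem lt_of_prime_dvd_coprime {D a p : ℕ} (h : a.Coprime D !) (hp : p.Prime) (hpa : p ∣ a) :
    D < p := by
  by_contra hle
  exact (hp.dvd_iff_not_coprime.1 ((Nat.Prime.dvd_factorial hp).2 (not_lt.1 hle)))
    (h.coprime_dvd_left hpa)

theorem primeFactors_subset {D R a : ℕ} (ha : a ∈ rough D R) :
    a.primeFactors ⊆ midPrimes D R := by
  rw [mem_rough] at ha
  intro p hp
  rw [Nat.mem_primeFactors] at hp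
  rw [midPrimes, mem_filter, mem_Ioc]
  exact ⟨⟨lt_of_prime_dvd_coprime ha.2.2 hp.1 hp.2.1,
    (Nat.le_of_dvd ha.1.1 hp.2.1).trans ha.1.2⟩, hp.1⟩

theorem sum_midPrimes_inv_sq_le {D R : ℕ} (hD : 1 ≤ D) :
    ∑ p ∈ midPrimes D R, ((p : ℝ) ^ 2)⁻¹ ≤ (D : ℝ)⁻¹ := by
  refine (sum_le_sum_of_subset_of_nonneg (t := Ioc D (max D R)) (fun p hp => ?_)
    fun p _ _ => by positivity).trans
      ((sum_Ioc_inv_sq_le_sub (by omega) (le_max_left _ _)).trans (by simp))
  rw [midPrimes, mem_filter, mem_Ioc] at hp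
  rw [mem_Ioc]
  exact ⟨hp.1.1, hp.1.2.trans (le_max_right _ _)⟩

theorem card_block (D b : ℕ) :
    ((Ico (b * D !) ((b + 1) * D !)).filter fun n => n.Coprime D !).card = (D !).totient := by
  rw [add_mul, one_mul, ← Nat.filter_coprime_Ico_eq_totient (D !) (b * D !)]
  congr 1
  ext n
  simp [Nat.coprime_comm]

/-- **Harmonic sums prime to `W`**, from above. -/
theorem sum_coprime_le (D y : ℕ) :
    ∑ n ∈ (Icc 1 y).filter (fun n => n.Coprime D !), (n : ℝ)⁻¹ ≤
      density D * (1 + Real.log y) + (D ! : ℕ) := by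
  obtain ⟨W, hW⟩ : ∃ W, W = D ! := ⟨_, rfl⟩
  rw [density, ← hW]
  have hW0 : 0 < W := hW ▸ Nat.factorial_pos D
  have key : ∀ B : ℕ, 1 ≤ B →
      ∑ n ∈ (Ico 1 (B * W)).filter (fun n => n.Coprime W), (n : ℝ)⁻¹ ≤
        (W : ℕ) + (W.totient : ℝ) / W * ∑ b ∈ Ico 1 B, (b : ℝ)⁻¹ := by
    intro B hB
    induction B, hB using Nat.le_induction with
    | base =>
      rw [one_mul, Ico_self, sum_empty, mul_zero, add_zero]
      refine (sum_le_card_nsmul _ _ (1 : ℝ) fun n hn => ?_).trans ?_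
      · rw [mem_filter, mem_Ico] at hn
        exact inv_le_one_of_one_le₀ (by exact_mod_cast hn.1.1)
      · rw [nsmul_one]
        refine Nat.cast_le.2 ((card_filter_le _ _).trans ?_)
        simp
    | succ B hB ih =>
      have h1 : 1 ≤ B * W := Nat.mul_pos hB hW0
      have h2 : B * W ≤ (B + 1) * W := Nat.mul_le_mul_right W (Nat.le_succ B)
      rw [← Ico_union_Ico_eq_Ico h1 h2, filter_union,
        sum_union (disjoint_filter_filter (Ico_disjoint_Ico_consecutive _ _ _)),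
        sum_Ico_succ_top hB, mul_add, ← add_assoc]
      refine add_le_add ih ((sum_le_card_nsmul _ _ (((B * W : ℕ) : ℝ))⁻¹ fun n hn => ?_).trans ?_)
      · rw [mem_filter, mem_Ico] at hn
        exact inv_anti₀ (Nat.cast_pos.2 h1) (Nat.cast_le.2 hn.1.1)
      · rw [hW, card_block, ← hW, nsmul_eq_mul, Nat.cast_mul, mul_inv, div_eq_mul_inv]
        exact le_of_eq (by ring)
  obtain ⟨B, hB⟩ : ∃ B, B = y / W + 1 := ⟨_, rfl⟩
  have hyB : y < B * W := by
    have := Nat.lt_div_mul_add (a := y) hW0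
    rw [hB, add_mul, one_mul]
    exact this
  refine (sum_le_sum_of_subset_of_nonneg (filter_subset_filter _ (fun n hn => ?_))
    fun n _ _ => by positivity).trans ((key B (hB ▸ Nat.succ_pos _)).trans ?_)
  · rw [mem_Icc] at hn
    rw [mem_Ico]
    omega
  rw [add_comm]
  refine add_le_add (mul_le_mul_of_nonneg_left ?_ (by positivity)) le_rfl
  refine le_trans (sum_le_sum_of_subset_of_nonneg (t := Icc 1 y) (fun b hb => ?_)
    fun b _ _ => by positivity) ?_
  · rw [mem_Ico] at hb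
    rw [mem_Icc]
    have := Nat.div_le_self y W
    omega
  · have := harmonic_le_one_add_log y
    rw [harmonic_eq_sum_Icc] at this
    push_cast at this
    exact this

/-- **Harmonic sums prime to `W`**, from below. -/
theorem le_sum_coprime (D y : ℕ) (hy : 1 ≤ y) :
    density D * (Real.log y - Real.log (D ! : ℕ)) ≤
      ∑ n ∈ (Icc 1 y).filter (fun n => n.Coprime D !), (n : ℝ)⁻¹ := by
  obtain ⟨W, hW⟩ : ∃ W, W = D ! := ⟨_, rfl⟩
  rw [density, ← hW]
  have hW0 : 0 < W := hW ▸ Nat.factorial_pos D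
  have key : ∀ B : ℕ, (W.totient : ℝ) / W * ∑ b ∈ Icc 1 B, (b : ℝ)⁻¹ ≤
      ∑ n ∈ (Icc 1 (B * W)).filter (fun n => n.Coprime W), (n : ℝ)⁻¹ := by
    intro B
    induction B with
    | zero => simp
    | succ B ih =>
      have hIcc : Icc 1 ((B + 1) * W) = Icc 1 (B * W) ∪ Ioc (B * W) ((B + 1) * W) := by
        ext n
        simp only [mem_Icc, mem_union, mem_Ioc, add_mul, one_mul]
        omega
      rw [hIcc, filter_union, sum_union (disjoint_filter_filter (disjoint_left.2 fun n h1 h2 => by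
        rw [mem_Icc] at h1
        rw [mem_Ioc] at h2
        omega)), sum_Icc_succ_top (by omega), mul_add]
      refine add_le_add ih ?_
      refine le_trans ?_ (card_nsmul_le_sum _ _ ((((B + 1) * W : ℕ) : ℝ))⁻¹ fun n hn => ?_)
      · have hc : ((Ioc (B * W) ((B + 1) * W)).filter fun n => n.Coprime W).card = W.totient := by
          rw [show Ioc (B * W) ((B + 1) * W) = Ico (B * W + 1) (B * W + 1 + W) by
            ext n; simp only [mem_Ioc, mem_Ico, add_mul, one_mul]; omega,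
            ← Nat.filter_coprime_Ico_eq_totient W (B * W + 1)]
          congr 1
          ext n
          simp [Nat.coprime_comm]
        rw [hc, nsmul_eq_mul, Nat.cast_mul, mul_inv, div_eq_mul_inv]
        exact le_of_eq (by ring)
      · rw [mem_filter, mem_Ioc] at hn
        exact inv_anti₀ (Nat.cast_pos.2 (by omega)) (Nat.cast_le.2 hn.1.2)
  refine le_trans ?_ (le_trans (key (y / W)) (sum_le_sum_of_subset_of_nonneg
    (filter_subset_filter _ (Icc_subset_Icc_right (Nat.div_mul_le_self y W)))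
    fun n _ _ => by positivity))
  refine mul_le_mul_of_nonneg_left ?_ (by positivity)
  have h1 := log_add_one_le_harmonic (y / W)
  rw [harmonic_eq_sum_Icc] at h1
  push_cast at h1
  refine le_trans ?_ h1
  rw [← Real.log_div (Nat.cast_ne_zero.2 (by omega)) (Nat.cast_ne_zero.2 hW0.ne')]
  refine Real.log_le_log (by positivity) ?_
  rw [div_le_iff₀ (Nat.cast_pos.2 hW0)]
  have := Nat.lt_div_mul_add (a := y) hW0
  exact_mod_cast (show y ≤ (y / W + 1) * W by rw [add_mul, one_mul]; omega)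

theorem le_floor_exp_iff {a : ℕ} (ha : 1 ≤ a) (t : ℝ) :
    a ≤ ⌊Real.exp t⌋₊ ↔ Real.log a ≤ t := by
  rw [Nat.le_floor_iff (Real.exp_pos t).le, Real.log_le_iff_le_exp (Nat.cast_pos.2 ha)]

/-- **Squarefree numbers**, from below. -/
theorem le_sum_rough {D R : ℕ} {t : ℝ} (hD : 1 ≤ D) (ht : 0 ≤ t) (htR : Real.exp t ≤ R) :
    (1 - (D : ℝ)⁻¹) * (density D * t) - (3 * (D ! : ℕ) + 2) ≤
      ∑ a ∈ rough D R, if Real.log a ≤ t then (a : ℝ)⁻¹ else 0 := by
  obtain ⟨y, hy⟩ : ∃ y, y = ⌊Real.exp t⌋₊ := ⟨_, rfl⟩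
  have hy1 : 1 ≤ y := hy ▸ Nat.le_floor (by simpa using Real.one_le_exp ht)
  have hyR : y ≤ R := hy ▸ Nat.floor_le_of_le htR
  obtain ⟨T, hT⟩ : ∃ T, T = (Icc 1 y).filter fun n => n.Coprime D ! := ⟨_, rfl⟩
  obtain ⟨U, hU⟩ : ∃ U, U = density D * (1 + t) + (D ! : ℕ) := ⟨_, rfl⟩
  have hlogy : Real.log y ≤ t := (le_floor_exp_iff hy1 t).1 hy.le
  have hlogy2 : t - 1 ≤ Real.log y := by
    have h1 := Nat.lt_floor_add_one (Real.exp t)
    rw [← hy] at h1
    have h2 : (1 : ℝ) ≤ y := by exact_mod_cast hy1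
    have h3 := Real.log_le_log (Real.exp_pos t) (show Real.exp t ≤ 2 * y by linarith)
    rw [Real.log_exp, Real.log_mul two_ne_zero (by positivity)] at h3
    linarith [Real.log_two_lt_d9]
  have hWlog : Real.log (D ! : ℕ) ≤ (D ! : ℕ) := Real.log_le_self (Nat.cast_nonneg _)
  have h1 : ∑ n ∈ T.filter (fun n => ¬ Squarefree n), (n : ℝ)⁻¹ ≤ (D : ℝ)⁻¹ * U := by
    refine le_trans (sum_le_sum (g := fun n : ℕ => ∑ p ∈ midPrimes D y,
      if p ^ 2 ∣ n then (n : ℝ)⁻¹ else 0) fun n hn => ?_) ?_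
    · rw [hT, mem_filter, mem_filter, mem_Icc, Nat.squarefree_iff_prime_squarefree] at hn
      obtain ⟨⟨hn1, hn2⟩, hn3⟩ := hn
      push Not at hn3
      obtain ⟨p, hp, hpn⟩ := hn3
      refine le_trans ?_ (single_le_sum (a := p) (fun q _ => by positivity) ?_)
      · rw [if_pos (by rwa [sq])]
      · rw [midPrimes, mem_filter, mem_Ioc]
        exact ⟨⟨lt_of_prime_dvd_coprime hn2 hp (dvd_trans (dvd_mul_right p p) hpn),
          (Nat.le_of_dvd hn1.1 (dvd_trans (dvd_mul_right p p) hpn)).trans hn1.2⟩, hp⟩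
    rw [sum_comm]
    refine le_trans (sum_le_sum (g := fun p : ℕ => ((p : ℝ) ^ 2)⁻¹ * U) fun p hp => ?_) ?_
    · rw [midPrimes, mem_filter] at hp
      have hp0 : 0 < p ^ 2 := pow_pos hp.2.pos 2
      rw [← sum_filter]
      refine le_trans (sum_le_sum_of_subset_of_nonneg
        (t := T.image (p ^ 2 * ·)) (fun n hn => ?_) fun n _ _ => by positivity) ?_
      · rw [mem_filter, mem_filter, hT, mem_filter, mem_Icc] at hn
        obtain ⟨j, rfl⟩ := hn.2
        refine mem_image.2 ⟨j, ?_, rfl⟩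
        rw [hT, mem_filter, mem_Icc]
        exact ⟨⟨Nat.pos_of_mul_pos_left hn.1.1.1.1,
          (Nat.le_mul_of_pos_left j hp0).trans hn.1.1.1.2⟩,
            hn.1.1.2.coprime_dvd_left (dvd_mul_left j _)⟩
      rw [sum_image fun x _ z _ h => Nat.eq_of_mul_eq_mul_left hp0 h]
      push_cast
      simp only [mul_inv]
      rw [← mul_sum, hT]
      refine mul_le_mul_of_nonneg_left ((sum_coprime_le D y).trans ?_) (by positivity)
      rw [hU]
      exact add_le_add (mul_le_mul_of_nonneg_left (by linarith) (density_pos D).le) le_rfl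
    · rw [← sum_mul]
      exact mul_le_mul_of_nonneg_right (sum_midPrimes_inv_sq_le hD)
        (hU ▸ add_nonneg (mul_nonneg (density_pos D).le (by linarith)) (Nat.cast_nonneg _))
  have h2 := le_sum_coprime D y hy1
  rw [← hT, ← sum_filter_add_sum_filter_not T Squarefree] at h2
  have h3 : ∑ n ∈ T.filter Squarefree, (n : ℝ)⁻¹ ≤
      ∑ a ∈ rough D R, if Real.log a ≤ t then (a : ℝ)⁻¹ else 0 := by
    rw [← sum_filter]
    refine sum_le_sum_of_subset_of_nonneg (fun n hn => ?_) fun n _ _ => by positivity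
    rw [hT, mem_filter, mem_filter, mem_Icc] at hn
    rw [mem_filter, mem_rough]
    exact ⟨⟨⟨hn.1.1.1, hn.1.1.2.trans hyR⟩, hn.2, hn.1.2⟩,
      (le_floor_exp_iff hn.1.1.1 t).1 (hy ▸ hn.1.1.2)⟩
  have hδ := density_pos D
  have hδ1 := density_le_one D
  have hDinv : (D : ℝ)⁻¹ ≤ 1 := inv_le_one_of_one_le₀ (by exact_mod_cast hD)
  have hDinv0 : 0 ≤ (D : ℝ)⁻¹ := by positivity
  have h4 := mul_le_mul_of_nonneg_left hlogy2 hδ.le
  have h5 := mul_le_mul_of_nonneg_left hWlog hδ.le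
  have h6 := mul_le_mul_of_nonneg_right hδ1 (Nat.cast_nonneg (α := ℝ) (D !))
  have h7 := mul_le_mul hDinv hδ1 hδ.le zero_le_one
  have h8 := mul_le_mul_of_nonneg_right hDinv (Nat.cast_nonneg (α := ℝ) (D !))
  rw [hU] at h1
  linarith

/-- The weight `∏_{p ∣ a} (1 + C / p)`. -/
def cw (C : ℝ) (a : ℕ) : ℝ := ∏ p ∈ a.primeFactors, (1 + C / p)

theorem one_le_cw {C : ℝ} (hC : 0 ≤ C) (a : ℕ) : 1 ≤ cw C a :=
  one_le_prod fun p _ => le_add_of_nonneg_right (by positivity)

theorem cw_mono {C C' : ℝ} (hC : 0 ≤ C) (h : C ≤ C') (a : ℕ) : cw C a ≤ cw C' a :=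
  prod_le_prod (fun p _ => by positivity) fun p _ =>
    add_le_add le_rfl (div_le_div_of_nonneg_right h (Nat.cast_nonneg p))

/-- **Squarefree numbers with a weight**, from above. -/
theorem sum_rough_cw_le {D R : ℕ} {t C : ℝ} (hD : 1 ≤ D) (ht : 0 ≤ t) (hC : 0 ≤ C) :
    ∑ a ∈ rough D R, (if Real.log a ≤ t then cw C a / a else 0) ≤
      Real.exp (C / D) * (density D * (1 + t) + (D ! : ℕ)) := by
  classical
  obtain ⟨U, hU⟩ : ∃ U, U = density D * (1 + t) + (D ! : ℕ) := ⟨_, rfl⟩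
  have hU0 : 0 ≤ U :=
    hU ▸ add_nonneg (mul_nonneg (density_pos D).le (by linarith)) (Nat.cast_nonneg _)
  rw [← hU]
  obtain ⟨A, hA⟩ : ∃ A, A = (rough D R).filter fun a : ℕ => Real.log a ≤ t := ⟨_, rfl⟩
  rw [← sum_filter, ← hA]
  have hexp : ∀ a ∈ A, cw C a / a = ∑ T ∈ (midPrimes D R).powerset,
      if T ⊆ a.primeFactors then (∏ p ∈ T, C / (p : ℝ)) / a else 0 := by
    intro a ha
    rw [hA, mem_filter] at ha
    rw [cw, prod_one_add, sum_div, ← sum_filter]
    refine sum_congr ?_ fun T _ => rfl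
    ext T
    simp only [mem_powerset, mem_filter]
    exact ⟨fun h => ⟨h.trans (primeFactors_subset ha.1), h⟩, fun h => h.2⟩
  rw [sum_congr rfl hexp, sum_comm]
  refine le_trans (sum_le_sum (g := fun T : Finset ℕ => (∏ p ∈ T, C / (p : ℝ) ^ 2) * U)
    fun T hT => ?_) ?_
  · rw [mem_powerset] at hT
    obtain ⟨d, hd⟩ : ∃ d : ℕ, d = ∏ p ∈ T, p := ⟨_, rfl⟩
    have hprimes : ∀ p ∈ T, p.Prime := fun p hp => (mem_filter.1 (hT hp)).2
    have hd0 : 0 < d := hd ▸ prod_pos fun p hp => (hprimes p hp).pos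
    rw [← sum_filter]
    refine le_trans (sum_le_sum_of_subset_of_nonneg
      (t := ((Icc 1 ⌊Real.exp t⌋₊).filter fun n => n.Coprime D !).image (d * ·)) (fun a ha => ?_)
        fun a _ _ => div_nonneg (prod_nonneg fun p _ => by positivity) (Nat.cast_nonneg a)) ?_
    · rw [hA, mem_filter, mem_filter, mem_rough] at ha
      obtain ⟨⟨⟨⟨ha1, -⟩, hsq, hco⟩, hlog⟩, hTa⟩ := ha
      have hdvd : d ∣ a := by
        rw [hd]
        exact (prod_dvd_prod_of_subset _ _ _ hTa).trans a.prod_primeFactors_dvd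
      obtain ⟨j, rfl⟩ := hdvd
      refine mem_image.2 ⟨j, ?_, rfl⟩
      rw [mem_filter, mem_Icc]
      have hj : 0 < j := Nat.pos_of_mul_pos_left ha1
      refine ⟨⟨hj, (le_floor_exp_iff hj t).2 ?_⟩, hco.coprime_dvd_left (dvd_mul_left j d)⟩
      refine le_trans (Real.log_le_log (Nat.cast_pos.2 hj) ?_) hlog
      exact_mod_cast Nat.le_mul_of_pos_left j hd0
    rw [sum_image fun x _ z _ h => Nat.eq_of_mul_eq_mul_left hd0 h]
    push_cast
    simp only [div_eq_mul_inv (∏ p ∈ T, C / (p : ℝ)), mul_inv, ← mul_assoc]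
    rw [← mul_sum]
    refine mul_le_mul (le_of_eq ?_) ?_ (sum_nonneg fun n _ => by positivity)
      (prod_nonneg fun p _ => by positivity)
    · rw [hd, Nat.cast_prod, ← prod_inv_distrib, ← prod_mul_distrib]
      exact prod_congr rfl fun p _ => by ring
    · refine (sum_coprime_le D _).trans ?_
      rw [hU]
      refine add_le_add (mul_le_mul_of_nonneg_left ?_ (density_pos D).le) le_rfl
      have hf : 1 ≤ ⌊Real.exp t⌋₊ := Nat.le_floor (by simpa using Real.one_le_exp ht)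
      linarith [(le_floor_exp_iff hf t).1 le_rfl]
  · rw [← sum_mul, ← prod_one_add]
    refine mul_le_mul_of_nonneg_right
      ((Real.prod_one_add_le_exp_sum _ fun p => by positivity).trans (Real.exp_le_exp.2 ?_)) hU0
    simp only [div_eq_mul_inv]
    rw [← mul_sum]
    exact mul_le_mul_of_nonneg_left (sum_midPrimes_inv_sq_le hD) hC

theorem inv_totient_le_cw {D R a : ℕ} (hD : 2 ≤ D) (ha : a ∈ rough D R) :
    1 / (a.totient : ℝ) ≤ cw 2 a / a := by
  have hprim : ∀ p ∈ a.primeFactors, p.Prime := fun p hp => Nat.prime_of_mem_primeFactors hp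
  have hsq := (mem_rough.1 ha).2.1
  have hpa := Nat.prod_primeFactors_of_squarefree hsq
  have htot : a.totient = ∏ p ∈ a.primeFactors, (p - 1) := by
    have h1 := Nat.totient_eq_div_primeFactors_mul a
    rwa [hpa, Nat.div_self (mem_rough.1 ha).1.1, one_mul] at h1
  rw [cw, htot, Nat.cast_prod, one_div, ← prod_inv_distrib]
  conv_rhs => arg 2; rw [← hpa, Nat.cast_prod]
  rw [← prod_div_distrib]
  refine prod_le_prod (fun p _ => by positivity) fun p hp => ?_
  have hp3 : 3 ≤ p := by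
    have := mem_Ioc.1 (mem_filter.1 (primeFactors_subset ha hp)).1
    omega
  have hp' : (3 : ℝ) ≤ p := by exact_mod_cast hp3
  rw [Nat.cast_sub (by omega), Nat.cast_one, inv_eq_one_div, div_le_div_iff₀ (by linarith)
    (by linarith), one_mul, add_mul, one_mul, div_mul_eq_mul_div, ← sub_le_iff_le_add',
    le_div_iff₀ (by linarith)]
  nlinarith

end FA.BoundedGaps
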