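import Fermat.Agent.BoundedGaps.HitMoment
import Fermat.Agent.BoundedGaps.Main
import Fermat.Agent.ErdosKac.Mertens

/-!
# Counting the almost prime tuples with many primes

At least `c N / (log N) ^ k` of the `j` in `(N, 2 N]` make more than `m₀` of the forms prime and
leave all of them without a prime factor below a fixed power of `N`: the part of `∑ f²` with a
small prime factor is negligible, and `f` is `O ((log R) ^ k)` on the rest.
-/

set_option autoImplicit false
set_option linter.unusedSectionVars false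

noncomputable section

namespace FA.BoundedGaps

open Finset Filter
open scoped Nat Topology

variable [Shifts]

variable {k D R : ℕ}

theorem hit_eq_class (hk : AdmissibleTuple k D) {p : ℕ} (hp : p ∈ midPrimes D R) (i : Fin k)
    {c₀ : ℕ} (h0 : p ∣ form D i c₀) (c : ℕ) : hit D p i c = if c ≡ c₀ [MOD p] then 1 else 0 := by
  obtain ⟨r, -, huniq⟩ := exists_root (goodPrime hk hp) (i : ℕ)
  have hp0 := (prime_of_mid p hp).pos
  have key : ∀ {b : ℕ}, p ∣ form D i b → b % p = r := fun {b} hb =>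
    huniq _ ⟨mem_range.2 (Nat.mod_lt _ hp0), ((form_mod D p i b).dvd_iff (dvd_refl p)).2 hb⟩
  have hiff : p ∣ form D i c ↔ c ≡ c₀ [MOD p] :=
    ⟨fun h => (key h).trans (key h0).symm,
      fun h => (((h.mul_left (D !)).add_right (shift i)).dvd_iff (dvd_refl p)).2 h0⟩
  simp only [hit, hiff]

theorem abs_sum_hit_pairInd_sub_le (hk : AdmissibleTuple k D) {p : ℕ} (hp : p ∈ midPrimes D R)
    (i : Fin k)
    {d e : Fin k → ℕ} (hd : d ∈ supp k D R) (he : e ∈ supp k D R) (N : ℕ) :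
    |∑ j ∈ Ioc N (2 * N), hit D p i j * pairInd D d e j -
      N * avgAll D R (fun c => hit D p i c * pairInd D d e c)| ≤ 1 := by
  by_cases h : ∃ c₀, hit D p i c₀ * pairInd D d e c₀ ≠ 0
  · obtain ⟨c₀, h0⟩ := h
    obtain ⟨h1, h2⟩ := mul_ne_zero_iff.1 h0
    have hdiv : p ∣ form D i c₀ := by
      by_contra hh
      exact h1 (by rw [hit, if_neg hh])
    have hq : Nat.lcm p (pairMod d e) ∣ modulus D R :=
      Nat.lcm_dvd (dvd_prod_of_mem (fun q => q) hp) (pairMod_dvd hd he)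
    have hfun : ∀ c, hit D p i c * pairInd D d e c =
        if c ≡ c₀ [MOD Nat.lcm p (pairMod d e)] then (1 : ℝ) else 0 := by
      intro c
      have hiff : c ≡ c₀ [MOD Nat.lcm p (pairMod d e)] ↔
          c ≡ c₀ [MOD p] ∧ c ≡ c₀ [MOD pairMod d e] :=
        ⟨fun h => ⟨h.of_dvd (Nat.dvd_lcm_left _ _), h.of_dvd (Nat.dvd_lcm_right _ _)⟩, fun h => by
          rw [Nat.modEq_iff_dvd]
          exact Int.coe_lcm_dvd (Nat.modEq_iff_dvd.1 h.1) (Nat.modEq_iff_dvd.1 h.2)⟩
      rw [hit_eq_class hk hp i hdiv, pairInd_eq hd he h2]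
      by_cases ha : c ≡ c₀ [MOD p] <;> by_cases hb : c ≡ c₀ [MOD pairMod d e] <;>
        simp [hiff, ha, hb]
    simp only [hfun]
    rw [avgAll_class hq, sum_boole, ← div_eq_mul_inv]
    exact abs_card_class_sub_le (Nat.pos_of_dvd_of_pos hq modulus_pos) N c₀
  · push Not at h
    simp [avgAll, h]

/-- **The sum of `1[p ∣ L i] f²`.** -/
theorem sum_hit_sq_le (hk : AdmissibleTuple k D) {p : ℕ} (hp : p ∈ midPrimes D R) (i : Fin k)
    {g : ℕ → ℝ} (hg : ∀ a, |g a| ≤ 1) (N : ℕ) :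
    ∑ j ∈ Ioc N (2 * N), hit D p i j * sieveSum D R g k j ^ 2 ≤
      N * avgAll D R (fun c => hit D p i c * sieveSum D R g k c ^ 2) +
        ((R : ℝ) ^ 3 * (2 ^ k * coeffBound k D R)) ^ 2 := by
  obtain ⟨l, hl⟩ : ∃ l : (Fin k → ℕ) → ℝ, l = sieveCoeff D R g := ⟨_, rfl⟩
  have hexp : ∀ T : Finset ℕ, ∑ j ∈ T, hit D p i j * sieveSum D R g k j ^ 2 =
      ∑ d ∈ supp k D R, ∑ e ∈ supp k D R,
        l d * l e * ∑ j ∈ T, hit D p i j * pairInd D d e j := by
    intro T
    simp only [sieveSum_eq, hl, pairInd]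
    exact sq_sum_pairs _ _ _ _ _
  have havg : avgAll D R (fun c => hit D p i c * sieveSum D R g k c ^ 2) =
      ∑ d ∈ supp k D R, ∑ e ∈ supp k D R,
        l d * l e * avgAll D R (fun c => hit D p i c * pairInd D d e c) := by
    simp only [avgAll, hexp, sum_div, mul_div_assoc]
  rw [hexp, havg, mul_sum, ← sub_le_iff_le_add', ← sum_sub_distrib]
  refine (sum_le_sum (g := fun d => ∑ e ∈ supp k D R, |l d| * |l e|) fun d hd => ?_).trans ?_
  · rw [mul_sum, ← sum_sub_distrib]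
    refine sum_le_sum fun e he => ?_
    rw [mul_left_comm, ← mul_sub]
    refine (le_abs_self _).trans ?_
    rw [abs_mul, abs_mul]
    exact mul_le_of_le_one_right (mul_nonneg (abs_nonneg _) (abs_nonneg _))
      (abs_sum_hit_pairInd_sub_le hk hp i hd he N)
  rw [← sum_mul_sum, ← sq]
  refine pow_le_pow_left₀ (sum_nonneg fun d _ => abs_nonneg _) ?_ 2
  refine (sum_le_card_nsmul _ _ ((R : ℝ) * coeffBound k D R) fun d hd => ?_).trans ?_
  · rw [hl]
    refine (abs_sieveCoeff_le hg hd).trans (mul_le_mul_of_nonneg_right ?_ coeffBound_nonneg)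
    refine (div_le_self (Nat.cast_nonneg _) ?_).trans (Nat.cast_le.2 (mem_supp.1 hd).2.2)
    exact_mod_cast Nat.totient_pos.2 (prod_pos_of_supp hd)
  · rw [nsmul_eq_mul]
    refine (mul_le_mul_of_nonneg_right card_supp_le
      (mul_nonneg (Nat.cast_nonneg _) coeffBound_nonneg)).trans (le_of_eq ?_)
    ring

theorem stepFun_antitone {r : ℝ} {L : ℕ} {ℓ : ℝ} (h0 : 0 ≤ r) (h1 : r ≤ 1) {a b : ℕ} (ha : 1 ≤ a)
    (hab : a ≤ b) : stepFun r L ℓ b ≤ stepFun r L ℓ a := by
  refine sum_le_sum fun l _ => ?_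
  have := Real.log_le_log (Nat.cast_pos.2 ha) (Nat.cast_le (α := ℝ).2 hab)
  split_ifs with h2 h3
  · exact le_rfl
  · exact absurd (this.trans h2) h3
  · exact stepCoef_nonneg h0 h1 L l
  · exact le_rfl

theorem stepFun_sub_le {r : ℝ} {L : ℕ} {ℓ : ℝ} (h0 : 0 ≤ r) (h1 : r ≤ 1) {p a : ℕ} (hp : 0 < p)
    (ha : 1 ≤ a) :
    stepFun r L ℓ a - stepFun r L ℓ (p * a) ≤ ∑ l ∈ range (L + 1),
      if 2 ^ l * ℓ - Real.log p < Real.log a ∧ Real.log a ≤ 2 ^ l * ℓ then 1 else 0 := by
  rw [stepFun, stepFun, ← sum_sub_distrib]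
  refine sum_le_sum fun l _ => ?_
  have hlog : Real.log ((p * a : ℕ) : ℝ) = Real.log p + Real.log a := by
    push_cast
    exact Real.log_mul (Nat.cast_ne_zero.2 hp.ne') (Nat.cast_ne_zero.2 (by omega))
  have hc1 : stepCoef r L l ≤ 1 := by
    unfold stepCoef
    split_ifs
    · linarith [pow_nonneg h0 (l + 1), pow_le_one₀ h0 h1 (n := l)]
    · exact pow_le_one₀ h0 h1
  have hc0 := stepCoef_nonneg h0 h1 L l
  rw [hlog]
  by_cases hw : 2 ^ l * ℓ - Real.log p < Real.log a ∧ Real.log a ≤ 2 ^ l * ℓ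
  · rw [if_pos hw]
    split_ifs <;> linarith
  · rw [if_neg hw]
    split_ifs with h2 h3 h3
    · simp
    · exact absurd ⟨by linarith [not_le.1 h3], h2⟩ hw
    · linarith
    · simp

/-- **The weight is bounded where the forms have few prime factors.** -/
theorem abs_sieveSum_le (hk : AdmissibleTuple k D) {g : ℕ → ℝ} (hg : ∀ a, |g a| ≤ 1) {j B : ℕ}
    (hB : ∀ i : Fin k, (form D i j).primeFactors.card ≤ B) :
    |sieveSum D R g k j| ≤ ((2 : ℝ) ^ B) ^ k * ((2 : ℝ) ^ (k * B) * coeffBound k D R) := by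
  classical
  rw [sieveSum_eq]
  refine (abs_sum_le_sum_abs _ _).trans ?_
  simp only [abs_mul, dvdInd, apply_ite abs, abs_one, abs_zero, mul_ite, mul_one, mul_zero]
  rw [← sum_filter]
  refine (sum_le_card_nsmul _ _ ((2 : ℝ) ^ (k * B) * coeffBound k D R) fun d hd => ?_).trans ?_
  · rw [mem_filter] at hd
    refine (abs_sieveCoeff_le_two_pow hg hd.1).trans
      (mul_le_mul_of_nonneg_right (pow_le_pow_right₀ one_le_two ?_) coeffBound_nonneg)
    refine le_trans (card_le_card (t := univ.biUnion fun i : Fin k => (form D i j).primeFactors)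
      fun q hq => ?_) ?_
    · rw [Nat.mem_primeFactors] at hq
      obtain ⟨i, -, hi⟩ := (Nat.Prime.prime hq.1).exists_mem_finset_dvd hq.2.1
      exact mem_biUnion.2 ⟨i, mem_univ i, Nat.mem_primeFactors.2
        ⟨hq.1, hi.trans (hd.2 i), (form_pos hk i j).ne'⟩⟩
    · refine card_biUnion_le.trans ((sum_le_card_nsmul _ _ B fun i _ => hB i).trans ?_)
      simp
  · rw [nsmul_eq_mul]
    refine mul_le_mul_of_nonneg_right ?_ (mul_nonneg (by positivity) coeffBound_nonneg)
    have hcard : ((supp k D R).filter fun d => ∀ i : Fin k, d i ∣ form D i j).card ≤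
        (2 ^ B) ^ k := by
      refine (card_le_card (t := Fintype.piFinset fun i : Fin k =>
        (form D i j).primeFactors.powerset.image fun T => ∏ q ∈ T, q) fun d hd => ?_).trans ?_
      · rw [mem_filter] at hd
        rw [Fintype.mem_piFinset]
        exact fun i => mem_image.2 ⟨(d i).primeFactors,
          mem_powerset.2 (Nat.primeFactors_mono (hd.2 i) (form_pos hk i j).ne'),
          Nat.prod_primeFactors_of_squarefree (mem_rough.1 ((mem_supp.1 hd.1).1 i)).2.1⟩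
      · rw [Fintype.card_piFinset]
        refine (prod_le_pow_card _ _ (2 ^ B) fun i _ => ?_).trans ?_
        · exact card_image_le.trans ((card_powerset _).le.trans
            (Nat.pow_le_pow_right two_pos (hB i)))
        · rw [card_univ, Fintype.card_fin]
    exact_mod_cast hcard

/-- The primes `p` with `p ^ M ≤ R`. -/
def smallPrimes (D R M : ℕ) : Finset ℕ := (midPrimes D R).filter fun p => p ^ M ≤ R

theorem card_smallPrimes_le (D R M : ℕ) : (smallPrimes D R M).card ≤ R :=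
  (card_filter_le _ _).trans ((card_filter_le _ _).trans (by simp))

theorem sum_small_log_div_le {C : ℝ} (hC : ∀ n : ℕ, 1 ≤ n →
    |∑ q ∈ ErdosKac.primesUpTo n, Real.log q / q - Real.log n| ≤ C) (hR : 1 ≤ R) {M : ℕ}
    (hM : 0 < M) : ∑ p ∈ smallPrimes D R M, Real.log p / p ≤ Real.log R / M + C := by
  rcases (smallPrimes D R M).eq_empty_or_nonempty with h | h
  · rw [h, sum_empty]
    have : 0 ≤ C := (abs_nonneg _).trans (hC 1 le_rfl)
    have := Real.log_natCast_nonneg R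
    positivity
  obtain ⟨y, hy, hmax⟩ := exists_max_image _ (fun p => p) h
  have hyR : y ^ M ≤ R := (mem_filter.1 hy).2
  have hy1 : 1 ≤ y := (prime_of_mid y (mem_filter.1 hy).1).one_le
  have hly : Real.log y ≤ Real.log R / M := by
    rw [le_div_iff₀ (Nat.cast_pos.2 hM), mul_comm, ← Real.log_pow, ← Nat.cast_pow]
    exact Real.log_le_log (Nat.cast_pos.2 (pow_pos hy1 M)) (Nat.cast_le.2 hyR)
  refine (sum_le_sum_of_subset_of_nonneg (t := ErdosKac.primesUpTo y) (fun p hp => ?_)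
    fun p _ _ => div_nonneg (Real.log_natCast_nonneg p) (Nat.cast_nonneg p)).trans ?_
  · exact ErdosKac.mem_primesUpTo.2 ⟨prime_of_mid p (mem_filter.1 hp).1, hmax p hp⟩
  · linarith [(abs_le.1 (hC y hy1)).2]

omit [Shifts] in
/-- **Many tuples free of small prime factors with more than `m₀` primes**, for every admissible
tuple of `k` forms. -/
theorem exists_count_rough_prime_forms (m₀ : ℕ) : ∃ k D₀ : ℕ, 0 < k ∧ ∀ D, D₀ ≤ D → ∀ [Shifts],
    AdmissibleTuple k D → ∃ (M : ℕ) (c : ℝ), 0 < c ∧ ∀ᶠ N : ℕ in atTop,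
      c * N / Real.log N ^ k ≤ (((Ioc N (2 * N)).filter fun j =>
        m₀ < (univ.filter fun i : Fin k => (form D i j).Prime).card ∧
          ∀ i : Fin k, ∀ q ∈ (form D i j).primeFactors, N ≤ q ^ M).card : ℝ) := by
  classical
  obtain ⟨k, L, ε, hk, hk2, hε0, hε, hb, hl, hgap⟩ := exists_params m₀
  obtain ⟨Φ, hΦ⟩ : ∃ Φ, Φ = lowConst k (stepInt (1 / 2) 2 L) (stepInt (1 / 4) 2 L)
    (stepInt (1 / 4) 4 L) (2 * k * (L + 1)) (4 * k * (L + 1)) ε := ⟨_, rfl⟩
  obtain ⟨P, hP⟩ : ∃ P, P = (1 + ε) * stepInt (1 / 4) 2 L := ⟨_, rfl⟩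
  rw [← hΦ, ← hP] at hgap
  have hP0 : 0 < P := hP ▸ mul_pos (by linarith) (zero_lt_one.trans_le (stepInt_quarter_two L).1)
  have hkr : (2 : ℝ) ≤ k := by exact_mod_cast hk2
  obtain ⟨K, hK⟩ : ∃ K : ℝ, K = 4 * k * (L + 1) := ⟨_, rfl⟩
  rw [← hK] at hgap
  have hK1 : 1 ≤ K := by
    have := mul_le_mul_of_nonneg_left
      (le_add_of_nonneg_left (Nat.cast_nonneg L) : (1 : ℝ) ≤ (L : ℝ) + 1)
      (show (0 : ℝ) ≤ 4 * k by linarith)
    rw [hK]
    linarith
  obtain ⟨gap, hgapdef⟩ : ∃ x, x = (k : ℝ) * (Φ ^ 2 / P ^ (k - 1)) - 21 * m₀ * K * P ^ k :=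
    ⟨_, rfl⟩
  have hgap0 : 0 < gap := by
    rw [hgapdef, sub_pos, ← mul_div_assoc, lt_div_iff₀ (pow_pos hP0 _)]
    refine lt_of_eq_of_lt ?_ (mul_lt_mul_of_pos_left hgap (show (0 : ℝ) < k by linarith))
    field_simp
  obtain ⟨A, hA⟩ : ∃ A : ℝ, A = 21 * k * K * k := ⟨_, rfl⟩
  have hA0 : 0 < A := hA ▸ by positivity
  obtain ⟨D₀, hD₀⟩ : ∃ D₀ : ℕ, ∀ D ≥ D₀, 5 ≤ D ∧ k ≤ D ∧ (D : ℝ)⁻¹ ≤ ε / 2 ∧
      Real.exp (4 * (k : ℝ) / D) ≤ 1 + ε / 4 ∧
      A * (8 * (k : ℝ) ^ 2 * P ^ k) * (D : ℝ)⁻¹ ≤ gap / 8 := by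
    have t1 : Tendsto (fun D : ℕ => (D : ℝ)⁻¹) atTop (𝓝 0) := tendsto_inv_atTop_nhds_zero_nat
    have t2 : Tendsto (fun D : ℕ => Real.exp (4 * (k : ℝ) / D)) atTop (𝓝 (Real.exp 0)) :=
      (Real.continuous_exp.tendsto 0).comp (tendsto_const_div_atTop_nhds_zero_nat _)
    have t3 : Tendsto (fun D : ℕ => A * (8 * (k : ℝ) ^ 2 * P ^ k) * (D : ℝ)⁻¹) atTop (𝓝 0) := by
      simpa using t1.const_mul (A * (8 * (k : ℝ) ^ 2 * P ^ k))
    rw [Real.exp_zero] at t2
    exact ((eventually_ge_atTop 5).and ((eventually_ge_atTop k).and ((t1.eventually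
      (eventually_le_nhds (by linarith : (0 : ℝ) < ε / 2))).and ((t2.eventually
        (eventually_le_nhds (by linarith : (1 : ℝ) < 1 + ε / 4))).and (t3.eventually
          (eventually_le_nhds (by linarith : (0 : ℝ) < gap / 8))))))).exists_forall_of_atTop
  refine ⟨k, D₀, by omega, fun D hD => ?_⟩
  intro _ hDk
  obtain ⟨hD5, -, hDinv, hDexp, hDbad⟩ := hD₀ D hD
  have hδ := density_pos D
  obtain ⟨C, hC⟩ := ErdosKac.exists_abs_sum_log_div_sub_le
  have hC0 : 0 ≤ C := (abs_nonneg _).trans (hC 1 le_rfl)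
  obtain ⟨E, hE⟩ : ∃ E : ℝ,
      E = 6 * ((L : ℝ) + 2) * (1 + 2 * windowConst D) * P ^ (k - 1) := ⟨_, rfl⟩
  have hE0 : 0 < E := by
    have := windowConst_nonneg D
    rw [hE]
    positivity
  obtain ⟨M, hM⟩ := exists_nat_gt (max 1 (16 * (A * E * K) / (gap * density D)))
  have hM1 : (1 : ℝ) < M := (le_max_left _ _).trans_lt hM
  have hM0 : 0 < M := by exact_mod_cast (zero_lt_one.trans hM1)
  have hMbad : A * E * (K / ((M : ℝ) * density D)) ≤ gap / 16 := by
    have h1 := (le_max_right _ _).trans_lt hM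
    rw [div_lt_iff₀ (mul_pos hgap0 hδ)] at h1
    rw [← mul_div_assoc, div_le_div_iff₀ (by positivity) (by norm_num)]
    linarith
  obtain ⟨B, hB⟩ : ∃ B : ℝ, B = max (max 1 ((3 * (D ! : ℕ) + 2) / (ε / 4)))
      (max (16 * (A * E * C) / gap) (4 * ((k : ℝ) + 21 * m₀ * K + 21 * k * K) / gap)) := ⟨_, rfl⟩
  obtain ⟨F, hF⟩ : ∃ F : ℝ,
      F = (((2 : ℝ) ^ (21 * M)) ^ k * ((2 : ℝ) ^ (k * (21 * M)) * (2 * K) ^ k)) ^ 2 := ⟨_, rfl⟩
  have hF0 : 0 < F := hF ▸ by positivity
  refine ⟨21 * M, gap / (42 * k * K * F), by positivity, ?_⟩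
  filter_upwards [eventually_sums hDk hD5, eventually_log_ge (21 * K * (B / density D + 1)),
    eventually_log_pow_le (((k : ℝ) * (2 ^ k * (2 * K) ^ k) ^ 2) ^ 2) (4 * k),
    eventually_ge_atTop (k + 2),
    eventually_ge_atTop ((univ : Finset (Fin k)).sup fun i => shift i)] with N hNsums hNbig hNerr hN
      hsh
  obtain ⟨⟨hR1, hlog⟩, hsums⟩ := hNsums
  obtain ⟨R, hR⟩ : ∃ R, R = level N := ⟨_, rfl⟩
  have hR20 : (R : ℝ) ^ 20 ≤ N := hR ▸ level_pow_le N
  rw [← hR] at hR1 hlog hsums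
  have hRr : (1 : ℝ) ≤ R := Nat.one_le_cast.2 hR1
  obtain ⟨ℓ, hℓ⟩ : ∃ ℓ, ℓ = Real.log R / K := ⟨_, rfl⟩
  have hlogR : Real.log R = K * ℓ := by rw [hℓ]; field_simp
  have hN1 : (1 : ℝ) ≤ N := Nat.one_le_cast.2 (by omega)
  have hW1 : (1 : ℝ) ≤ (D ! : ℕ) := Nat.one_le_cast.2 (Nat.factorial_pos D)
  have hℓB : B / density D + 1 ≤ ℓ := by
    have h1 : Real.log N ≤ Real.log (3 * (D ! : ℕ) * N) :=
      Real.log_le_log (by linarith) (le_mul_of_one_le_left (by linarith) (by linarith))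
    rw [hℓ, le_div_iff₀ (by linarith)]
    linarith
  have hB1 : 1 ≤ B := hB ▸ (le_max_left _ _).trans (le_max_left _ _)
  have hBd : 0 ≤ B / density D := div_nonneg (by linarith) hδ.le
  have hℓ1 : 1 ≤ ℓ := by linarith
  obtain ⟨X, hXdef⟩ : ∃ X, X = density D * ℓ := ⟨_, rfl⟩
  have hX : B ≤ X := by
    have := mul_le_mul_of_nonneg_left hℓB hδ.le
    rw [mul_add, mul_div_cancel₀ _ hδ.ne'] at this
    linarith
  have hX0 : 0 < X := by linarith
  have hscale : LargeScale (4 * k) D ε ℓ := by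
    refine ⟨hε0, by linarith, hD5, hDinv, hDexp, ?_⟩
    have := mul_le_mul_of_nonneg_left (((le_max_right (1 : ℝ) _).trans ((le_max_left _ _).trans
      (le_of_eq hB.symm))).trans hX) (show 0 ≤ ε / 4 by linarith)
    rwa [mul_div_cancel₀ _ (show ε / 4 ≠ 0 by linarith), hXdef] at this
  have hRN : Real.log R ≤ Real.log N :=
    Real.log_le_log (by linarith) ((le_self_pow₀ hRr (by norm_num)).trans hR20)
  have hlogN : 0 < Real.log N := by linarith [mul_le_mul hK1 hℓ1 zero_le_one (by linarith)]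
  have hXN : X ≤ Real.log N :=
    calc X ≤ ℓ := hXdef ▸ mul_le_of_le_one_left (by linarith) (density_le_one D)
      _ ≤ K * ℓ := le_mul_of_one_le_left (by linarith) hK1
      _ ≤ Real.log N := hlogR ▸ hRN
  obtain ⟨g, hg⟩ : ∃ g, g = stepFun (1 / 2) L ℓ := ⟨_, rfl⟩
  have hg01 : ∀ a, 0 ≤ g a ∧ g a ≤ 1 := fun a =>
    hg ▸ stepFun_mem (r := 1 / 2) (by norm_num) (by norm_num) (by linarith) a
  have hgabs : ∀ a, |g a| ≤ 1 := fun a => abs_le.2 ⟨by linarith [(hg01 a).1], (hg01 a).2⟩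
  obtain ⟨hS1, hS2⟩ := hsums g hgabs
  obtain ⟨H, hH⟩ : ∃ H, H = ∑ a ∈ rough D R, g a ^ 2 * (cw (4 * k) a / a) := ⟨_, rfl⟩
  have hH0 : 0 ≤ H := hH ▸ sum_nonneg fun a _ => mul_nonneg (sq_nonneg _)
    (div_nonneg (zero_le_one.trans (one_le_cw (by positivity) a)) (Nat.cast_nonneg a))
  have hHX : H ≤ P * X := by
    rw [hH]
    simp only [hg, stepFun_sq (show 0 ≤ ℓ by linarith)]
    refine (le_of_eq ?_).trans ((hscale.step_upper (r := 1 / 4) (R := R) (by positivity)
      (by norm_num) (by norm_num) L).trans (le_of_eq ?_))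
    · norm_num [oneSum]
    · rw [hP, hXdef]
      ring
  have hQ1 : avgAll D R (fun c => sieveSum D R g k c ^ 2) ≤ P ^ k * X ^ k := by
    refine (avgAll_sq_le hDk hD5).trans ?_
    rw [← hH, ← mul_pow]
    exact pow_le_pow_left₀ hH0 hHX k
  have hcoeff : coeffBound k D R ≤ (2 * K) ^ k * X ^ k := by
    rw [← mul_pow]
    refine pow_le_pow_left₀ (sum_nonneg fun a _ => by positivity) ?_ k
    refine (sum_le_sum (g := fun a => cw (4 * k) a / a) fun a ha => ?_).trans
      ((hscale.all_upper (by positivity)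
        (hlogR ▸ le_mul_of_one_le_left (by linarith) hK1)).trans ?_)
    · exact (inv_totient_le_cw (by omega) ha).trans (div_le_div_of_nonneg_right
        (cw_mono zero_le_two (by linarith) a) (Nat.cast_nonneg a))
    · rw [hlogR, hXdef]
      exact le_trans (mul_le_mul_of_nonneg_right (show 1 + ε ≤ 2 by linarith) (by positivity))
        (le_of_eq (by ring))
  -- the part with a small prime factor
  obtain ⟨S, hSdef⟩ : ∃ S, S = smallPrimes D R M := ⟨_, rfl⟩
  obtain ⟨bad, hbad⟩ : ∃ bad : ℕ → ℝ, bad = fun j => ∑ i : Fin k, ∑ p ∈ S,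
      hit D p i j * sieveSum D R g k j ^ 2 := ⟨_, rfl⟩
  have hbad0 : ∀ j, 0 ≤ bad j := fun j => hbad ▸ sum_nonneg fun i _ => sum_nonneg fun p _ =>
    mul_nonneg (by unfold hit; split_ifs <;> norm_num) (sq_nonneg _)
  have hwin := windowConst_nonneg D
  have hper : ∀ i : Fin k, ∀ p ∈ S, avgAll D R (fun c => hit D p i c * sieveSum D R g k c ^ 2) ≤
      E * X ^ (k - 1) * (Real.log p / p) +
        8 * (k : ℝ) ^ 2 * P ^ k * X ^ k * ((p : ℝ) ^ 2)⁻¹ := by
    intro i p hp
    rw [hSdef, smallPrimes, mem_filter] at hp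
    have hpp := prime_of_mid p hp.1
    have hp2 : (2 : ℝ) ≤ p := by exact_mod_cast hpp.two_le
    have hlp : 1 / 2 ≤ Real.log p := by
      have := Real.log_le_log two_pos hp2
      linarith [Real.log_two_gt_d9]
    refine (avgAll_hit_sq_le hDk hD5 hR1 hp.1 i hg01 (hg ▸ stepFun_one (by linarith))
      (fun a ha => hg ▸ stepFun_antitone (by norm_num) (by norm_num) ha
        (Nat.le_mul_of_pos_left a hpp.pos))
      (n := L + 1) (t := fun l => 2 ^ l * ℓ)
      (fun a ha => hg ▸ stepFun_sub_le (by norm_num) (by norm_num) hpp.pos ha)).trans ?_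
    rw [← hH]
    have h1 : Real.exp (4 * k / D) * (density D * Real.log p + windowConst D) ≤
        3 * ((1 + 2 * windowConst D) * Real.log p) := by
      refine mul_le_mul (hDexp.trans (by linarith)) ?_
        (add_nonneg (mul_nonneg hδ.le (by linarith)) hwin) (by norm_num)
      have h2 := mul_le_mul_of_nonneg_right (density_le_one D) (show 0 ≤ Real.log p by linarith)
      have h3 := mul_le_mul_of_nonneg_left hlp hwin
      linarith
    have h4 : (k : ℝ) ^ 2 / ((p : ℝ) - 1) ^ 2 ≤ 4 * (k : ℝ) ^ 2 / (p : ℝ) ^ 2 := by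
      rw [div_le_div_iff₀ (by nlinarith) (by positivity)]
      have : (p : ℝ) ^ 2 ≤ 4 * ((p : ℝ) - 1) ^ 2 := by nlinarith
      nlinarith [mul_le_mul_of_nonneg_left this (sq_nonneg (k : ℝ))]
    refine (mul_le_mul_of_nonneg_left (add_le_add (mul_le_mul (mul_le_mul_of_nonneg_left h1
      (by positivity)) (pow_le_pow_left₀ hH0 hHX _) (pow_nonneg hH0 _) (by positivity))
      (mul_le_mul h4 (pow_le_pow_left₀ hH0 hHX _) (pow_nonneg hH0 _) (by positivity)))
      (by positivity)).trans ?_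
    rw [mul_add]
    refine add_le_add (le_of_eq ?_) ?_
    · rw [hE, mul_pow]
      push_cast
      ring
    · rw [mul_pow]
      have h5 : 0 ≤ 8 * (k : ℝ) ^ 2 * P ^ k * X ^ k := by positivity
      refine le_trans (le_of_eq (show _ = 8 * (k : ℝ) ^ 2 * P ^ k * X ^ k *
        (((p : ℝ) ^ 2)⁻¹ * (p : ℝ)⁻¹) by ring)) (mul_le_mul_of_nonneg_left ?_ h5)
      exact mul_le_of_le_one_right (by positivity) (inv_le_one_of_one_le₀ (by linarith))
  have herr : (k : ℝ) * R * ((R : ℝ) ^ 3 * (2 ^ k * coeffBound k D R)) ^ 2 ≤ N := by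
    refine le_of_pow_le_pow_left₀ two_ne_zero (by linarith) ?_
    calc ((k : ℝ) * R * ((R : ℝ) ^ 3 * (2 ^ k * coeffBound k D R)) ^ 2) ^ 2
        ≤ ((k : ℝ) * R * ((R : ℝ) ^ 3 * (2 ^ k * ((2 * K) ^ k * Real.log N ^ k))) ^ 2) ^ 2 := by
          have := coeffBound_nonneg (k := k) (D := D) (R := R)
          gcongr
          exact hcoeff.trans (by gcongr)
      _ = (R : ℝ) ^ 14 *
          ((((k : ℝ) * (2 ^ k * (2 * K) ^ k) ^ 2) ^ 2) * Real.log N ^ (4 * k)) := by ring
      _ ≤ (N : ℝ) ^ 2 := by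
          rw [sq (N : ℝ)]
          exact mul_le_mul ((pow_le_pow_right₀ hRr (by norm_num)).trans hR20) hNerr
            (by positivity) (by linarith)
  have hbadsum : ∑ j ∈ Ioc N (2 * N), bad j ≤
      (N : ℝ) * ((k : ℝ) * (E * X ^ (k - 1) * (Real.log R / M + C) +
        8 * (k : ℝ) ^ 2 * P ^ k * X ^ k * (D : ℝ)⁻¹)) + N := by
    simp only [hbad]
    rw [sum_comm]
    refine (sum_le_sum (g := fun _ : Fin k => (N : ℝ) * (E * X ^ (k - 1) * (Real.log R / M + C) +
      8 * (k : ℝ) ^ 2 * P ^ k * X ^ k * (D : ℝ)⁻¹) +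
        (R : ℝ) * ((R : ℝ) ^ 3 * (2 ^ k * coeffBound k D R)) ^ 2) fun i _ => ?_).trans ?_
    · rw [sum_comm]
      refine (sum_le_sum (g := fun p : ℕ => (N : ℝ) * (E * X ^ (k - 1) * (Real.log p / p) +
        8 * (k : ℝ) ^ 2 * P ^ k * X ^ k * ((p : ℝ) ^ 2)⁻¹) +
          ((R : ℝ) ^ 3 * (2 ^ k * coeffBound k D R)) ^ 2) fun p hp => ?_).trans ?_
      · exact (sum_hit_sq_le hDk (mem_filter.1 (by rw [hSdef] at hp; exact hp)).1 i hgabs N).trans
          (add_le_add (mul_le_mul_of_nonneg_left (hper i p hp) (Nat.cast_nonneg N)) le_rfl)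
      · rw [sum_add_distrib, ← mul_sum, sum_add_distrib, ← mul_sum, ← mul_sum, sum_const,
          nsmul_eq_mul, hSdef]
        refine add_le_add (mul_le_mul_of_nonneg_left (add_le_add
          (mul_le_mul_of_nonneg_left (sum_small_log_div_le hC hR1 hM0) (by positivity))
          (mul_le_mul_of_nonneg_left ((sum_le_sum_of_subset_of_nonneg (filter_subset _ _)
            fun p _ _ => by positivity).trans (sum_midPrimes_inv_sq_le (by omega)))
              (by positivity))) (Nat.cast_nonneg N))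
          (mul_le_mul_of_nonneg_right (Nat.cast_le.2 (card_smallPrimes_le D R M)) (sq_nonneg _))
    · rw [sum_const, card_univ, Fintype.card_fin, nsmul_eq_mul, mul_add, mul_left_comm]
      exact add_le_add le_rfl (by rw [← mul_assoc]; exact herr)
  -- the good `j`
  obtain ⟨G, hG⟩ : ∃ G, G = (Ioc N (2 * N)).filter fun j =>
      m₀ < (univ.filter fun i : Fin k => (form D i j).Prime).card ∧
        ∀ i : Fin k, ∀ q ∈ (form D i j).primeFactors, R < q ^ M := ⟨_, rfl⟩
  have hform : ∀ j ∈ Ioc N (2 * N), ∀ i : Fin k,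
      ((form D i j : ℕ) : ℝ) ≤ 3 * (D ! : ℕ) * N := by
    intro j hj i
    rw [mem_Ioc] at hj
    rw [form]
    exact_mod_cast (show D ! * j + shift i ≤ 3 * D ! * N by
      have h1 : shift i ≤ D ! * N := ((le_sup (f := fun i : Fin k => shift i) (mem_univ i)).trans
        hsh).trans (Nat.le_mul_of_pos_left N (Nat.factorial_pos D))
      have h2 : D ! * j ≤ D ! * (2 * N) := Nat.mul_le_mul_left _ hj.2
      rw [mul_left_comm] at h2
      rw [mul_assoc 3]
      omega)
  have hfG : ∀ j ∈ G, sieveSum D R g k j ^ 2 ≤ F * X ^ (2 * k) := by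
    intro j hj
    rw [hG, mem_filter] at hj
    have hcard : ∀ i : Fin k, (form D i j).primeFactors.card ≤ 21 * M := by
      intro i
      have hpos : 0 < form D i j := form_pos hDk i j
      have h1 : ((form D i j).primeFactors.card : ℝ) * Real.log R ≤
          M * Real.log (form D i j : ℕ) := by
        refine le_trans ?_ (mul_le_mul_of_nonneg_left (Real.log_le_log ?_ (Nat.cast_le.2
          (Nat.le_of_dvd hpos (Nat.prod_primeFactors_dvd _)))) (Nat.cast_nonneg M))
        · rw [Nat.cast_prod, Real.log_prod, mul_sum, ← nsmul_eq_mul]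
          · refine card_nsmul_le_sum _ _ _ fun q hq => ?_
            rw [← Real.log_pow, ← Nat.cast_pow]
            exact Real.log_le_log (by linarith) (Nat.cast_le.2 (hj.2.2 i q hq).le)
          · exact fun q hq => Nat.cast_ne_zero.2 (Nat.prime_of_mem_primeFactors hq).ne_zero
        · exact Nat.cast_pos.2 (prod_pos fun q hq => (Nat.prime_of_mem_primeFactors hq).pos)
      have h2 : ((form D i j).primeFactors.card : ℝ) * Real.log R ≤
          ((21 * M : ℕ) : ℝ) * Real.log R := by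
        refine h1.trans ((mul_le_mul_of_nonneg_left ((Real.log_le_log (Nat.cast_pos.2 hpos)
          (hform j hj.1 i)).trans hlog) (Nat.cast_nonneg M)).trans (le_of_eq ?_))
        push_cast
        ring
      exact Nat.cast_le.1 (le_of_mul_le_mul_right h2
        (hlogR ▸ mul_pos (by linarith) (by linarith)))
    calc sieveSum D R g k j ^ 2
        ≤ (((2 : ℝ) ^ (21 * M)) ^ k * ((2 : ℝ) ^ (k * (21 * M)) *
            ((2 * K) ^ k * X ^ k))) ^ 2 := by
          rw [← sq_abs]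
          refine pow_le_pow_left₀ (abs_nonneg _) ((abs_sieveSum_le hDk hgabs hcard).trans ?_) 2
          gcongr
      _ = F * X ^ (2 * k) := by rw [hF]; ring
  have hpoint : ∀ j ∈ Ioc N (2 * N),
      (∑ m : Fin k, primeWeight D m j * sieveSum D R g k j ^ 2) -
        m₀ * Real.log (3 * (D ! : ℕ) * N) * sieveSum D R g k j ^ 2 ≤
      k * (21 * (K * ℓ)) * ((if j ∈ G then F * X ^ (2 * k) else 0) + bad j) := by
    intro j hj
    have hf2 := sq_nonneg (sieveSum D R g k j)
    have hlog0 : 0 ≤ Real.log (3 * (D ! : ℕ) * N) :=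
      Real.log_nonneg (one_le_mul_of_one_le_of_one_le (by linarith) hN1)
    have hk21 : 0 ≤ (k : ℝ) * (21 * (K * ℓ)) := by positivity
    have hG0 : 0 ≤ (if j ∈ G then F * X ^ (2 * k) else 0) := by split_ifs <;> positivity
    rw [← sum_mul, ← sub_mul]
    simp only [primeWeight, ← sum_filter]
    have hsum : ∑ m ∈ univ.filter (fun m : Fin k => (form D m j).Prime),
        Real.log (form D m j : ℕ) ≤
          ((univ.filter fun m : Fin k => (form D m j).Prime).card : ℝ) *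
            Real.log (3 * (D ! : ℕ) * N) := by
      refine (sum_le_card_nsmul _ _ _ fun m hm => ?_).trans (le_of_eq (nsmul_eq_mul _ _))
      exact Real.log_le_log (Nat.cast_pos.2 (mem_filter.1 hm).2.pos) (hform j hj m)
    by_cases hm : m₀ < (univ.filter fun m : Fin k => (form D m j).Prime).card
    swap
    · refine (mul_nonpos_of_nonpos_of_nonneg ?_ hf2).trans
        (mul_nonneg hk21 (add_nonneg hG0 (hbad0 j)))
      have := mul_le_mul_of_nonneg_right (Nat.cast_le (α := ℝ).2 (not_lt.1 hm)) hlog0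
      linarith
    have hle : (∑ m ∈ univ.filter (fun m : Fin k => (form D m j).Prime),
        Real.log (form D m j : ℕ)) - m₀ * Real.log (3 * (D ! : ℕ) * N) ≤ k * (21 * (K * ℓ)) := by
      have h1 := mul_le_mul (Nat.cast_le (α := ℝ).2 ((card_le_univ
        (univ.filter fun m : Fin k => (form D m j).Prime)).trans (Fintype.card_fin k).le))
        (hlogR ▸ hlog) hlog0 (Nat.cast_nonneg k)
      have : 0 ≤ (m₀ : ℝ) * Real.log (3 * (D ! : ℕ) * N) := by positivity
      linarith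
    refine (mul_le_mul_of_nonneg_right hle hf2).trans (mul_le_mul_of_nonneg_left ?_ hk21)
    by_cases hjG : j ∈ G
    · rw [if_pos hjG]
      exact le_add_of_le_of_nonneg (hfG j hjG) (hbad0 j)
    · rw [if_neg hjG, zero_add]
      simp only [hG, mem_filter, not_and, not_forall, not_lt] at hjG
      obtain ⟨i, q, hq, hqR⟩ := hjG hj hm
      obtain ⟨hqp, hqd, -⟩ := Nat.mem_primeFactors.1 hq
      have hqS : q ∈ S := by
        rw [hSdef, smallPrimes, mem_filter, midPrimes, mem_filter, mem_Ioc]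
        refine ⟨⟨⟨?_, (Nat.le_self_pow hM0.ne' q).trans hqR⟩, hqp⟩, hqR⟩
        exact lt_of_prime_dvd_coprime (form_coprime hDk i j) hqp hqd
      rw [hbad]
      refine le_trans ?_ (single_le_sum (a := i) (fun l _ => sum_nonneg fun p _ =>
        mul_nonneg (by unfold hit; split_ifs <;> norm_num) hf2) (mem_univ i))
      refine le_trans (le_of_eq ?_) (single_le_sum (a := q) (fun p _ =>
        mul_nonneg (by unfold hit; split_ifs <;> norm_num) hf2) hqS)
      rw [hit, if_pos hqd, one_mul]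
  -- the two bounds together
  have hlower : (k : ℝ) * ((N : ℝ) * ℓ * X ^ k * (Φ ^ 2 / P ^ (k - 1)) - N) ≤
      ∑ m : Fin k, ∑ j ∈ Ioc N (2 * N), primeWeight D m j * sieveSum D R g k j ^ 2 := by
    refine le_trans (le_of_eq ?_) (sum_le_sum (f := fun _ =>
      (N : ℝ) * ℓ * X ^ k * (Φ ^ 2 / P ^ (k - 1)) - N) fun m _ => le_trans ?_ (hS2 m))
    · rw [sum_const, card_univ, Fintype.card_fin, nsmul_eq_mul]
    · refine sub_le_sub_right ?_ _
      have h1 := avgAway_ge (R := R) hk hk2 hDk hscale (by linarith) hR1 (by rw [hlogR, hK]) hε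
        hb hl m
      rw [← hΦ, ← hg, ← hXdef, ← hP] at h1
      refine le_trans (le_of_eq ?_) (mul_le_mul_of_nonneg_left h1
        (div_nonneg (mul_nonneg (Nat.cast_nonneg _) (Nat.cast_nonneg _)) (Nat.cast_nonneg _)))
      have e : (density D)⁻¹ * X = ℓ := by rw [hXdef, ← mul_assoc, inv_mul_cancel₀ hδ.ne', one_mul]
      rw [← e, density, inv_div]
      ring
  have hup : (m₀ : ℝ) * Real.log (3 * (D ! : ℕ) * N) *
      ∑ j ∈ Ioc N (2 * N), sieveSum D R g k j ^ 2 ≤
        m₀ * (21 * (K * ℓ)) * ((N : ℝ) * (P ^ k * X ^ k) + N) :=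
    mul_le_mul (mul_le_mul_of_nonneg_left (hlogR ▸ hlog) (Nat.cast_nonneg _))
      (hS1.trans (add_le_add (mul_le_mul_of_nonneg_left hQ1 (Nat.cast_nonneg _)) le_rfl))
      (sum_nonneg fun j _ => sq_nonneg _) (by positivity)
  have hall := sum_le_sum hpoint
  rw [sum_sub_distrib, ← mul_sum, ← mul_sum, sum_add_distrib, sum_ite_mem, sum_const,
    nsmul_eq_mul, inter_eq_right.2 (hG ▸ filter_subset _ _), sum_comm] at hall
  -- the bad part is at most a quarter of the main term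
  have hXk : X ≤ X ^ k := le_self_pow₀ (by linarith) (by omega)
  have hXpred : X ^ (k - 1) * X = X ^ k := by rw [← pow_succ, show k - 1 + 1 = k by omega]
  have hAbad : A * (E * X ^ (k - 1) * (Real.log R / M + C) +
      8 * (k : ℝ) ^ 2 * P ^ k * X ^ k * (D : ℝ)⁻¹) ≤ gap / 4 * X ^ k := by
    have h1 : A * (E * X ^ (k - 1) * (Real.log R / M)) ≤ gap / 16 * X ^ k := by
      refine le_trans (le_of_eq ?_) (mul_le_mul_of_nonneg_right hMbad (by positivity))
      rw [hlogR, ← hXpred, hXdef]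
      field_simp
    have h2 : A * (E * X ^ (k - 1) * C) ≤ gap / 16 * X ^ k := by
      have h := ((le_max_left _ _).trans ((le_max_right _ _).trans (le_of_eq hB.symm))).trans hX
      rw [div_le_iff₀ hgap0] at h
      rw [← hXpred]
      have := mul_le_mul_of_nonneg_right h (pow_nonneg hX0.le (k - 1))
      linarith
    have h3 := mul_le_mul_of_nonneg_right hDbad (pow_nonneg hX0.le k)
    linarith
  have hconst : (k : ℝ) + 21 * m₀ * K + 21 * k * K ≤ gap / 4 * X ^ k := by
    have h := ((le_max_right _ _).trans ((le_max_right _ _).trans (le_of_eq hB.symm))).trans hX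
    rw [div_le_iff₀ hgap0] at h
    linarith [mul_le_mul_of_nonneg_left hXk (show 0 ≤ gap / 4 by linarith)]
  have hNℓ : 0 ≤ (N : ℝ) * ℓ := by positivity
  have hkN : (k : ℝ) * N ≤ N * ℓ * k := by
    linarith [mul_le_mul_of_nonneg_left hℓ1 (show (0 : ℝ) ≤ N * k by positivity)]
  have hbad' := mul_le_mul_of_nonneg_left hbadsum (show 0 ≤ (k : ℝ) * (21 * (K * ℓ)) by positivity)
  have hc1 := mul_le_mul_of_nonneg_left hconst hNℓ
  have hc2 := mul_le_mul_of_nonneg_left hAbad hNℓ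
  have hgapeq : (N : ℝ) * ℓ * X ^ k * gap =
      (N : ℝ) * ℓ * X ^ k * ((k : ℝ) * (Φ ^ 2 / P ^ (k - 1))) -
      (N : ℝ) * ℓ * X ^ k * (21 * m₀ * K * P ^ k) := by
    rw [hgapdef]
    ring
  rw [hA] at hc2
  have key : ℓ * (X ^ k * ((N : ℝ) * gap)) ≤ ℓ * (X ^ k * (42 * k * K * F * G.card * X ^ k)) := by
    rw [show X ^ (2 * k) = X ^ k * X ^ k by rw [two_mul, pow_add]] at hall
    linarith
  have key2 := le_of_mul_le_mul_left (le_of_mul_le_mul_left key (by linarith)) (pow_pos hX0 k)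
  have hGsub : G ⊆ (Ioc N (2 * N)).filter fun j =>
      m₀ < (univ.filter fun i : Fin k => (form D i j).Prime).card ∧
        ∀ i : Fin k, ∀ q ∈ (form D i j).primeFactors, N ≤ q ^ (21 * M) := by
    intro j hj
    rw [hG, mem_filter] at hj
    refine mem_filter.2 ⟨hj.1, hj.2.1, fun i q hq => ?_⟩
    have h1 : N ≤ R ^ 21 := by
      refine (Nat.cast_le (α := ℝ)).1 ((Real.log_le_log_iff (by linarith) (by positivity)).1 ?_)
      push_cast
      rw [Real.log_pow]
      refine le_trans (Real.log_le_log (by linarith)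
        (le_mul_of_one_le_left (by linarith) (by linarith : (1 : ℝ) ≤ 3 * (D ! : ℕ)))) ?_
      push_cast
      exact hlog
    calc N ≤ R ^ 21 := h1
      _ ≤ (q ^ M) ^ 21 := Nat.pow_le_pow_left (hj.2.2 i q hq).le 21
      _ = q ^ (21 * M) := by rw [← pow_mul, mul_comm]
  refine le_trans ?_ (Nat.cast_le.2 (card_le_card hGsub))
  have h42 : (0 : ℝ) < 42 * k * K * F := by positivity
  have hlast : (N : ℝ) * gap ≤ 42 * k * K * F * G.card * Real.log N ^ k :=
    key2.trans (mul_le_mul_of_nonneg_left (pow_le_pow_left₀ hX0.le hXN k)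
      (mul_nonneg h42.le (Nat.cast_nonneg _)))
  rw [div_le_iff₀ (pow_pos hlogN k), div_mul_eq_mul_div, div_le_iff₀ h42]
  linarith

end FA.BoundedGaps
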