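import Fermat.Agent.BoundedGaps.Weights

/-!
# The second moments of the sieve weight

Over the residues modulo the product of the primes in `(D, R]` the mean of `f²` is at most a product
of one-dimensional sums, and over those prime to the `m`-th form it is at least `E[f h]² / E[h²]`
for a test function `h`, with both means bounded by one-dimensional sums.
-/

set_option autoImplicit false
set_option linter.unusedSectionVars false

noncomputable section

namespace FA.BoundedGaps

open Finset
open scoped Nat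

variable [Shifts]

variable {k D R : ℕ}

/-- The product of the primes in `(D, R]`. -/
def modulus (D R : ℕ) : ℕ := ∏ p ∈ midPrimes D R, p

/-- The mean over the residues. -/
def avgAll (D R : ℕ) (F : ℕ → ℝ) : ℝ := (∑ c ∈ range (modulus D R), F c) / modulus D R

/-- The indicator of the residues with `L m` prime to the modulus. -/
def awayAll (D R : ℕ) (m : Fin k) (c : ℕ) : ℝ := ∏ p ∈ midPrimes D R, away D p m c

/-- The mean over the residues with `L m` prime to the modulus. -/
def avgAway (D R : ℕ) (m : Fin k) (F : ℕ → ℝ) : ℝ :=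
  (∑ c ∈ range (modulus D R), awayAll D R m c * F c) / ∏ p ∈ midPrimes D R, ((p : ℝ) - 1)

theorem goodPrime {p : ℕ} (hk : AdmissibleTuple k D) (hp : p ∈ midPrimes D R) : GoodPrime k D p :=
  ⟨(mem_filter.1 hp).2, (mem_Ioc.1 (mem_filter.1 hp).1).1, hk⟩

theorem prime_of_mid : ∀ p ∈ midPrimes D R, p.Prime := fun _ hp => (mem_filter.1 hp).2

theorem modulus_pos : 0 < modulus D R := prod_pos fun p hp => (prime_of_mid p hp).pos

theorem prod_sub_one_pos : 0 < ∏ p ∈ midPrimes D R, ((p : ℝ) - 1) :=
  prod_pos fun p hp => sub_pos.2 (by exact_mod_cast (prime_of_mid p hp).one_lt)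

theorem away_nonneg (D p : ℕ) (m : Fin k) (c : ℕ) : 0 ≤ away D p m c := by
  unfold away hit
  split_ifs <;> norm_num

theorem awayAll_nonneg (m : Fin k) (c : ℕ) : 0 ≤ awayAll D R m c :=
  prod_nonneg fun p _ => away_nonneg D p m c

/-- **Labels bound sums over tuples.** -/
theorem sum_supp_lab_le {G : ℕ → Option (Fin k) → ℝ} (hG : ∀ p ∈ midPrimes D R, ∀ o, 0 ≤ G p o)
    {S : Finset (Fin k → ℕ)} (hS : S ⊆ supp k D R) :
    ∑ r ∈ S, ∏ p ∈ midPrimes D R, G p (lab r p) ≤ ∏ p ∈ midPrimes D R, ∑ o, G p o := by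
  classical
  rw [prod_sum]
  refine le_trans (le_of_eq ?_) (sum_le_sum_of_subset_of_nonneg
    (s := S.image fun r => fun p (_ : p ∈ midPrimes D R) => lab r p) (fun l _ => ?_)
      fun l _ _ => prod_nonneg fun p _ => hG p.1 p.2 _)
  · rw [sum_image]
    · exact sum_congr rfl fun r _ =>
        (prod_attach (midPrimes D R) fun p => G p (lab r p)).symm
    · intro r hr r' hr' h
      exact lab_injective (hS hr) (hS hr') fun p hp => congrFun (congrFun h p) hp
  · simp

/-- A symmetric bound for quadratic forms. -/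
theorem quadratic_le {ι : Type*} (S : Finset ι) (w : ι → ℝ) (L : ι → ι → ℝ) (B : ι → ℝ)
    (hL : ∀ a b, |L a b| = |L b a|) (hB : ∀ a ∈ S, ∑ b ∈ S, |L a b| ≤ B a) :
    ∑ a ∈ S, ∑ b ∈ S, w a * w b * L a b ≤ ∑ a ∈ S, w a ^ 2 * B a := by
  refine (sum_le_sum (g := fun a => ∑ b ∈ S, (w a ^ 2 / 2 * |L a b| + w b ^ 2 / 2 * |L b a|))
    fun a _ => sum_le_sum fun b _ => ?_).trans ?_
  · rw [← hL a b, ← add_mul]
    refine (le_abs_self _).trans ?_
    rw [abs_mul, abs_mul]
    refine mul_le_mul_of_nonneg_right ?_ (abs_nonneg _)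
    nlinarith [sq_nonneg (|w a| - |w b|), sq_abs (w a), sq_abs (w b)]
  · simp only [sum_add_distrib]
    rw [sum_comm (f := fun a b => w b ^ 2 / 2 * |L b a|), ← sum_add_distrib]
    refine sum_le_sum fun a ha => ?_
    rw [← mul_sum, ← add_mul, add_halves]
    exact mul_le_mul_of_nonneg_left (hB a ha) (sq_nonneg _)

theorem coord_prod_eq {r : Fin k → ℕ} (hr : r ∈ supp k D R) (i : Fin k) :
    ((r i : ℕ) : ℝ) = ∏ p ∈ (r i).primeFactors, (p : ℝ) := by
  rw [← Nat.cast_prod,
    Nat.prod_primeFactors_of_squarefree (mem_rough.1 ((mem_supp.1 hr).1 i)).2.1]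

/-- Local factors against one-dimensional weights. -/
theorem prod_lab_le {r : Fin k → ℕ} (hr : r ∈ supp k D R) {C : ℝ} {F : ℕ → Option (Fin k) → ℝ}
    (hnone : ∀ p, F p none = 1)
    (hsome : ∀ p ∈ midPrimes D R, ∀ i, 0 ≤ F p (some i) ∧ F p (some i) ≤ (1 + C / p) / p) :
    ∏ p ∈ midPrimes D R, F p (lab r p) ≤ ∏ i, cw C (r i) / (r i : ℕ) := by
  rw [prod_lab hr F hnone]
  have hsub : ∀ i, ∀ p ∈ (r i).primeFactors, p ∈ midPrimes D R := fun i _ hp =>
    primeFactors_subset ((mem_supp.1 hr).1 i) hp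
  refine prod_le_prod (fun i _ => prod_nonneg fun p hp => (hsome p (hsub i p hp) i).1) fun i _ => ?_
  rw [cw, coord_prod_eq hr i, ← prod_div_distrib]
  exact prod_le_prod (fun p hp => (hsome p (hsub i p hp) i).1)
    fun p hp => (hsome p (hsub i p hp) i).2

theorem three_le_of_mid {p : ℕ} (hD : 5 ≤ D) (hp : p ∈ midPrimes D R) : (6 : ℝ) ≤ p := by
  have := (mem_Ioc.1 (mem_filter.1 hp).1).1
  exact_mod_cast (show 6 ≤ p by omega)

/-- The normalised local moment of two `basicX`. -/
def momXX (D p : ℕ) (o o' : Option (Fin k)) : ℝ :=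
  (∑ c ∈ range p, basicX D p o c * basicX D p o' c) / p

theorem avgAll_mul (r r' : Fin k → ℕ) :
    avgAll D R (fun c => tupleX D R r c * tupleX D R r' c) =
      ∏ p ∈ midPrimes D R, momXX D p (lab r p) (lab r' p) := by
  simp only [avgAll, tupleX, ← prod_mul_distrib, momXX, prod_div_distrib]
  rw [modulus, Nat.cast_prod, ← sum_range_prod prime_of_mid
    fun p c => basicX D p (lab r p) c * basicX D p (lab r' p) c]
  exact fun p _ c => by rw [basicX_mod, basicX_mod]

theorem sum_abs_momXX {p : ℕ} (hp : GoodPrime k D p) (o : Option (Fin k)) :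
    ∑ o' : Option (Fin k), |momXX D p o o'| =
      if o = none then 1 else ((p : ℝ) - 1) + ((k : ℝ) - 1) := by
  obtain ⟨h1, h2, h3, h4⟩ := sum_XX hp
  have hp0 : (p : ℝ) ≠ 0 := Nat.cast_ne_zero.2 hp.prime.ne_zero
  have hp1 : (1 : ℝ) ≤ p := by exact_mod_cast hp.prime.one_lt.le
  rw [Fintype.sum_option]
  cases o with
  | none => simp [momXX, h1, h2, hp0]
  | some i =>
    simp only [momXX, h3, h4, zero_div, abs_zero, zero_add, reduceCtorEq, if_false]
    rw [← add_sum_erase univ _ (mem_univ i), if_pos rfl, mul_div_cancel_left₀ _ hp0,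
      abs_of_nonneg (by linarith), sum_congr rfl fun j hj => by
        rw [if_neg (mem_erase.1 hj).1.symm, neg_div, div_self hp0, abs_neg, abs_one],
      sum_const, card_erase_of_mem (mem_univ i), card_univ, Fintype.card_fin, nsmul_one,
      Nat.cast_sub (by have := i.2; omega), Nat.cast_one]

/-- **The mean over all residues**, from above. -/
theorem avgAll_sq_le (hk : AdmissibleTuple k D) (hD : 5 ≤ D) {g : ℕ → ℝ} :
    avgAll D R (fun c => sieveSum D R g k c ^ 2) ≤
      (∑ a ∈ rough D R, g a ^ 2 * (cw (4 * k) a / a)) ^ k := by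
  obtain ⟨w, hw⟩ : ∃ w : (Fin k → ℕ) → ℝ,
      w = fun r => (∏ i, g (r i)) / ((∏ i, r i).totient : ℝ) := ⟨_, rfl⟩
  obtain ⟨L, hL⟩ : ∃ L : (Fin k → ℕ) → (Fin k → ℕ) → ℝ,
      L = fun r r' => avgAll D R fun c => tupleX D R r c * tupleX D R r' c := ⟨_, rfl⟩
  have e : avgAll D R (fun c => sieveSum D R g k c ^ 2) =
      ∑ r ∈ supp k D R, ∑ r' ∈ supp k D R, w r * w r' * L r r' := by
    simp only [hw, hL, avgAll, sieveSum, sq, sum_mul_sum]
    simp only [mul_sum, sum_div]
    rw [sum_comm]
    refine sum_congr rfl fun r _ => ?_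
    rw [sum_comm]
    exact sum_congr rfl fun r' _ => sum_congr rfl fun c _ => by ring
  rw [e, ← sum_box_prod fun a => g a ^ 2 * (cw (4 * k) a / a)]
  refine (quadratic_le _ w L (fun r => ∏ p ∈ midPrimes D R,
    (if lab r p = none then 1 else ((p : ℝ) - 1) + ((k : ℝ) - 1))) (fun r r' => ?_)
      fun r hr => ?_).trans ?_
  · simp only [hL, mul_comm (tupleX D R r _)]
  · simp only [hL, avgAll_mul, abs_prod]
    refine (sum_supp_lab_le (G := fun p o => |momXX D p (lab r p) o|)
      (fun p _ o => abs_nonneg _) (Subset.refl _)).trans (le_of_eq ?_)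
    exact prod_congr rfl fun p hp => sum_abs_momXX (goodPrime hk hp) _
  refine (sum_le_sum fun r hr => ?_).trans (sum_le_sum_of_subset_of_nonneg (filter_subset _ _)
    fun r _ _ => prod_nonneg fun i _ => mul_nonneg (sq_nonneg _)
      (div_nonneg (zero_le_one.trans (one_le_cw (by positivity) _)) (Nat.cast_nonneg _)))
  rw [hw, div_pow, prod_mul_distrib, prod_pow, totient_prod hr, div_mul_eq_mul_div, mul_div_assoc]
  rw [← prod_pow (midPrimes D R), ← prod_div_distrib]
  refine mul_le_mul_of_nonneg_left ?_ (sq_nonneg _)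
  refine (le_of_eq (prod_congr rfl fun p _ => ?_)).trans (prod_lab_le hr (C := 4 * k)
    (F := fun p o => if o = none then 1 else (((p : ℝ) - 1) + ((k : ℝ) - 1)) / ((p : ℝ) - 1) ^ 2)
    (fun p => if_pos rfl) fun p hp i => ?_)
  · split_ifs <;> simp
  · have h6 := three_le_of_mid hD hp
    have hk1 : (1 : ℝ) ≤ k := by exact_mod_cast (show 1 ≤ k from (Nat.zero_le _).trans_lt i.2)
    rw [if_neg (by simp)]
    refine ⟨div_nonneg (by linarith) (sq_nonneg _), ?_⟩
    rw [div_le_div_iff₀ (by nlinarith) (by linarith), one_add_div (by linarith),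
      div_mul_eq_mul_div, le_div_iff₀ (by linarith)]
    nlinarith [mul_nonneg (mul_nonneg (show (0 : ℝ) ≤ k by linarith)
      (show (0 : ℝ) ≤ p by linarith)) (show (0 : ℝ) ≤ (p : ℝ) - 3 by linarith)]

/-- `r` with the `m`-th coordinate deleted. -/
def delAt (m : Fin k) (r : Fin k → ℕ) : Fin k → ℕ := Function.update r m 1

theorem delAt_mem {m : Fin k} {r : Fin k → ℕ} (hr : r ∈ supp k D R) :
    delAt m r ∈ supp k D R ∧ delAt m r m = 1 := by
  refine ⟨mem_supp_of_dvd hr fun i => ?_, Function.update_self ..⟩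
  rcases eq_or_ne i m with rfl | hi
  · rw [delAt, Function.update_self]
    exact one_dvd _
  · rw [delAt, Function.update_of_ne hi]

theorem awayAll_tupleX {m : Fin k} {r : Fin k → ℕ} (hr : r ∈ supp k D R) (c : ℕ) :
    awayAll D R m c * tupleX D R r c = awayAll D R m c * tupleX D R (delAt m r) c := by
  simp only [awayAll, tupleX, ← prod_mul_distrib]
  refine prod_congr rfl fun p hp => ?_
  have hpp := prime_of_mid p hp
  cases hl : lab r p with
  | none =>
    rw [show lab (delAt m r) p = none from lab_eq_none.2 fun i hi => lab_eq_none.1 hl i ?_]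
    rcases eq_or_ne i m with rfl | hne
    · rw [delAt, Function.update_self] at hi
      exact absurd hi hpp.not_dvd_one
    · rwa [delAt, Function.update_of_ne hne] at hi
  | some j =>
    rcases eq_or_ne j m with rfl | hj
    · rw [show lab (delAt j r) p = none from lab_eq_none.2 fun i hi => ?_]
      · simp only [basicX, away, hit]
        split_ifs <;> simp
      · rcases eq_or_ne i j with rfl | hne
        · rw [delAt, Function.update_self] at hi
          exact hpp.not_dvd_one hi
        · rw [delAt, Function.update_of_ne hne] at hi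
          rw [(lab_eq_some hr hpp i).2 hi, Option.some_inj] at hl
          exact hne hl
    · rw [show lab (delAt m r) p = some j from (lab_eq_some (delAt_mem hr).1 hpp j).2 ?_]
      rw [delAt, Function.update_of_ne hj]
      exact (lab_eq_some hr hpp j).1 hl

theorem lab_ne_some {m : Fin k} {s : Fin k → ℕ} (hs : s ∈ supp k D R) (hm : s m = 1) {p : ℕ}
    (hp : p.Prime) : lab s p ≠ some m := fun h => by
  have := (lab_eq_some hs hp m).1 h
  rw [hm] at this
  exact hp.not_dvd_one this

/-- `∏_p` of `basicZ`. -/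
def tupleZ (D R : ℕ) (s : Fin k → ℕ) (c : ℕ) : ℝ :=
  ∏ p ∈ midPrimes D R, basicZ D p (lab s p) c

/-- The normalised moment of `basicX` and `basicZ`. -/
def momXZ (D p : ℕ) (m : Fin k) (o o' : Option (Fin k)) : ℝ :=
  (∑ c ∈ range p, away D p m c * (basicX D p o c * basicZ D p o' c)) / ((p : ℝ) - 1)

/-- The normalised moment of two `basicZ`. -/
def momZZ (D p : ℕ) (m : Fin k) (o o' : Option (Fin k)) : ℝ :=
  (∑ c ∈ range p, away D p m c * (basicZ D p o c * basicZ D p o' c)) / ((p : ℝ) - 1)

theorem avgAway_XZ (m : Fin k) (r s : Fin k → ℕ) :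
    avgAway D R m (fun c => tupleX D R r c * tupleZ D R s c) =
      ∏ p ∈ midPrimes D R, momXZ D p m (lab r p) (lab s p) := by
  simp only [avgAway, awayAll, tupleX, tupleZ, ← prod_mul_distrib, momXZ, prod_div_distrib]
  rw [modulus, ← sum_range_prod prime_of_mid
    fun p c => away D p m c * (basicX D p (lab r p) c * basicZ D p (lab s p) c)]
  exact fun p _ c => by rw [basicX_mod, basicZ_mod, away_mod]

theorem avgAway_ZZ (m : Fin k) (r s : Fin k → ℕ) :
    avgAway D R m (fun c => tupleZ D R r c * tupleZ D R s c) =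
      ∏ p ∈ midPrimes D R, momZZ D p m (lab r p) (lab s p) := by
  simp only [avgAway, awayAll, tupleZ, ← prod_mul_distrib, momZZ, prod_div_distrib]
  rw [modulus, ← sum_range_prod prime_of_mid
    fun p c => away D p m c * (basicZ D p (lab r p) c * basicZ D p (lab s p) c)]
  exact fun p _ c => by rw [basicZ_mod, basicZ_mod, away_mod]

/-- The sums of `|momXZ|` over the first label, divided by its totient. -/
def rowXZ (D p : ℕ) (m : Fin k) (o' o : Option (Fin k)) : ℝ :=
  if o = some m then 0 else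
    |momXZ D p m o o'| / (if o = none then 1 else (p : ℝ) - 1)

theorem sum_rowXZ {p : ℕ} (hp : GoodPrime k D p) (hp3 : (3 : ℝ) ≤ p) {m : Fin k}
    {o' : Option (Fin k)} (ho : o' ≠ some m) : ∑ o, rowXZ D p m o' o =
      if o' = none then 1 + ((k : ℝ) - 1) / ((p : ℝ) - 1) ^ 2
      else (p : ℝ) * ((p : ℝ) + k - 4) / ((p : ℝ) - 1) ^ 2 := by
  obtain ⟨h1, h2, h3, h4⟩ := sum_XZ hp m
  have hp1 : (p : ℝ) - 1 ≠ 0 := by linarith
  rw [Fintype.sum_option, ← add_sum_erase univ _ (mem_univ m)]
  simp only [rowXZ, if_true, zero_add, reduceCtorEq, if_false, Option.some_inj]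
  rw [sum_congr rfl fun j hj => by rw [if_neg (mem_erase.1 hj).1]]
  cases o' with
  | none =>
    simp only [momXZ, h1, if_true, div_self hp1, abs_one, div_one]
    rw [sum_congr rfl fun j hj => by rw [h3 j (mem_erase.1 hj).1], sum_const,
      card_erase_of_mem (mem_univ m), card_univ, Fintype.card_fin, nsmul_eq_mul,
      Nat.cast_sub (by have := m.2; omega), Nat.cast_one, abs_div, abs_neg, abs_one,
      abs_of_nonneg (by linarith : (0 : ℝ) ≤ (p : ℝ) - 1)]
    field_simp
  | some i =>
    have hi : i ≠ m := fun h => ho (h ▸ rfl)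
    simp only [momXZ, h2 i hi, zero_div, abs_zero, reduceCtorEq, if_false, zero_add]
    rw [← add_sum_erase _ _ (mem_erase.2 ⟨hi, mem_univ i⟩), h4 i i hi hi, if_pos rfl,
      sum_congr rfl fun j hj => by
        rw [h4 j i (mem_erase.1 (mem_erase.1 hj).2).1 hi, if_neg (mem_erase.1 hj).1],
      sum_const, card_erase_of_mem (mem_erase.2 ⟨hi, mem_univ i⟩),
      card_erase_of_mem (mem_univ m), card_univ, Fintype.card_fin, nsmul_eq_mul,
      Nat.cast_sub (by have := m.2; have := i.2; have := Fin.val_ne_of_ne hi; omega),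
      Nat.cast_sub (by have := m.2; omega), Nat.cast_one, abs_div, abs_div, abs_neg, Nat.abs_cast,
      abs_of_nonneg (show (0 : ℝ) ≤ (p : ℝ) * ((p : ℝ) - 2) by nlinarith),
      abs_of_nonneg (by linarith : (0 : ℝ) ≤ (p : ℝ) - 1)]
    field_simp
    ring

theorem sum_abs_momZZ {p : ℕ} (hp : GoodPrime k D p) (hp3 : (3 : ℝ) ≤ p) {m : Fin k}
    {o : Option (Fin k)} (ho : o ≠ some m) :
    ∑ o', (if o' = some m then 0 else |momZZ D p m o o'|) =
      if o = none then 1 else (p : ℝ) + k - 4 := by
  obtain ⟨h1, h2, h3, h4⟩ := sum_ZZ hp m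
  have hp1 : (p : ℝ) - 1 ≠ 0 := by linarith
  rw [Fintype.sum_option, ← add_sum_erase univ _ (mem_univ m)]
  simp only [if_true, zero_add, reduceCtorEq, if_false, Option.some_inj]
  rw [sum_congr rfl fun j hj => by rw [if_neg (mem_erase.1 hj).1]]
  cases o with
  | none =>
    simp only [momZZ, h1, if_true, div_self hp1, abs_one]
    rw [sum_eq_zero fun j hj => by rw [h2 j (mem_erase.1 hj).1, zero_div, abs_zero], add_zero]
  | some i =>
    have hi : i ≠ m := fun h => ho (h ▸ rfl)
    simp only [momZZ, h3 i hi, zero_div, abs_zero, reduceCtorEq, if_false, zero_add]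
    rw [← add_sum_erase _ _ (mem_erase.2 ⟨hi, mem_univ i⟩), h4 i i hi hi, if_pos rfl,
      mul_div_cancel_left₀ _ hp1,
      sum_congr rfl fun j hj => by
        rw [h4 i j hi (mem_erase.1 (mem_erase.1 hj).2).1, if_neg (mem_erase.1 hj).1.symm, neg_div,
          div_self hp1, abs_neg, abs_one],
      sum_const, card_erase_of_mem (mem_erase.2 ⟨hi, mem_univ i⟩),
      card_erase_of_mem (mem_univ m), card_univ, Fintype.card_fin, nsmul_one,
      Nat.cast_sub (by have := m.2; have := i.2; have := Fin.val_ne_of_ne hi; omega),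
      Nat.cast_sub (by have := m.2; omega), Nat.cast_one, abs_of_nonneg (by linarith)]
    ring

end FA.BoundedGaps
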